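import Fermat.Agent.CFT.FlatBound.Normal
import Mathlib.FieldTheory.Finite.Extension

/-!
# The flat bound over any finite field

Passing to the quadratic extension, where all eigenvalues of two-dimensional representations lie,
does not increase the invariants and does not decrease the classes.
-/

set_option autoImplicit false

noncomputable section

open scoped Classical Matrix

namespace FermatAgent.CFT.FlatBound

open GaloisBasic Mazur SelmerP
open Global (zet zet_spec chiQ)
open Selmer (M22 adCoc locCob locFix chiK coe_chiK rep_mul_inv rep_inv_mul)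

section Coordinates

variable {k K : Type} [Field k] [Field K] [Algebra k K]

/-- Base change of matrices. -/
abbrev mapM (K : Type) [Field K] [Algebra k K] : M22 k →+* M22 K := (algebraMap k K).mapMatrix

/-- Base change of representations. -/
def extRep (K : Type) [Field K] [Algebra k K] (r : MatRep k) : MatRep K :=
  ((mapM (k := k) K).toMonoidHom).comp r

lemma extRep_apply (r : MatRep k) (g : GQ) : extRep K r g = mapM K (r g) := rfl

/-- Base change of functions. -/
def extFun (K : Type) [Field K] [Algebra k K] (c : GQ → M22 k) : GQ → M22 K :=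
  fun g => mapM K (c g)

lemma coord_mulVec (φ : K →ₗ[k] k) (M : M22 k) (v : V2 K) :
    (fun i => φ ((mapM K M *ᵥ v) i)) = M *ᵥ fun i => φ (v i) := by
  funext i
  simp [Matrix.mulVec, dotProduct, Fin.sum_univ_two, ← Algebra.smul_def]

lemma coord_mul_mul (φ : K →ₗ[k] k) (M N : M22 k) (X : M22 K) :
    (mapM K M * X * mapM K N).map φ = M * X.map φ * N := by
  ext i j
  simp only [Matrix.map_apply, Matrix.mul_apply, Fin.sum_univ_two, RingHom.mapMatrix_apply, add_mul,
    map_add]
  have e : ∀ a b : k, ∀ x : K, φ (algebraMap k K a * x * algebraMap k K b) = a * φ x * b :=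
    fun a b x => by
      rw [show algebraMap k K a * x * algebraMap k K b = (a * b) • x by
        rw [Algebra.smul_def, map_mul]; ring, map_smul, smul_eq_mul]
      ring
  simp only [e]

end Coordinates

variable {k : Type} [Field k] [Finite k] {p : ℕ} [hp : Fact p.Prime] [CharP k p]
  {A : ValuationSubring Qbar} {r : MatRep k}

/-- Eigenvalues lie in the quadratic extension. -/
lemma exists_eigen (M : M22 k) :
    ∃ (a : FiniteField.Extension k p 2) (v : V2 (FiniteField.Extension k p 2)),
      v ≠ 0 ∧ mapM (FiniteField.Extension k p 2) M *ᵥ v = a • v := by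
  set K := FiniteField.Extension k p 2
  obtain ⟨a, ha⟩ : ∃ a : K, (mapM K M).charpoly.IsRoot a := by
    set f := M.charpoly
    have hf : f.Monic := Matrix.charpoly_monic M
    have hdeg : f.natDegree = 2 := by rw [Matrix.charpoly_natDegree_eq_dim, Fintype.card_fin]
    have hmap : (mapM K M).charpoly = f.map (algebraMap k K) :=
      Matrix.charpoly_map M (algebraMap k K)
    rw [hmap]
    by_cases hr : f.roots = 0
    · have hirr : Irreducible f :=
        (hf.irreducible_iff_roots_eq_zero_of_degree_le_three hdeg.ge (by omega)).mpr hr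
      have hdvd := hirr.natDegree_dvd_iff_dvd_X_pow_card_pow_sub_X.mp (dvd_of_eq hdeg)
      have hs : (f.map (algebraMap k K)).Splits := by
        refine Polynomial.Splits.of_dvd ?_ ?_ (Polynomial.map_dvd (algebraMap k K) hdvd)
        · exact Polynomial.IsSplittingField.splits K (Polynomial.X ^ Nat.card k ^ 2 - Polynomial.X)
        · exact Polynomial.map_ne_zero
            (FiniteField.X_pow_card_pow_sub_X_ne_zero k two_ne_zero Finite.one_lt_card)
      exact hs.exists_eval_eq_zero (by
        rw [Polynomial.degree_map, Polynomial.degree_eq_natDegree hf.ne_zero, hdeg]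
        decide)
    · obtain ⟨b, hb⟩ := Multiset.exists_mem_of_ne_zero hr
      exact ⟨algebraMap k K b, (Polynomial.isRoot_of_mem_roots hb).map⟩
  rw [Polynomial.IsRoot, Matrix.eval_charpoly] at ha
  obtain ⟨v, hv, hv0⟩ := Matrix.exists_mulVec_eq_zero_iff.mpr ha
  refine ⟨a, v, hv, ?_⟩
  rw [Matrix.sub_mulVec, sub_eq_zero] at hv0
  rw [← hv0]
  funext i
  simp [Matrix.scalar_apply, Matrix.mulVec_diagonal]

/-- Flat cocycles stay flat. -/
lemma IsFlatCoc.extend {c : GQ → M22 k} (h : IsFlatCoc A r c) :
    IsFlatCoc A (extRep (FiniteField.Extension k p 2) r)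
      (extFun (FiniteField.Extension k p 2) c) := by
  obtain ⟨Z⟩ := h
  set K := FiniteField.Extension k p 2
  let b : Module.Basis (Fin 2) k K :=
    Module.finBasisOfFinrankEq k K (FiniteField.finrank_extension k p 2)
  let co : Fin 2 → (V2 K × V2 K →+ V2 k × V2 k) := fun l => AddMonoidHom.mk'
    (fun x => (fun i => b.coord l (x.1 i), fun i => b.coord l (x.2 i))) fun x y => by
      simp only [Prod.fst_add, Prod.snd_add, Pi.add_apply, map_add, Prod.mk_add_mk]
      rfl
  let Φ : V2 K × V2 K →+ (V2 k × V2 k) × (V2 k × V2 k) := (co 0).prod (co 1)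
  refine ⟨(Z.prod Z).restrict Φ (fun x y hxy => ?_) fun σ _ x => ?_⟩
  · have key : ∀ u w : K, b.coord 0 u = b.coord 0 w → b.coord 1 u = b.coord 1 w → u = w :=
      fun u w h0 h1 => b.ext_elem fun i => by fin_cases i <;> assumption
    refine Prod.ext (funext fun i => key _ _ ?_ ?_) (funext fun i => key _ _ ?_ ?_)
    · exact congrFun (congrArg (fun z => z.1.1) hxy) i
    · exact congrFun (congrArg (fun z => z.2.1) hxy) i
    · exact congrFun (congrArg (fun z => z.1.2) hxy) i
    · exact congrFun (congrArg (fun z => z.2.2) hxy) i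
  · have hco : ∀ l, co l (extAct (extRep K r) (extFun K c) σ x) =
        extAct r c σ (co l x) := fun l => by
      refine Prod.ext (coord_mulVec (b.coord l) (r σ) x.1) ?_
      show (fun i => b.coord l ((mapM K (r σ) *ᵥ x.2 + (mapM K (c σ) * mapM K (r σ)) *ᵥ x.1) i)) = _
      rw [← map_mul (mapM (k := k) K)]
      show _ = r σ *ᵥ (fun i => b.coord l (x.2 i)) + (c σ * r σ) *ᵥ fun i => b.coord l (x.1 i)
      rw [← coord_mulVec, ← coord_mulVec]
      funext i
      exact map_add (b.coord l) _ _
    exact Prod.ext (hco 0) (hco 1)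

section BaseChange

variable {K : Type} [Field K] [Algebra k K]

omit hp [CharP k p] [Finite k]

lemma map_smul_mapM (φ : K →ₗ[k] k) (x : K) (M : M22 k) :
    (x • mapM K M).map φ = φ x • M := by
  ext i j
  show φ (x * algebraMap k K (M i j)) = φ x * M i j
  rw [mul_comm x, ← Algebra.smul_def, map_smul, smul_eq_mul, mul_comm]

/-- Combinations that become coboundaries after applying a coordinate. -/
lemma coord_locCob (φ : K →ₗ[k] k) {D : Subgroup GQ} {n : ℕ} (t : Fin n → K)
    (c : Fin n → GQ → M22 k) (h : ∑ l, t l • extFun K (c l) ∈ locCob (extRep K r) D) :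
    ∑ l, φ (t l) • c l ∈ locCob r D := by
  obtain ⟨e, he⟩ := h
  refine ⟨e.map φ, fun g hg => ?_⟩
  have h1 : (∑ l, t l • mapM K (c l g)) = mapM K (r g) * e * mapM K (r g⁻¹) - e := by
    rw [← extRep_apply, ← extRep_apply, ← he g hg, Finset.sum_apply]
    rfl
  have h2 := congrArg (fun X : M22 K => φ.mapMatrix X) h1
  simp only [map_sum, map_sub] at h2
  rw [Finset.sum_apply]
  calc ∑ l, (φ (t l) • c l) g = ∑ l, φ.mapMatrix (t l • mapM K (c l g)) :=
        Finset.sum_congr rfl fun l _ => (map_smul_mapM φ (t l) (c l g)).symm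
    _ = _ := by
      rw [h2, ← coord_mul_mul φ (r g) (r g⁻¹) e]
      rfl

/-- Classes stay independent. -/
theorem exists_span (D : Subgroup GQ) (V : Submodule k (GQ → M22 k)) [Module.Finite k V] :
    ∃ V₂ : Submodule K (GQ → M22 K), Module.Finite K V₂ ∧
      V₂ ≤ Submodule.span K (extFun K '' (V : Set (GQ → M22 k))) ∧
      (V₂ ⊓ locCob (extRep K r) D : Submodule K (GQ → M22 K)) = ⊥ ∧
      Module.finrank k V ≤ Module.finrank k (V ⊓ locCob r D : Submodule k (GQ → M22 k)) +
        Module.finrank K V₂ := by
  set C : Submodule k (GQ → M22 k) := V ⊓ locCob r D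
  obtain ⟨U, hU⟩ := Submodule.exists_isCompl C
  set W : Submodule k (GQ → M22 k) := U ⊓ V
  have hsup : C ⊔ W = V := by
    rw [show C ⊔ W = C ⊔ U ⊓ V from rfl, ← sup_inf_assoc_of_le U (inf_le_left : C ≤ V),
      hU.sup_eq_top, top_inf_eq]
  have hdisj : C ⊓ W = ⊥ := le_bot_iff.mp
    ((inf_le_inf_left C (inf_le_left : W ≤ U)).trans hU.inf_eq_bot.le)
  have : Module.Finite k C :=
    Module.Finite.of_injective (Submodule.inclusion (inf_le_left : C ≤ V))
      (Submodule.inclusion_injective _)
  have : Module.Finite k W :=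
    Module.Finite.of_injective (Submodule.inclusion (inf_le_right : W ≤ V))
      (Submodule.inclusion_injective _)
  have hsum := Submodule.finrank_sup_add_finrank_inf_eq C W
  rw [hsup, hdisj, finrank_bot, add_zero] at hsum
  set m := Module.finrank k W
  let bW := Module.finBasis k W
  let c : Fin m → GQ → M22 k := fun l => (bW l : GQ → M22 k)
  let u : Fin m → GQ → M22 K := fun l => extFun K (c l)
  have hc : LinearIndependent k c :=
    bW.linearIndependent.map' W.subtype (Submodule.ker_subtype W)
  have key : ∀ t : Fin m → K, ∑ l, t l • u l ∈ locCob (extRep K r) D → t = 0 := by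
    intro t ht
    obtain ⟨φ, hφ⟩ := Module.Projective.exists_dual_ne_zero k (x := (1 : K)) one_ne_zero
    funext l
    by_contra hl
    set φs : K →ₗ[k] k := φ.comp (LinearMap.mulLeft k (t l)⁻¹)
    have hW : ∑ i, φs (t i) • c i ∈ W :=
      Submodule.sum_mem _ fun i _ => W.smul_mem _ (bW i).2
    have h0 : ∑ i, φs (t i) • c i = 0 :=
      (Submodule.mem_bot k).mp
        (hdisj.le ⟨⟨hW.2, coord_locCob φs t c ht⟩, hW⟩)
    have := Fintype.linearIndependent_iff.mp hc _ h0 l
    refine hφ ?_
    change φ ((t l)⁻¹ * t l) = 0 at this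
    rwa [inv_mul_cancel₀ hl] at this
  have hli : LinearIndependent K u := Fintype.linearIndependent_iff.mpr fun t ht l =>
    congrFun (key t (by rw [ht]; exact (locCob (extRep K r) D).zero_mem)) l
  refine ⟨Submodule.span K (Set.range u), Module.Finite.span_of_finite K (Set.finite_range u),
    Submodule.span_mono ?_, (Submodule.eq_bot_iff _).mpr fun x hx => ?_, ?_⟩
  · rintro _ ⟨l, rfl⟩
    exact ⟨c l, (bW l).2.2, rfl⟩
  · obtain ⟨t, ht⟩ := (Submodule.mem_span_range_iff_exists_fun K).mp hx.1
    have h := key t (by rw [ht]; exact hx.2)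
    rw [← ht, h]
    simp
  · rw [finrank_span_eq_card hli, Fintype.card_fin]
    omega

/-- Invariants do not increase. -/
theorem finrank_locFix_extRep_le (D : Subgroup GQ) (b : Module.Basis (Fin 2) k K) :
    Module.finrank K (locFix (extRep K r) D) ≤ Module.finrank k (locFix r D) := by
  let bF := Module.finBasis k (locFix r D)
  let w : Fin (Module.finrank k (locFix r D)) → M22 K := fun l => mapM K (bF l : M22 k)
  have hle : locFix (extRep K r) D ≤ Submodule.span K (Set.range w) := by
    rintro X ⟨htr, hX⟩
    have hco : ∀ l, X.map (b.coord l) ∈ locFix r D := fun l => by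
      refine ⟨?_, fun g hg => ?_⟩
      · have := congrArg (b.coord l) htr
        rw [map_zero, Matrix.trace_fin_two, map_add] at this
        rw [Matrix.trace_fin_two]
        exact this
      · rw [← coord_mul_mul (b.coord l), ← extRep_apply, ← extRep_apply, hX g hg]
    have hspan : ∀ Y : locFix r D,
        mapM K (Y : M22 k) ∈ Submodule.span K (Set.range w) := fun Y => by
      conv => arg 2; rw [← bF.sum_repr Y]
      rw [Submodule.coe_sum, map_sum]
      refine Submodule.sum_mem _ fun l _ => ?_
      rw [show mapM K ((bF.repr Y l • bF l : locFix r D) : M22 k) =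
        algebraMap k K (bF.repr Y l) • w l from by ext i j; simp [w]]
      exact Submodule.smul_mem _ _ (Submodule.subset_span ⟨l, rfl⟩)
    have hXsum : X = ∑ l, b l • mapM K (X.map (b.coord l)) := by
      ext i j
      conv_lhs => rw [← b.sum_repr (X i j)]
      simp only [Matrix.sum_apply, Matrix.smul_apply, RingHom.mapMatrix_apply, Matrix.map_apply,
        Module.Basis.coord_apply, smul_eq_mul]
      exact Finset.sum_congr rfl fun l _ => by rw [Algebra.smul_def, mul_comm]
    rw [hXsum]
    exact Submodule.sum_mem _ fun l _ => Submodule.smul_mem _ _ (hspan ⟨_, hco l⟩)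
  have : Module.Finite K (Submodule.span K (Set.range w)) :=
    Module.Finite.span_of_finite K (Set.finite_range w)
  exact (Submodule.finrank_mono hle).trans
    ((finrank_range_le_card w).trans (le_of_eq (Fintype.card_fin _)))

lemma extFun_mem {c : GQ → M22 k} (hc : c ∈ adCoc r) : extFun K c ∈ adCoc (extRep K r) :=
  ⟨fun g h => by
    show mapM K (c (g * h)) = mapM K (c g) + mapM K (r g) * mapM K (c h) * mapM K (r g⁻¹)
    rw [hc.1, map_add, map_mul, map_mul],
  fun g => by
    have h := congrArg (algebraMap k K) (hc.2 g)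
    rw [map_zero] at h
    show (mapM K (c g)).trace = 0
    rw [← h, Matrix.trace_fin_two, Matrix.trace_fin_two, map_add]
    rfl⟩

end BaseChange

variable (hA : A.LiesOverPrime p) (hp2 : p ≠ 2)
  (hdet : ∀ σ ∈ A.inertiaSubgroupIn ℚ, (r σ).det = (chiK k p σ : k))
  (hcont : ∃ L : IntermediateField ℚ Qbar, FiniteDimensional ℚ L ∧
    ∀ σ ∈ L.fixingSubgroup, r σ = 1)
  (hflat : IsFlatCoc A r 0)
include hA hp2 hdet hcont hflat

/-- **The flat bound.** -/
theorem finrank_le_flat (V : Submodule k (GQ → M22 k)) [Module.Finite k V]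
    (hV : ∀ c ∈ V, c ∈ adCoc r ∧ IsContFun c ∧ IsFlatCoc A r c) :
    Module.finrank k V ≤
      Module.finrank k (V ⊓ locCob r (A.decompositionSubgroup ℚ) :
        Submodule k (GQ → M22 k)) +
      Module.finrank k (locFix r (A.decompositionSubgroup ℚ)) + 1 := by
  have : CharP (FiniteField.Extension k p 2) p :=
    charP_of_injective_algebraMap (algebraMap k (FiniteField.Extension k p 2)).injective p
  obtain ⟨V₂, hfin, hle, hinf, hdim⟩ :=
    exists_span (K := FiniteField.Extension k p 2) (r := r) (A.decompositionSubgroup ℚ) V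
  have hgen : V₂ ≤ Submodule.span (FiniteField.Extension k p 2)
      {c | c ∈ adCoc (extRep (FiniteField.Extension k p 2) r) ∧ IsContFun c ∧
        IsFlatCoc A (extRep (FiniteField.Extension k p 2) r) c} := by
    refine hle.trans (Submodule.span_mono ?_)
    rintro _ ⟨c, hc, rfl⟩
    obtain ⟨h1, h2, h3⟩ := hV c hc
    exact ⟨extFun_mem h1, h2.comp _ (map_zero (mapM (k := k) (FiniteField.Extension k p 2))),
      h3.extend⟩
  have hdet₂ : ∀ σ ∈ A.inertiaSubgroupIn ℚ, (extRep (FiniteField.Extension k p 2) r σ).det =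
      (chiK (FiniteField.Extension k p 2) p σ : FiniteField.Extension k p 2) := fun σ hσ => by
    rw [extRep_apply, ← RingHom.map_det, hdet σ hσ, coe_chiK, coe_chiK]
    exact DFunLike.congr_fun (Subsingleton.elim
      ((algebraMap k (FiniteField.Extension k p 2)).comp (ZMod.castHom (dvd_refl p) k))
      (ZMod.castHom (dvd_refl p) (FiniteField.Extension k p 2))) _
  have hcont₂ : ∃ L : IntermediateField ℚ Qbar, FiniteDimensional ℚ L ∧
      ∀ σ ∈ L.fixingSubgroup, extRep (FiniteField.Extension k p 2) r σ = 1 := by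
    obtain ⟨L, hL, h⟩ := hcont
    exact ⟨L, hL, fun σ hσ => by rw [extRep_apply, h σ hσ, map_one]⟩
  have hflat₂ : IsFlatCoc A (extRep (FiniteField.Extension k p 2) r) 0 := by
    have h := hflat.extend (p := p)
    rwa [show extFun (FiniteField.Extension k p 2) (0 : GQ → M22 k) = 0 from
      funext fun g => map_zero (mapM (k := k) (FiniteField.Extension k p 2))] at h
  have hbound := finrank_le_split hA hp2 hdet₂ hcont₂ hflat₂
    (fun σ => exists_eigen (p := p) (r σ)) V₂ hgen
  rw [hinf, finrank_bot] at hbound
  have hfix := finrank_locFix_extRep_le (r := r) (A.decompositionSubgroup ℚ)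
    (Module.finBasisOfFinrankEq k (FiniteField.Extension k p 2)
      (FiniteField.finrank_extension k p 2))
  omega

end FermatAgent.CFT.FlatBound

end
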