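import Fermat.Agent.CFT.FlatBound.Lead
import Fermat.Agent.CFT.Selmer.LocalCond
import Fermat.Agent.CFT.Selmer.Decomp

/-!
# Extensions attached to cocycles

The module of a deformation to dual numbers as an extension of a representation by itself,
changes of coordinates, and cocycles on a decomposition group determined by inertia and a
Frobenius element.
-/

set_option autoImplicit false

noncomputable section

open scoped Classical Matrix

namespace FermatAgent.CFT.FlatBound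

open GaloisBasic Mazur SelmerP
open Flat (Sys)
open Selmer (M22 adCoc locCob locFix rep_mul_inv)

variable {k : Type} [Field k]

/-- Column vectors. -/
abbrev V2 (k : Type) : Type := Fin 2 → k

/-- The action on the extension given by a cocycle. -/
def extAct (r : MatRep k) (c : GQ → M22 k) (σ : GQ) (x : V2 k × V2 k) : V2 k × V2 k :=
  (r σ *ᵥ x.1, r σ *ᵥ x.2 + (c σ * r σ) *ᵥ x.1)

/-- The action on column vectors. -/
def repAct (r : MatRep k) (σ : GQ) (v : V2 k) : V2 k := r σ *ᵥ v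

/-- The extension of a cocycle has a coordinate system at the place. -/
def IsFlatCoc (A : ValuationSubring Qbar) (r : MatRep k) (c : GQ → M22 k) : Prop :=
  Nonempty (Sys A ⊤ (extAct r c))

/-- Vanishing at some level. -/
def IsContFun {W : Type} [Zero W] (c : GQ → W) : Prop :=
  ∃ L : IntermediateField ℚ Qbar, FiniteDimensional ℚ L ∧ ∀ σ ∈ L.fixingSubgroup, c σ = 0

/-- The coboundary of a matrix. -/
def cobf (r : MatRep k) (e : M22 k) : GQ → M22 k := fun g => r g * e * r g⁻¹ - e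

/-- Coboundaries are adjoint cocycles. -/
lemma cobf_mem (r : MatRep k) (e : M22 k) : cobf r e ∈ adCoc r := by
  refine ⟨fun g h => ?_, fun g => ?_⟩
  · simp only [cobf, mul_inv_rev, map_mul, mul_sub, sub_mul, mul_assoc]; abel
  · simp [cobf, Matrix.trace_sub, Selmer.trace_rep_conj]

/-- The extension action fixes zero. -/
lemma extAct_zero (r : MatRep k) (c : GQ → M22 k) (σ : GQ) : extAct r c σ 0 = 0 := by
  simp [extAct]

/-- Adjoint cocycles vanish at one. -/
lemma coc_one {r : MatRep k} {c : GQ → M22 k} (hc : c ∈ adCoc r) : c 1 = 0 := by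
  simpa using hc.1 1 1

variable {A : ValuationSubring Qbar} {r : MatRep k}

/-- Coboundaries do not change flatness. -/
theorem IsFlatCoc.add_cob {c : GQ → M22 k} (h : IsFlatCoc A r c) (e : M22 k) :
    IsFlatCoc A r (c + cobf r e) := by
  obtain ⟨Z⟩ := h
  let Φ : V2 k × V2 k →+ V2 k × V2 k := AddMonoidHom.mk' (fun x => (x.1, x.2 + e *ᵥ x.1))
    fun x y => by
      simp only [Prod.fst_add, Prod.snd_add, Matrix.mulVec_add, Prod.mk_add_mk]
      congr 1
      abel
  refine ⟨Z.restrict Φ (fun x y hxy => ?_) fun σ _ x => ?_⟩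
  · change ((x.1, x.2 + e *ᵥ x.1) : V2 k × V2 k) = (y.1, y.2 + e *ᵥ y.1) at hxy
    rw [Prod.mk.injEq] at hxy
    obtain ⟨h1, h2⟩ := hxy
    rw [h1] at h2
    exact Prod.ext h1 (add_right_cancel h2)
  · refine Prod.ext rfl ?_
    show r σ *ᵥ x.2 + ((c + cobf r e) σ * r σ) *ᵥ x.1 + e *ᵥ (r σ *ᵥ x.1) =
      r σ *ᵥ (x.2 + e *ᵥ x.1) + (c σ * r σ) *ᵥ x.1
    rw [Matrix.mulVec_add, Matrix.mulVec_mulVec, Matrix.mulVec_mulVec, add_assoc, add_assoc,
      ← Matrix.add_mulVec, ← Matrix.add_mulVec]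
    congr 2
    rw [Pi.add_apply, cobf, add_mul, sub_mul, mul_assoc (r σ * e), ← map_mul, inv_mul_cancel,
      map_one, mul_one]
    abel

/-- The conjugate representation. -/
def conjRep (P : (M22 k)ˣ) (r : MatRep k) : MatRep k where
  toFun σ := P.1 * r σ * (P⁻¹).1
  map_one' := by rw [map_one, mul_one, P.mul_inv]
  map_mul' σ τ := by
    simp only [map_mul, mul_assoc]
    rw [← mul_assoc (P⁻¹).1 P.1, P.inv_mul, one_mul]

/-- The conjugate representation. -/
lemma conjRep_apply (P : (M22 k)ˣ) (r : MatRep k) (σ : GQ) :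
    conjRep P r σ = P.1 * r σ * (P⁻¹).1 := rfl

/-- Conjugation of cocycles. -/
def conjLin (P : (M22 k)ˣ) : (GQ → M22 k) ≃ₗ[k] (GQ → M22 k) where
  toFun c σ := P.1 * c σ * (P⁻¹).1
  invFun c σ := (P⁻¹).1 * c σ * P.1
  left_inv c := funext fun σ => by
    simp only [mul_assoc, P.inv_mul, mul_one]
    rw [← mul_assoc (P⁻¹).1, P.inv_mul, one_mul]
  right_inv c := funext fun σ => by
    simp only [mul_assoc, P.mul_inv, mul_one]
    rw [← mul_assoc P.1, P.mul_inv, one_mul]
  map_add' a b := funext fun σ => by simp [mul_add, add_mul]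
  map_smul' t a := funext fun σ => by simp

lemma conjLin_apply (P : (M22 k)ˣ) (c : GQ → M22 k) (σ : GQ) :
    conjLin P c σ = P.1 * c σ * (P⁻¹).1 := rfl

/-- Conjugation carries cocycles to cocycles of the conjugate. -/
lemma conjLin_mem (P : (M22 k)ˣ) {c : GQ → M22 k} (hc : c ∈ adCoc r) :
    conjLin P c ∈ adCoc (conjRep P r) := by
  refine ⟨fun g h => ?_, fun g => ?_⟩
  · simp only [conjLin_apply, conjRep_apply, hc.1 g h, mul_add, add_mul, mul_assoc]
    simp only [← mul_assoc (P⁻¹).1 P.1, P.inv_mul, one_mul]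
  · rw [conjLin_apply, Matrix.trace_units_conj, hc.2]

/-- Flatness is invariant under conjugation. -/
theorem IsFlatCoc.conj {c : GQ → M22 k} (h : IsFlatCoc A r c) (P : (M22 k)ˣ) :
    IsFlatCoc A (conjRep P r) (conjLin P c) := by
  obtain ⟨Z⟩ := h
  let Φ : V2 k × V2 k →+ V2 k × V2 k := AddMonoidHom.mk'
    (fun x => ((P⁻¹).1 *ᵥ x.1, (P⁻¹).1 *ᵥ x.2))
    fun x y => by simp [Matrix.mulVec_add]
  refine ⟨Z.restrict Φ (fun x y hxy => ?_) fun σ _ x => ?_⟩
  · have key : ∀ v w : V2 k, (P⁻¹).1 *ᵥ v = (P⁻¹).1 *ᵥ w → v = w := fun v w e => by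
      have h := congrArg (fun z => P.1 *ᵥ z) e
      simp only [Matrix.mulVec_mulVec, P.mul_inv, Matrix.one_mulVec] at h
      exact h
    exact Prod.ext (key _ _ (congrArg (Prod.fst : V2 k × V2 k → V2 k) hxy))
      (key _ _ (congrArg (Prod.snd : V2 k × V2 k → V2 k) hxy))
  · refine Prod.ext ?_ ?_
    · show (P⁻¹).1 *ᵥ ((conjRep P r σ) *ᵥ x.1) = r σ *ᵥ ((P⁻¹).1 *ᵥ x.1)
      simp only [conjRep_apply, Matrix.mulVec_mulVec, ← mul_assoc, P.inv_mul, one_mul]
    · show (P⁻¹).1 *ᵥ (conjRep P r σ *ᵥ x.2 + (conjLin P c σ * conjRep P r σ) *ᵥ x.1) =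
        r σ *ᵥ ((P⁻¹).1 *ᵥ x.2) + (c σ * r σ) *ᵥ ((P⁻¹).1 *ᵥ x.1)
      simp only [conjRep_apply, conjLin_apply, Matrix.mulVec_add, Matrix.mulVec_mulVec, mul_assoc]
      simp only [← mul_assoc (P⁻¹).1 P.1, P.inv_mul, one_mul]

/-- The representation as a module with coordinates. -/
theorem IsFlatCoc.rep {c : GQ → M22 k} (h : IsFlatCoc A r c) :
    Nonempty (Sys A ⊤ (repAct r)) := by
  obtain ⟨Z⟩ := h
  refine ⟨Z.restrict (AddMonoidHom.inr (V2 k) (V2 k))
    (fun x y hxy => congrArg Prod.snd hxy) fun σ _ x => ?_⟩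
  simp [extAct, repAct]

/-- Functions vanishing on inertia and at a Frobenius element vanish on the decomposition
group. -/
theorem vanish_decomposition {W : Type} [AddCommGroup W] {p : ℕ} [hp : Fact p.Prime]
    (hA : A.LiesOverPrime p) {F : GQ} (hF : A.IsFrobeniusAt F p) (f : GQ → W)
    (T : GQ → W →+ W) (hcoc : ∀ g ∈ A.decompositionSubgroup ℚ, ∀ h ∈ A.decompositionSubgroup ℚ,
      f (g * h) = f g + T g (f h))
    (L : IntermediateField ℚ Qbar) [FiniteDimensional ℚ L]
    (hL : ∀ σ ∈ L.fixingSubgroup, σ ∈ A.decompositionSubgroup ℚ → f σ = 0)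
    (hI : ∀ σ ∈ A.inertiaSubgroupIn ℚ, f σ = 0) (hFz : f F = 0) {g : GQ}
    (hg : g ∈ A.decompositionSubgroup ℚ) : f g = 0 := by
  have hFD := hF.mem_decompositionSubgroup
  obtain ⟨j, ι, hι, u, hu, rfl⟩ := exists_frob_pow_mul_inertia hp.out hA hF hg L
  have hιD := inertiaSubgroupIn_le_decompositionSubgroup A hι
  have hjD := pow_mem hFD j
  have huD := (Subgroup.mul_mem_cancel_left _ (mul_mem hjD hιD)).mp hg
  have hpow : ∀ n, f (F ^ n) = 0 := fun n => by
    induction n with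
    | zero => rw [pow_zero]; exact hI 1 (one_mem _)
    | succ n ih => rw [pow_succ, hcoc _ (pow_mem hFD n) _ hFD, ih, hFz, map_zero, add_zero]
  rw [hcoc _ (mul_mem hjD hιD) _ huD, hL u hu huD, map_zero, add_zero, hcoc _ hjD _ hιD, hpow,
    hI ι hι, map_zero, add_zero]

/-- Inertia is generated by a tame generator and the subgroup fixing the root. -/
theorem exists_pow_mul_mem {p : ℕ} [hp : Fact p.Prime] (R : TameRoot A p) {σ₀ : GQ}
    (hσ₀ : σ₀ ∈ A.inertiaSubgroupIn ℚ) (hprim : IsPrimitiveRoot (σ₀ R.π / R.π) R.e) {σ : GQ}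
    (hσ : σ ∈ A.inertiaSubgroupIn ℚ) : ∃ j : ℕ, (σ₀ ^ j)⁻¹ * σ ∈ R.H := by
  have : NeZero R.e := ⟨R.e_pos.ne'⟩
  obtain ⟨j, -, hj⟩ := hprim.eq_pow_of_pow_eq_one (R.kappa_pow σ)
  refine ⟨j, mem_rootFix.mpr ⟨mul_mem (inv_mem (pow_mem hσ₀ j)) hσ, ?_⟩⟩
  have e : σ R.π = (σ₀ ^ j) R.π := by
    rw [← div_mul_cancel₀ (σ R.π) R.ne_zero, ← hj, ← R.kappa_pow_smul hσ₀,
      div_mul_cancel₀ _ R.ne_zero]
  rw [AlgEquiv.mul_apply, e]
  exact (σ₀ ^ j).symm_apply_apply _

/-- **Bounds from normal shapes.** -/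
theorem finrank_le_of_shape {T : Type*} [AddCommGroup T] [Module k T]
    (V C N : Submodule k (GQ → M22 k)) [Module.Finite k V] (φ : N →ₗ[k] T) (n : ℕ)
    [Module.Finite k (LinearMap.range φ)] (hn : Module.finrank k (LinearMap.range φ) ≤ n)
    (hker : ∀ x : N, φ x = 0 → (x : GQ → M22 k) ∈ C) (hV : V ≤ N ⊔ C) :
    Module.finrank k V ≤ Module.finrank k (V ⊓ C : Submodule k (GQ → M22 k)) + n := by
  let qN : N →ₗ[k] (GQ → M22 k) ⧸ C := C.mkQ.comp N.subtype
  let qV : V →ₗ[k] (GQ → M22 k) ⧸ C := C.mkQ.comp V.subtype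
  have hle : LinearMap.ker φ ≤ LinearMap.ker qN := fun x hx =>
    (Submodule.Quotient.mk_eq_zero C).mpr (hker x hx)
  let ψ : (N ⧸ LinearMap.ker φ) →ₗ[k] (GQ → M22 k) ⧸ C := (LinearMap.ker φ).liftQ qN hle
  have hrange : LinearMap.range qV ≤ LinearMap.range ψ := by
    rintro _ ⟨⟨v, hv⟩, rfl⟩
    obtain ⟨a, ha, b, hb, hab⟩ := Submodule.mem_sup.mp (hV hv)
    refine ⟨Submodule.Quotient.mk ⟨a, ha⟩, ?_⟩
    refine (Submodule.Quotient.eq C).mpr ?_
    show a - v ∈ C
    rw [← hab, show a - (a + b) = -b by abel]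
    exact C.neg_mem hb
  have : Module.Finite k (N ⧸ LinearMap.ker φ) :=
    Module.Finite.equiv (LinearMap.quotKerEquivRange φ).symm
  have h1 : Module.finrank k (LinearMap.range qV) ≤ n :=
    ((Submodule.finrank_mono hrange).trans (LinearMap.finrank_range_le ψ)).trans
      ((LinearMap.quotKerEquivRange φ).finrank_eq.trans_le hn)
  have h2 : Module.finrank k (LinearMap.ker qV) ≤
      Module.finrank k (V ⊓ C : Submodule k (GQ → M22 k)) := by
    have : Module.Finite k (V ⊓ C : Submodule k (GQ → M22 k)) :=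
      Module.Finite.of_injective (Submodule.inclusion inf_le_left) (Submodule.inclusion_injective _)
    let f : LinearMap.ker qV →ₗ[k] (V ⊓ C : Submodule k (GQ → M22 k)) :=
      { toFun := fun x => ⟨x.1.1, x.1.2, (Submodule.Quotient.mk_eq_zero C).mp x.2⟩
        map_add' := fun _ _ => rfl
        map_smul' := fun _ _ => rfl }
    refine LinearMap.finrank_le_finrank_of_injective (f := f) fun x y h => ?_
    exact Subtype.ext (Subtype.ext (congrArg (fun z => z.1) h))
  have := qV.finrank_range_add_finrank_ker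
  omega

end FermatAgent.CFT.FlatBound

end
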