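import Fermat.Agent.CFT.SelmerP.Sys

/-!
# Leading terms of coordinate differences

Coordinate differences are additive up to second order, and their leading terms turn inertia
into powers of the tame character.
-/

set_option autoImplicit false

noncomputable section

open scoped Classical

namespace FermatAgent.CFT.FlatBound

open GaloisBasic Mazur SelmerP
open Flat (Sys tens valBall)

variable {A : ValuationSubring Qbar} {S : Subgroup GQ} {M : Type} [AddCommGroup M]
  {act : GQ → M → M} {Z : Sys A S act}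

/-- The bilinearity bound of second differences. -/
theorem bilin_le {x y : M} {s t : A.ValueGroup} (hx : Z.Close x s) (hy : Z.Close y t)
    {f : M → Qbar} (hf : f ∈ Z.B) :
    A.valuation (f (x + y) - f x - f y + f 0) ≤ s * t := by
  let D : (M × M → Qbar) →ₗ[A] Qbar :=
    { toFun := fun Q => Q (x, y) - Q (x, 0) - Q (0, y) + Q (0, 0)
      map_add' := fun Q Q' => by simp only [Pi.add_apply]; ring
      map_smul' := fun c Q => by
        simp only [Pi.smul_apply, smul_sub, smul_add, RingHom.id_apply] }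
  have hle : Submodule.span A (tens Z.gens Z.gens : Set (M × M → Qbar)) ≤
      (valBall A (s * t)).comap D := by
    refine Submodule.span_le.mpr fun Q hQ => ?_
    obtain ⟨g, hg, k, hk, rfl⟩ := Finset.mem_image₂.mp hQ
    show A.valuation (g x * k y - g x * k 0 - g 0 * k y + g 0 * k 0) ≤ s * t
    rw [show g x * k y - g x * k 0 - g 0 * k y + g 0 * k 0 = (g x - g 0) * (k y - k 0) by ring,
      map_mul]
    exact mul_le_mul' (hx g hg) (hy k hk)
  have h := hle (Z.add_mem_tens hf)
  change A.valuation (f (x + y) - f (x + 0) - f (0 + y) + f (0 + 0)) ≤ s * t at h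
  simpa using h

/-- Zero is close to zero at every radius. -/
theorem close_zero (t : A.ValueGroup) : Z.Close 0 t := fun g _ => by simp

theorem close_add {x y : M} {t : A.ValueGroup} (ht : t ≤ 1) (hx : Z.Close x t)
    (hy : Z.Close y t) : Z.Close (x + y) t := fun g hg => by
  rw [show g (x + y) - g 0 = (g (x + y) - g x - g y + g 0) + ((g x - g 0) + (g y - g 0)) by ring]
  exact Valuation.map_add_le _ ((bilin_le hx hy (Z.gen_mem hg)).trans
    ((mul_le_mul' le_rfl ht).trans (mul_one t).le)) (Valuation.map_add_le _ (hx g hg) (hy g hg))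

/-- Differences are additive up to second order. -/
theorem approx_sum {κ : Type*} (s : Finset κ) (z : κ → M) {t : A.ValueGroup} (ht : t ≤ 1)
    (h : ∀ a ∈ s, Z.Close (z a) t) :
    Z.Close (∑ a ∈ s, z a) t ∧ ∀ f ∈ Z.B,
      A.valuation ((f (∑ a ∈ s, z a) - f 0) - ∑ a ∈ s, (f (z a) - f 0)) ≤ t * t := by
  induction s using Finset.induction with
  | empty => simp [close_zero]
  | insert a s ha ih =>
    obtain ⟨h1, h2⟩ := ih fun c hc => h c (Finset.mem_insert_of_mem hc)
    have h0 := h a (Finset.mem_insert_self a s)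
    rw [Finset.sum_insert ha]
    refine ⟨close_add ht h0 h1, fun f hf => ?_⟩
    rw [Finset.sum_insert ha, show f (z a + ∑ c ∈ s, z c) - f 0 - (f (z a) - f 0 +
        ∑ c ∈ s, (f (z c) - f 0)) = (f (z a + ∑ c ∈ s, z c) - f (z a) - f (∑ c ∈ s, z c) + f 0) +
        ((f (∑ c ∈ s, z c) - f 0) - ∑ c ∈ s, (f (z c) - f 0)) by ring]
    exact Valuation.map_add_le _ (bilin_le h0 h1 hf) (h2 f hf)

/-- Differences of combinations with natural coefficients. -/
theorem approx_comb (N : ℕ) (m : ℕ → ℕ) (z : ℕ → M) {t : A.ValueGroup} (ht : t ≤ 1)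
    (h : ∀ k < N, Z.Close (z k) t) {f : M → Qbar} (hf : f ∈ Z.B) :
    A.valuation ((f (∑ k ∈ Finset.range N, m k • z k) - f 0) -
      ∑ k ∈ Finset.range N, (m k : Qbar) * (f (z k) - f 0)) ≤ t * t := by
  have hin : ∀ k < N, Z.Close (m k • z k) t ∧
      A.valuation ((f (m k • z k) - f 0) - (m k : Qbar) * (f (z k) - f 0)) ≤ t * t := fun k hk => by
    have := approx_sum (Z := Z) (Finset.range (m k)) (fun _ => z k) ht fun _ _ => h k hk
    simp only [Finset.sum_const, Finset.card_range, nsmul_eq_mul] at this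
    exact ⟨this.1, this.2 f hf⟩
  obtain ⟨-, h2⟩ := approx_sum (Finset.range N) (fun k => m k • z k) ht
    fun k hk => (hin k (Finset.mem_range.mp hk)).1
  rw [show (f (∑ k ∈ Finset.range N, m k • z k) - f 0) -
      ∑ k ∈ Finset.range N, (m k : Qbar) * (f (z k) - f 0) =
      ((f (∑ k ∈ Finset.range N, m k • z k) - f 0) -
        ∑ k ∈ Finset.range N, (f (m k • z k) - f 0)) +
      ∑ k ∈ Finset.range N, ((f (m k • z k) - f 0) - (m k : Qbar) * (f (z k) - f 0)) by
    simp only [Finset.sum_sub_distrib]; ring]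
  exact Valuation.map_add_le _ (h2 f hf)
    (Valuation.map_sum_le _ fun k hk => (hin k (Finset.mem_range.mp hk)).2)

/-- Some generator moves a translate as much as the farthest one moves the origin. -/
theorem exists_move {z : M} (y : M) {g₀ : M → Qbar} (hg₀ : g₀ ∈ Z.gens) :
    ∃ g ∈ Z.gens, A.valuation (g₀ z - g₀ 0) ≤ A.valuation (g (y + z) - g y) := by
  obtain ⟨g, hg, hmax⟩ := Z.gens.exists_max_image (fun g => A.valuation (g (y + z) - g y))
    ⟨g₀, hg₀⟩
  exact ⟨g, hg, Z.close_of_translate y hmax g₀ hg₀⟩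

/-- Inertia moves everything inside the kernel of reduction. -/
theorem small_act_sub {p : ℕ} [hp : Fact p.Prime] (hA : A.LiesOverPrime p) {σ : GQ}
    (hσ : σ ∈ A.inertiaSubgroupIn ℚ) (hσS : σ ∈ S) (x : M) : Z.Small (act σ x - x) := fun g hg => by
  obtain ⟨k, hk, hle⟩ := exists_move (Z := Z) (z := act σ x - x) x hg
  refine hle.trans_lt ?_
  rw [add_sub_cancel, Z.equiv k hk σ hσS]
  exact valuation_map_sub_lt_one hp.out hA hσ (val_le_one (Z.integral k hk x))

/-- The decomposition group preserves the kernel of reduction. -/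
theorem small_map {σ : GQ} (hσ : σ ∈ A.decompositionSubgroup ℚ) (hσS : σ ∈ S)
    (h0 : act σ 0 = 0) {x : M} (hx : Z.Small x) : Z.Small (act σ x) := fun g hg => by
  rw [Z.equiv g hg σ hσS, show g 0 = σ (g 0) by rw [← Z.equiv g hg σ hσS, h0], ← map_sub,
    SelmerP.val_map hσ]
  exact hx g hg

end FermatAgent.CFT.FlatBound

namespace FermatAgent.CFT.SelmerP.TameRoot

open GaloisBasic Mazur

variable {A : ValuationSubring Qbar} {p : ℕ} [hp : Fact p.Prime] (R : TameRoot A p)

/-- The residual tame character. -/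
def kap (σ : GQ) : IsLocalRing.ResidueField A := red A (σ R.π / R.π)

lemma kap_pow_e (σ : GQ) : R.kap σ ^ R.e = 1 := by
  rw [kap, ← red_pow (R.kappa_mem σ), R.kappa_pow, red_one]

/-- The tame multiplier is nonzero. -/
lemma kap_ne_zero (σ : GQ) : R.kap σ ≠ 0 := fun h => by
  have := R.kap_pow_e σ
  rw [h, zero_pow R.e_pos.ne'] at this
  exact zero_ne_one this

/-- The tame multiplier of a power. -/
lemma kappa_pow_smul {σ : GQ} (hσ : σ ∈ A.inertiaSubgroupIn ℚ) (k : ℕ) :
    (σ ^ k) R.π / R.π = (σ R.π / R.π) ^ k := by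
  induction k with
  | zero => rw [pow_zero, pow_zero]; exact div_self R.ne_zero
  | succ k ih => rw [pow_succ', R.kappa_mul hσ, ih, pow_succ']

/-- A generator of tame inertia. -/
theorem exists_generator : ∃ σ ∈ A.inertiaSubgroupIn ℚ, IsPrimitiveRoot (σ R.π / R.π) R.e ∧
    IsPrimitiveRoot (R.kap σ) R.e := by
  have : NeZero R.e := ⟨R.e_pos.ne'⟩
  obtain ⟨ζ, hζ⟩ := HasEnoughRootsOfUnity.exists_primitiveRoot Qbar R.e
  obtain ⟨σ, hσ, h⟩ := R.exists_inertia_smul hζ.pow_eq_one
  have hz : σ R.π / R.π = ζ := by rw [h, mul_div_cancel_right₀ _ R.ne_zero]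
  refine ⟨σ, hσ, hz ▸ hζ, (IsPrimitiveRoot.iff R.e_pos).mpr ⟨R.kap_pow_e σ, fun l hl hle h1 => ?_⟩⟩
  rw [kap, hz, ← red_pow (hz ▸ R.kappa_mem σ), ← red_one (A := A),
    red_eq_red_iff (pow_mem (hz ▸ R.kappa_mem σ) l) (one_mem A)] at h1
  have h2 := root_eq_of_sub_lt hp.out R.lies R.not_dvd (x := ζ ^ l) (y := 1) R.e_pos.ne'
    (map_one _) (by rw [← pow_mul, mul_comm, pow_mul, hζ.pow_eq_one, one_pow, one_pow]) h1
  exact hζ.pow_ne_one_of_pos_of_lt hl.ne' hle h2

/-- An element fixed by `H` annihilated to leading order by a polynomial in an element of inertia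
has exponent a root of the polynomial. -/
theorem lead_zero {σ : GQ} (hσ : σ ∈ A.inertiaSubgroupIn ℚ) {w : Qbar} {n : ℕ}
    (hv : A.valuation w = A.valuation R.π ^ n) (N : ℕ) (m : ℕ → ℕ)
    (hsum : A.valuation (∑ k ∈ Finset.range N, (m k : Qbar) * (σ ^ k) w) < A.valuation R.π ^ n) :
    ∑ k ∈ Finset.range N, (m k : IsLocalRing.ResidueField A) * (R.kap σ ^ n) ^ k = 0 := by
  set u := w / R.π ^ n with hu
  have hπn : R.π ^ n ≠ 0 := pow_ne_zero _ R.ne_zero
  have hu1 : A.valuation u = 1 := by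
    rw [hu, map_div₀, hv, map_pow, div_self (pow_ne_zero _ R.val_ne_zero)]
  have huA : u ∈ A := mem_of_val hu1.le
  have hσD := inertia_le_decomposition hσ
  have e : ∀ k : ℕ, (σ ^ k) w = ((σ R.π / R.π) ^ k) ^ n * (σ ^ k) u * R.π ^ n := fun k => by
    rw [show w = u * R.π ^ n from (div_mul_cancel₀ _ hπn).symm, map_mul, map_pow,
      ← R.kappa_pow_smul hσ, div_pow]
    field_simp
  rw [Finset.sum_congr rfl fun k _ => by rw [e, ← mul_assoc], ← Finset.sum_mul, map_mul,
    map_pow] at hsum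
  have hlt : A.valuation (∑ k ∈ Finset.range N, (m k : Qbar) *
      (((σ R.π / R.π) ^ k) ^ n * (σ ^ k) u)) < 1 := by
    by_contra h
    rw [not_lt] at h
    exact not_le.mpr hsum (le_mul_of_one_le_left' h)
  have hmem : ∀ k : ℕ, ((σ R.π / R.π) ^ k) ^ n * (σ ^ k) u ∈ A := fun k =>
    mul_mem (pow_mem (pow_mem (R.kappa_mem σ) _) _)
      (map_mem_of_mem_decomposition (pow_mem hσD k) huA)
  rw [← red_eq_zero_iff (sum_mem fun k _ => mul_mem (natCast_mem A _) (hmem k)),
    red_sum _ fun k _ => mul_mem (natCast_mem A _) (hmem k)] at hlt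
  rw [Finset.sum_congr rfl (g := fun k => (m k : IsLocalRing.ResidueField A) * (R.kap σ ^ n) ^ k *
      red A u) fun k _ => by
    rw [red_mul (natCast_mem A _) (hmem k), red_natCast,
      red_mul (pow_mem (pow_mem (R.kappa_mem σ) _) _)
        (map_mem_of_mem_decomposition (pow_mem hσD k) huA),
      red_inertia R.lies (pow_mem hσ k) huA, red_pow (pow_mem (R.kappa_mem σ) _),
      red_pow (R.kappa_mem σ), ← kap, ← pow_mul, ← pow_mul, mul_comm k n, mul_assoc],
    ← Finset.sum_mul] at hlt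
  refine (mul_eq_zero.mp hlt).resolve_right ?_
  rw [red_eq_zero_iff huA, hu1]
  exact lt_irrefl 1

end FermatAgent.CFT.SelmerP.TameRoot

namespace FermatAgent.CFT.FlatBound

open GaloisBasic Mazur SelmerP
open Flat (Sys)

variable {A : ValuationSubring Qbar} {p : ℕ} [hp : Fact p.Prime] (R : TameRoot A p)
  {S : Subgroup GQ} {M : Type} [AddCommGroup M] {act : GQ → M → M} {Z : Sys A S act}

/-- **The level of an element fixed by `H`**: the largest difference is a power of the root at
most `eK`. -/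
theorem exists_level (hHS : R.H ≤ S) {z : M} (hz : z ≠ 0) (hpz : p • z = 0)
    (hfix : ∀ h ∈ R.H, act h z = z ∧ act h 0 = 0) :
    ∃ d : ℕ, d ≤ R.eK ∧ Z.Close z (A.valuation R.π ^ d) ∧
      (∃ g ∈ Z.gens, A.valuation (g z - g 0) = A.valuation R.π ^ d) ∧
      (Z.Small z → 1 ≤ d) := by
  obtain ⟨g, hg, hmax, hpos⟩ := Z.exists_max hz
  obtain ⟨g₁, hg₁, hfar⟩ := Z.exists_far R.lies hz hpz
  have hne : g z - g 0 ≠ 0 := fun h => by rw [h, map_zero] at hpos; exact lt_irrefl _ hpos
  obtain ⟨i, hi⟩ := R.exists_zpow hne fun h hh => by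
    rw [map_sub, ← Z.equiv g hg h (hHS hh), ← Z.equiv g hg h (hHS hh), (hfix h hh).1,
      (hfix h hh).2]
  have h1 : A.valuation (g z - g 0) ≤ 1 :=
    val_le_one (sub_mem (Z.integral g hg z) (Z.integral g hg 0))
  rw [hi, ← zpow_zero (A.valuation R.π), R.zpow_le] at h1
  obtain ⟨d, rfl⟩ := Int.eq_ofNat_of_zero_le h1
  rw [zpow_natCast] at hi
  have h2 : A.valuation (p : Qbar) ≤ (A.valuation R.π ^ d) ^ (p - 1) :=
    hfar.trans (pow_le_pow_left₀ zero_le ((hmax g₁ hg₁).trans_eq hi) _)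
  rw [R.val_natCast_p, ← pow_mul, R.pow_le, R.e_eq] at h2
  refine ⟨d, Nat.le_of_mul_le_mul_right h2 (by have := hp.out.two_le; omega), hi ▸ hmax,
    ⟨g, hg, hi⟩, fun hs => ?_⟩
  by_contra hd
  rw [not_le, Nat.lt_one_iff] at hd
  subst hd
  exact lt_irrefl (1 : A.ValueGroup) (by simpa [hi] using hs g hg)

/-- Relations among conjugates of an element constrain the exponents of its differences below
twice its level. -/
theorem level_relation {σ : GQ} (hσ : σ ∈ A.inertiaSubgroupIn ℚ) (hσS : ∀ k : ℕ, σ ^ k ∈ S)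
    (hσ0 : ∀ k : ℕ, act (σ ^ k) 0 = 0) {z : M} {t : A.ValueGroup} (ht : t ≤ 1)
    (hclose : Z.Close z t) (N : ℕ) (m : ℕ → ℕ)
    (hrel : ∑ k ∈ Finset.range N, m k • act (σ ^ k) z = 0) {g : M → Qbar} (hg : g ∈ Z.gens) :
    A.valuation (∑ k ∈ Finset.range N, (m k : Qbar) * (σ ^ k) (g z - g 0)) ≤ t * t := by
  have hconj : ∀ k : ℕ, ∀ f ∈ Z.gens,
      f (act (σ ^ k) z) - f 0 = (σ ^ k) (f z - f 0) := fun k f hf => by
    rw [map_sub, ← Z.equiv f hf _ (hσS k), ← Z.equiv f hf _ (hσS k), hσ0 k]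
  have hck : ∀ k : ℕ, Z.Close (act (σ ^ k) z) t := fun k f hf => by
    rw [hconj k f hf, SelmerP.val_map (pow_mem (inertiaSubgroupIn_le_decompositionSubgroup A hσ) k)]
    exact hclose f hf
  have h := approx_comb N m (fun k => act (σ ^ k) z) ht (fun k _ => hck k) (Z.gen_mem hg)
  rw [hrel, sub_self, zero_sub, Valuation.map_neg] at h
  rw [Finset.sum_congr rfl fun k _ => by rw [← hconj k g hg]]
  exact h

end FermatAgent.CFT.FlatBound

end
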