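import Fermat.Agent.CFT.FlatBound.Semilinear
import Fermat.Agent.CFT.FlatBound.Lead
import Fermat.Agent.CFT.SelmerP.Kummer

/-!
# A line of homomorphisms of high level

Homomorphisms on `H` to a finite field with high levels, prescribed eigenvalue under tame inertia
and prescribed semilinearity under Frobenius form a space of dimension at most one.
-/

set_option autoImplicit false

noncomputable section

open scoped Classical Polynomial IntermediateField

namespace FermatAgent.CFT.FlatBound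

open GaloisBasic Mazur SelmerP

variable {A : ValuationSubring Qbar} {p : ℕ} [hp : Fact p.Prime]

/-- A nonzero additive functional. -/
theorem exists_functional (k : Type) [Field k] [Finite k] [CharP k p] :
    ∃ Λ : k →+ ZMod p, Λ 1 = 1 := by
  let : Algebra (ZMod p) k := ZMod.algebra k p
  have : Module.Finite (ZMod p) k := Module.Finite.of_finite
  obtain ⟨f, hf⟩ := (Module.Projective.exists_dual_ne_zero (ZMod p) (x := (1 : k)) one_ne_zero)
  exact ⟨((f 1)⁻¹ • f).toAddMonoidHom, inv_mul_cancel₀ hf⟩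

namespace HomSpace

variable {k : Type} [Field k] [Finite k] [CharP k p] (R : TameRoot A p) (ζ : Qbar)
  (σ₀ F : GQ) (a₀ aF : ZMod p) (l j : ℕ) (μ u : k)

/-- The space of homomorphisms on `H` of a given level and symmetry. -/
def space (hζ : IsPrimitiveRoot ζ p) : Submodule k (GQ → k) where
  carrier := {f | (∀ g, g ∉ R.H → f g = 0) ∧ (∀ g ∈ R.H, ∀ h ∈ R.H, f (g * h) = f g + f h) ∧
    (∃ L : IntermediateField ℚ Qbar, FiniteDimensional ℚ L ∧ ∀ σ ∈ L.fixingSubgroup, f σ = 0) ∧
    (∀ lam : k →+ ZMod p, R.Lev ζ j (fun g => lam (f g))) ∧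
    (∀ h ∈ R.H, ZMod.castHom (dvd_refl p) k a₀ * f (σ₀⁻¹ * h * σ₀) = μ * f h) ∧
    ∀ h ∈ R.H, ZMod.castHom (dvd_refl p) k (aF ^ l) * f ((F ^ l)⁻¹ * h * F ^ l) = u * f h}
  zero_mem' := ⟨fun _ _ => rfl, fun _ _ _ _ => (add_zero 0).symm,
    ⟨⊥, inferInstance, fun _ _ => rfl⟩,
    fun lam => (TameRoot.lev_zero (R := R) (ζ := ζ) j).congr fun σ _ => (map_zero lam).symm,
    fun h _ => by simp, fun h _ => by simp⟩
  add_mem' {a b} := by
    rintro ⟨a1, a2, ⟨L, hL, a3⟩, a4, a5, a6⟩ ⟨b1, b2, ⟨L', hL', b3⟩, b4, b5, b6⟩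
    refine ⟨fun g hg => by simp [a1 g hg, b1 g hg], fun g hg h hh => by
      simp only [Pi.add_apply, a2 g hg h hh, b2 g hg h hh]; abel,
      ⟨L ⊔ L', IntermediateField.finiteDimensional_sup L L', fun σ hσ => ?_⟩, fun lam => ?_,
      fun h hh => by simp only [Pi.add_apply, mul_add, a5 h hh, b5 h hh],
      fun h hh => by simp only [Pi.add_apply, mul_add, a6 h hh, b6 h hh]⟩
    · rw [IntermediateField.fixingSubgroup_sup] at hσ
      simp [a3 σ hσ.1, b3 σ hσ.2]
    · exact (TameRoot.Lev.add hζ (a4 lam) (b4 lam)).congr fun σ _ => (map_add lam _ _).symm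
  smul_mem' t a := by
    rintro ⟨a1, a2, ⟨L, hL, a3⟩, a4, a5, a6⟩
    refine ⟨fun g hg => by simp [a1 g hg], fun g hg h hh => by
      simp only [Pi.smul_apply, a2 g hg h hh, smul_add],
      ⟨L, hL, fun σ hσ => by simp [a3 σ hσ]⟩,
      fun lam => a4 (lam.comp (AddMonoidHom.mulLeft t)),
      fun h hh => by simp only [Pi.smul_apply, smul_eq_mul, mul_left_comm _ t, a5 h hh],
      fun h hh => by simp only [Pi.smul_apply, smul_eq_mul, mul_left_comm _ t, a6 h hh]⟩

variable {R ζ σ₀ F a₀ aF l j μ u} (hζ : IsPrimitiveRoot ζ p)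

include hζ in
/-- Conjugating by a power of Frobenius. -/
theorem theta_conj_frobenius_pow (hF : A.IsFrobeniusAt F p) (hFπ : F R.π = R.π)
    (haF : F ζ = zp ζ aF) (hj : ¬ p ∣ j) (hjt : j < p * R.eK) {B : GQ → ZMod p}
    (h : R.Lev ζ j B) : ∀ n, R.Lev ζ j (TameRoot.conjChar (F ^ n) (aF ^ n) B) ∧
      R.theta ζ j (TameRoot.conjChar (F ^ n) (aF ^ n) B) = R.theta ζ j B ^ p ^ n := by
  intro n
  induction n with
  | zero =>
    have e : TameRoot.conjChar (F ^ 0) (aF ^ 0) B = B := by funext g; simp [TameRoot.conjChar]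
    rw [e, pow_zero, pow_one]
    exact ⟨h, rfl⟩
  | succ n ih =>
    have e : TameRoot.conjChar (F ^ (n + 1)) (aF ^ (n + 1)) B =
        TameRoot.conjChar F aF (TameRoot.conjChar (F ^ n) (aF ^ n) B) := by
      funext g
      simp only [TameRoot.conjChar]
      rw [show (F ^ (n + 1))⁻¹ * g * F ^ (n + 1) = (F ^ n)⁻¹ * (F⁻¹ * g * F) * F ^ n by
        rw [pow_succ', mul_inv_rev]; group, pow_succ', mul_assoc]
    obtain ⟨ρ, h1, h2⟩ := ih.1
    rw [e, TameRoot.theta_conj_frobenius hζ hF hFπ haF hj hjt ih.1, ih.2, ← pow_mul, ← pow_succ]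
    exact ⟨⟨_, TameRoot.lev_conj hζ hF.mem_decompositionSubgroup haF h1 h2⟩, rfl⟩

/-- The functional attached to a scalar. -/
abbrev comp (Λ : k →+ ZMod p) (f : GQ → k) (s : k) : GQ → ZMod p := fun g => Λ (s * f g)

/-- The leading coefficients, as an additive map. -/
def thetaHom (Λ : k →+ ZMod p) (f : GQ → k) {i : ℕ} (hi : ¬ p ∣ i) (hit : i < p * R.eK)
    (hlev : ∀ s, R.Lev ζ i (comp Λ f s)) : k →+ IsLocalRing.ResidueField A :=
  AddMonoidHom.mk' (fun s => R.theta ζ i (comp Λ f s)) fun s t => by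
    rw [← TameRoot.theta_add hζ hi hit (hlev s) (hlev t)]
    exact TameRoot.theta_congr hζ hi hit fun g _ => by
      simp only [comp, Pi.add_apply, add_mul, map_add]

omit [Finite k] in
/-- An additive functional is linear over the prime field. -/
lemma map_castHom_mul (Λ : k →+ ZMod p) (a : ZMod p) (x : k) :
    Λ (ZMod.castHom (dvd_refl p) k a * x) = a * Λ x := by
  rw [← ZMod.natCast_zmod_val a, map_natCast, ← nsmul_eq_mul, map_nsmul, nsmul_eq_mul]

omit [Finite k] in
include hζ in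
/-- Tame inertia scales the leading coefficients. -/
theorem thetaHom_mul (Λ : k →+ ZMod p) {f : GQ → k} (hσ₀ : σ₀ ∈ A.inertiaSubgroupIn ℚ)
    (ha₀ : σ₀ ζ = zp ζ a₀)
    (heig : ∀ h ∈ R.H, ZMod.castHom (dvd_refl p) k a₀ * f (σ₀⁻¹ * h * σ₀) = μ * f h) {i : ℕ}
    (hi : ¬ p ∣ i) (hit : i < p * R.eK) (hlev : ∀ s, R.Lev ζ i (comp Λ f s)) (s : k) :
    thetaHom hζ Λ f hi hit hlev (μ * s) = R.kap σ₀ ^ i * thetaHom hζ Λ f hi hit hlev s := by
  show R.theta ζ i (comp Λ f (μ * s)) = _ * R.theta ζ i (comp Λ f s)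
  rw [TameRoot.kap, ← TameRoot.theta_conj_inertia hζ hσ₀ ha₀ hi hit (hlev s)]
  refine TameRoot.theta_congr hζ hi hit fun g hg => ?_
  rw [TameRoot.conjChar, ← map_castHom_mul Λ, comp, mul_left_comm _ s, heig g hg, ← mul_assoc,
    mul_comm μ s]

include hζ in
/-- **The space has dimension at most one.** -/
theorem finrank_space_le_one (hσ₀ : σ₀ ∈ A.inertiaSubgroupIn ℚ) (ha₀ : σ₀ ζ = zp ζ a₀)
    (hF : A.IsFrobeniusAt F p) (hFπ : F R.π = R.π) (haF : F ζ = zp ζ aF) (hl : 0 < l)
    (hj1 : 1 ≤ j) (hj : ¬ p ∣ j) (hjt : j < p * R.eK) [Algebra (ZMod p) k]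
    [Algebra (ZMod p) (IsLocalRing.ResidueField A)]
    (hcard : Nat.card (ZMod p)⟮μ⟯ = p ^ l)
    (hexcl : ∀ i, j < i → i < p * R.eK → ¬ p ∣ i →
      ∃ g : (ZMod p)[X], Polynomial.aeval μ g = 0 ∧ Polynomial.aeval (R.kap σ₀ ^ i) g ≠ 0) :
    Module.Finite k (space R ζ σ₀ F a₀ aF l j μ u hζ) ∧
      Module.finrank k (space R ζ σ₀ F a₀ aF l j μ u hζ) ≤ 1 := by
  have := ECLocal.residueChar A R.lies
  obtain ⟨Λ, hΛ⟩ := exists_functional (p := p) k
  set T := space R ζ σ₀ F a₀ aF l j μ u hζ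
  have hlevj : ∀ f : T, ∀ s, R.Lev ζ j (comp Λ f.1 s) :=
    fun f s => f.2.2.2.2.1 (Λ.comp (AddMonoidHom.mulLeft s))
  let Θ : T → semiMaps (p ^ l) μ u (R.kap σ₀ ^ j) := fun f =>
    ⟨thetaHom hζ Λ f.1 hj hjt (hlevj f), fun s => thetaHom_mul hζ Λ hσ₀ ha₀ f.2.2.2.2.2.1 hj hjt
      (hlevj f) s, fun s => by
      show R.theta ζ j (comp Λ f.1 (u * s)) = R.theta ζ j (comp Λ f.1 s) ^ p ^ l
      rw [← (theta_conj_frobenius_pow hζ hF hFπ haF hj hjt (hlevj f s) l).2]
      refine TameRoot.theta_congr hζ hj hjt fun g hg => ?_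
      rw [TameRoot.conjChar, ← map_castHom_mul Λ, comp, mul_left_comm _ s, f.2.2.2.2.2.2 g hg,
        ← mul_assoc, mul_comm u s]⟩
  have hinj : Function.Injective Θ := fun f f' h => by
    have hz : ∀ s, R.theta ζ j (comp Λ (f - f').1 s) = 0 := fun s => by
      have h1 : R.theta ζ j (comp Λ f.1 s) = R.theta ζ j (comp Λ f'.1 s) :=
        DFunLike.congr_fun (congrArg Subtype.val h) s
      rw [show comp Λ (f - f').1 s = comp Λ f.1 s + ((-1 : ZMod p) • comp Λ f'.1 s) from
          funext fun g => by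
            simp only [Pi.add_apply, Pi.smul_apply, smul_eq_mul, neg_one_mul,
              ← sub_eq_add_neg, comp]
            rw [← map_sub, ← mul_sub]
            rfl,
        TameRoot.theta_add hζ hj hjt (hlevj f s) (TameRoot.Lev.smul hζ (hlevj f' s) _),
        TameRoot.theta_smul hζ hj hjt (hlevj f' s), h1, ZMod.natCast_val,
        ZMod.cast_neg (dvd_refl p), ZMod.cast_one (dvd_refl p)]
      ring
    set d := f - f'
    have hclimb : ∀ n, j + n ≤ p * R.eK → ∀ s, R.Lev ζ (j + n) (comp Λ d.1 s) := by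
      intro n
      induction n with
      | zero => exact fun _ => hlevj d
      | succ n ih =>
        intro hn s
        have hi := ih (by omega)
        by_cases hdv : p ∣ j + n
        · exact TameRoot.lev_succ_of_dvd hζ hdv (by omega) (by omega) (hi s)
        refine TameRoot.lev_succ_of_theta hζ hdv (by omega) (hi s) ?_
        rcases Nat.eq_zero_or_pos n with rfl | hn0
        · exact hz s
        obtain ⟨g, hg1, hg2⟩ := hexcl (j + n) (by omega) (by omega) hdv
        let θi := thetaHom hζ Λ d.1 hdv (show j + n < p * R.eK by omega) hi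
        have hlin : ∀ (P : (ZMod p)[X]) (y : k),
            θi (Polynomial.aeval μ P * y) = Polynomial.aeval (R.kap σ₀ ^ (j + n)) P * θi y := by
          intro P
          induction P using Polynomial.induction_on with
          | C a =>
            intro y
            rw [Polynomial.aeval_C, Polynomial.aeval_C, ← ZMod.natCast_zmod_val a, map_natCast,
              map_natCast, ← nsmul_eq_mul, map_nsmul, nsmul_eq_mul]
          | add P P' hP hP' => intro y; rw [map_add, map_add, add_mul, add_mul, map_add, hP, hP']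
          | monomial m a ihm =>
            intro y
            rw [show Polynomial.C a * Polynomial.X ^ (m + 1) =
              Polynomial.C a * Polynomial.X ^ m * Polynomial.X by ring, map_mul _ _ Polynomial.X,
              map_mul _ _ Polynomial.X, Polynomial.aeval_X, Polynomial.aeval_X, mul_assoc, ihm,
              thetaHom_mul hζ Λ hσ₀ ha₀ d.2.2.2.2.2.1 hdv (by omega) hi y, mul_assoc]
        have h0 := hlin g s
        rw [hg1, zero_mul, map_zero, eq_comm, mul_eq_zero] at h0
        exact h0.resolve_left hg2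
    refine sub_eq_zero.mp (Subtype.ext (funext fun g => ?_))
    show d.1 g = 0
    by_cases hg : g ∈ R.H
    · by_contra hne
      have := TameRoot.lev_top hζ (B := comp Λ d.1 (d.1 g)⁻¹)
        (by have := hclimb (p * R.eK - j) (by omega) (d.1 g)⁻¹
            rwa [Nat.add_sub_cancel' hjt.le] at this) g hg
      rw [comp, inv_mul_cancel₀ hne, hΛ] at this
      exact one_ne_zero this
    · exact d.2.1 g hg
  obtain ⟨hfin, hle⟩ := finite_semiMaps (p ^ l) μ u (R.kap σ₀ ^ j)
    (Nat.one_lt_pow hl.ne' hp.out.one_lt) hcard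
  have := hfin.to_subtype
  have : Finite T := Finite.of_injective Θ hinj
  have : Module.Finite k T := Module.Finite.of_finite
  refine ⟨inferInstance, ?_⟩
  have hc := (Nat.card_le_card_of_injective Θ hinj).trans hle
  rw [Module.natCard_eq_pow_finrank (K := k) (V := T)] at hc
  exact (Nat.pow_le_pow_iff_right Finite.one_lt_card).mp (hc.trans (pow_one _).ge)

end HomSpace

end FermatAgent.CFT.FlatBound

end
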