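import Fermat.Agent.CFT.FlatBound.LevelsQuot

/-!
# Flat classes of irreducible local representations

For a representation which on inertia is a sum of two conjugate characters of level two, the
diagonal of a flat cocycle vanishes on `H`, its lower corner there lies on a line, and the classes
form a space of dimension at most one.
-/

set_option autoImplicit false

noncomputable section

open scoped Classical Matrix IntermediateField

namespace FermatAgent.CFT.FlatBound

open GaloisBasic Mazur SelmerP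
open Flat (Sys)
open Global (zet zet_spec chiQ)
open Selmer (M22 adCoc locCob locFix chiK coe_chiK rep_mul_inv rep_inv_mul)

variable {k : Type} [Field k] {p : ℕ} [hp : Fact p.Prime] [CharP k p]

/-- Representatives of residues. -/
lemma val_cast {K : Type} [Field K] [CharP K p] (a : ZMod p) :
    (a.val : K) = ZMod.castHom (dvd_refl p) K a := by
  rw [← map_natCast (ZMod.castHom (dvd_refl p) K), ZMod.natCast_zmod_val]

/-- A level above the index kills the leading coefficient. -/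
lemma theta_eq_zero_of_lev_succ {A : ValuationSubring Qbar} {R : TameRoot A p} {j : ℕ}
    (hj : ¬ p ∣ j) (hjt : j < p * R.eK) {B : GQ → ZMod p} (h : R.Lev (zet p) (j + 1) B) :
    R.theta (zet p) j B = 0 := by
  obtain ⟨ρ, h1, h2⟩ := h
  have h3 := h2.trans (R.pow_le.mpr j.le_succ)
  rw [TameRoot.theta_eq (zet_spec p) hj hjt h1 h3, red_eq_zero_iff (mem_of_val (by
      rw [map_div₀, map_pow, div_le_one₀ (pow_pos R.val_pos j)]; exact h3)),
    map_div₀, map_pow, div_lt_one₀ (pow_pos R.val_pos j)]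
  exact h2.trans_lt (R.pow_lt.mpr j.lt_succ_self)

namespace IrrShape

variable {A : ValuationSubring Qbar} {R : TameRoot A p} {r : MatRep k} {σ₀ F : GQ} {α : GQ → k}
  (hs : IrrShape A R r σ₀ F α)

include hs

lemma three_le : 3 ≤ p := by
  have := hp.out.two_le
  have := hs.two
  omega

lemma e_succ : R.e + 1 = p * p := by
  rw [R.e_eq, hs.eK]
  obtain ⟨a, ha⟩ : ∃ a, p = a + 1 := ⟨p - 1, by have := hp.out.two_le; omega⟩
  rw [ha, Nat.add_sub_cancel]
  ring

/-- The tame exponents of the trace differ from those of the lower corner. -/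
lemma kap_ne_chi {i : ℕ} (h1 : p + 1 < i) (h2 : i < p * (p + 1)) :
    R.kap σ₀ ^ i ≠ R.kap σ₀ ^ (p + 1) := by
  intro h
  have he := hs.e_succ
  have h3 := hs.three_le
  have h3p : 3 * p ≤ p * p := Nat.mul_le_mul_right p h3
  rw [mul_add, mul_one] at h2
  by_cases hie : i < R.e
  · have := hs.prim.pow_inj hie (show p + 1 < R.e by omega) h
    omega
  · obtain ⟨q, rfl⟩ : ∃ q, i = R.e + q := ⟨i - R.e, by omega⟩
    rw [pow_add, hs.prim.pow_eq_one, one_mul] at h
    have := hs.prim.pow_inj (show q < R.e by omega) (show p + 1 < R.e by omega) h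
    omega

/-- The tame exponents allowed for the lower corner. -/
lemma kap_ne_sq {i : ℕ} (h1 : p + 1 ≤ i) (h2 : i < p * (p + 1)) (hdv : ¬ p ∣ i)
    (hne : i ≠ p * p + 1) :
    R.kap σ₀ ^ i ≠ R.kap σ₀ ^ 2 ∧ R.kap σ₀ ^ i ≠ (R.kap σ₀ ^ 2) ^ p := by
  have he := hs.e_succ
  have h3 := hs.three_le
  have h3p : 3 * p ≤ p * p := Nat.mul_le_mul_right p h3
  rw [mul_add, mul_one] at h2
  have key : ∀ m, m < R.e → R.kap σ₀ ^ i = R.kap σ₀ ^ m →
      (i = m ∨ i = R.e + m) := fun m hm h => by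
    by_cases hie : i < R.e
    · exact Or.inl (hs.prim.pow_inj hie hm h)
    · obtain ⟨q, rfl⟩ : ∃ q, i = R.e + q := ⟨i - R.e, by omega⟩
      rw [pow_add, hs.prim.pow_eq_one, one_mul] at h
      exact Or.inr (congrArg (R.e + ·) (hs.prim.pow_inj (show q < R.e by omega) hm h))
  refine ⟨fun h => ?_, fun h => ?_⟩
  · rcases key 2 (by omega) h with h | h <;> omega
  · rw [← pow_mul] at h
    rcases key (2 * p) (by omega) h with h | h
    · exact hdv ⟨2, by rw [h, mul_comm]⟩
    · omega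

section Conj

variable {c : GQ → M22 k} (hc : c ∈ adCoc r)
include hc

/-- Conjugation by the generator on `H`. -/
lemma conj_gen {h : GQ} (hh : h ∈ R.H) :
    c (σ₀⁻¹ * h * σ₀) 0 0 = c h 0 0 ∧
      (chiK k p σ₀ : k) * c (σ₀⁻¹ * h * σ₀) 1 0 = α σ₀ ^ 2 * c h 1 0 := by
  have e : r σ₀ * c (σ₀⁻¹ * h * σ₀) = c h * r σ₀ := by
    rw [coc_conj_of_one hc (hs.rep_H hh), ← mul_assoc, ← mul_assoc, rep_mul_inv, one_mul]
  rw [hs.diag _ hs.gen] at e
  have e00 := congrFun (congrFun e 0) 0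
  have e10 := congrFun (congrFun e 1) 0
  simp [Matrix.mul_apply, Fin.sum_univ_two] at e00 e10
  refine ⟨mul_left_cancel₀ hs.alpha_ne_zero (e00.trans (mul_comm _ _)), ?_⟩
  rw [← hs.chi σ₀ hs.gen]
  linear_combination α σ₀ * e10

/-- Conjugation by Frobenius on `H`. -/
lemma conj_frob {h : GQ} (hh : h ∈ R.H) :
    c (F⁻¹ * h * F) 0 0 = -c h 0 0 ∧
      r F 0 1 * c (F⁻¹ * h * F) 1 0 = r F 1 0 * c h 0 1 ∧
      r F 1 0 * c (F⁻¹ * h * F) 0 1 = r F 0 1 * c h 1 0 := by
  have e : r F * c (F⁻¹ * h * F) = c h * r F := by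
    rw [coc_conj_of_one hc (hs.rep_H hh), ← mul_assoc, ← mul_assoc, rep_mul_inv, one_mul]
  have e00 := congrFun (congrFun e 0) 0
  have e01 := congrFun (congrFun e 0) 1
  have e11 := congrFun (congrFun e 1) 1
  simp only [Matrix.mul_apply, Fin.sum_univ_two, hs.F00, hs.F11, zero_mul, mul_zero, zero_add,
    add_zero] at e00 e01 e11
  refine ⟨?_, by rw [e00, mul_comm], by rw [e11, mul_comm]⟩
  have h11 : c (F⁻¹ * h * F) 1 1 = c h 0 0 := mul_left_cancel₀ hs.F01 (e01.trans (mul_comm _ _))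
  have ht := hc.2 (F⁻¹ * h * F)
  rw [Matrix.trace_fin_two, h11] at ht
  linear_combination ht

lemma conj_frob_sq {h : GQ} (hh : h ∈ R.H) : c ((F ^ 2)⁻¹ * h * F ^ 2) 1 0 = c h 1 0 := by
  obtain ⟨-, -, h1⟩ := hs.conj_frob hc hh
  obtain ⟨-, h2, -⟩ := hs.conj_frob hc (R.conj_mem_H hs.frob.mem_decompositionSubgroup hh)
  rw [show (F ^ 2)⁻¹ * h * F ^ 2 = F⁻¹ * (F⁻¹ * h * F) * F by simp [pow_two, mul_assoc]]
  exact mul_left_cancel₀ hs.F01 (h2.trans h1)

end Conj

variable [Finite k]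

/-- All twists of the entries have level `p + 1`. -/
theorem lev_all {c : GQ → M22 k} (hc : c ∈ adCoc r) (hcont : IsContFun c)
    (Z : Sys A ⊤ (extAct r c)) (i : Fin 2) (lam : k →+ ZMod p) :
    R.Lev (zet p) (p + 1) (fun h => lam (c h i 0)) := by
  let : Algebra (ZMod p) k := ZMod.algebra k p
  have := ECLocal.residueChar A R.lies
  obtain ⟨ψ, hψ⟩ := exists_retr (p := p) (ZMod p)⟮α σ₀⟯
  have : CharP (ZMod p)⟮α σ₀⟯ p :=
    charP_of_injective_algebraMap (algebraMap (ZMod p) (ZMod p)⟮α σ₀⟯).injective p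
  obtain ⟨Λ₀, hΛ₀⟩ := exists_functional (p := p) (ZMod p)⟮α σ₀⟯
  set Λ : k →+ ZMod p := Λ₀.comp ψ.toAddMonoidHom
  have hΛ : Λ ≠ 0 := fun h => by
    have h1 := DFunLike.congr_fun h 1
    change Λ₀ (ψ 1) = 0 at h1
    rw [hψ, hΛ₀] at h1
    exact one_ne_zero h1
  obtain ⟨s, hsΛ⟩ := exists_twist Λ hΛ lam
  rcases eq_or_ne s 0 with rfl | hs0
  · exact (TameRoot.lev_zero (R := R) (ζ := zet p) (p + 1)).congr fun h _ => by
      show (0 : ZMod p) = lam (c h i 0)
      rw [hsΛ, zero_mul, map_zero]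
  have hker : Nat.card Λ₀.ker = p := by
    have hsurj : Λ₀.range = ⊤ := AddMonoidHom.range_eq_top.mpr fun a => ⟨a.val • 1, by
      rw [map_nsmul, hΛ₀, nsmul_eq_mul, mul_one, ZMod.natCast_zmod_val]⟩
    have h := AddSubgroup.card_mul_index Λ₀.ker
    rw [AddSubgroup.index_ker, hsurj, Nat.card_congr AddSubgroup.topEquiv.toEquiv, Nat.card_zmod,
      hs.card_E, pow_two] at h
    exact Nat.eq_of_mul_eq_mul_right hp.out.pos h
  refine (hs.entry_lev (i := i) hψ hc hcont Z hs0 Λ₀ Λ₀.ker le_rfl (fun h _ hB => hB)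
    (by rw [hker, mul_add, mul_one]; omega)
    (by have := Nat.mul_le_mul_right (p + 1) hp.out.one_le; omega) (by omega)).congr fun h _ => ?_
  exact (hsΛ _).symm

/-- **The diagonal vanishes on `H`.** -/
theorem diag_zero {c : GQ → M22 k} (hc : c ∈ adCoc r) (hcont : IsContFun c)
    (Z : Sys A ⊤ (extAct r c)) {h₁ : GQ} (hh₁ : h₁ ∈ R.H) : c h₁ 0 0 = 0 := by
  let : Algebra (ZMod p) k := ZMod.algebra k p
  have := ECLocal.residueChar A R.lies
  have hlev := hs.lev_all hc hcont Z 0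
  have h3 := hs.three_le
  have h3p : 3 * p ≤ p * p := Nat.mul_le_mul_right p h3
  have hnd : ¬ p ∣ p + 1 := fun hd =>
    hp.out.not_dvd_one ((Nat.dvd_add_right dvd_rfl).mp hd)
  have hlt : p + 1 < p * R.eK := by rw [hs.eK, mul_add, mul_one]; omega
  -- vanishing leading coefficient gives vanishing
  have hzero : ∀ lam : k →+ ZMod p, R.theta (zet p) (p + 1) (fun h => lam (c h 0 0)) = 0 →
      ∀ h ∈ R.H, lam (c h 0 0) = 0 := by
    intro lam h0
    refine TameRoot.lev_top (zet_spec p) (TameRoot.lev_climb (zet_spec p) (by omega) le_rfl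
      (TameRoot.lev_succ_of_theta (zet_spec p) hnd hlt (hlev lam) h0) ?_)
    intro i hi hit hdv hLi
    have h2 := TameRoot.theta_conj_inertia (zet_spec p) hs.gen (apply_zet_zp σ₀) hdv hit hLi
    rw [TameRoot.theta_congr (zet_spec p) hdv hit
      (B' := (chiQ p σ₀ : ZMod p) • fun h => lam (c h 0 0)) (fun g hg => by
        show _ * lam (c (σ₀⁻¹ * g * σ₀) 0 0) = _ * lam (c g 0 0)
        rw [(hs.conj_gen hc hg).1]), TameRoot.theta_smul (zet_spec p) hdv hit hLi, val_cast,
      ← kap_pow_eK R hs.gen, hs.eK] at h2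
    change R.kap σ₀ ^ (p + 1) * _ = R.kap σ₀ ^ i * _ at h2
    rw [hs.eK] at hit
    exact (mul_eq_mul_right_iff.mp h2).resolve_left
      (hs.kap_ne_chi (by omega) hit).symm
  suffices hθ : ∀ lam : k →+ ZMod p, R.theta (zet p) (p + 1) (fun h => lam (c h 0 0)) = 0 by
    by_contra hne
    obtain ⟨Λ, hΛ⟩ := exists_functional (p := p) k
    have h := hzero (Λ.comp (AddMonoidHom.mulLeft (c h₁ 0 0)⁻¹)) (hθ _) h₁ hh₁
    change Λ ((c h₁ 0 0)⁻¹ * c h₁ 0 0) = 0 at h
    rw [inv_mul_cancel₀ hne, hΛ] at h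
    exact one_ne_zero h
  -- the semilinearity under Frobenius
  have hfrob : ∀ lam : k →+ ZMod p, R.theta (zet p) (p + 1) (fun h => lam (c h 0 0)) ^ p =
      ZMod.castHom (dvd_refl p) _ (-(chiQ p F : ZMod p)) *
        R.theta (zet p) (p + 1) (fun h => lam (c h 0 0)) := fun lam => by
    rw [← TameRoot.theta_conj_frobenius (zet_spec p) hs.frob hs.frobπ (apply_zet_zp F) hnd hlt
      (hlev lam), ← val_cast, ← TameRoot.theta_smul (zet_spec p) hnd hlt (hlev lam)]
    refine TameRoot.theta_congr (zet_spec p) hnd hlt fun g hg => ?_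
    show _ * lam (c (F⁻¹ * g * F) 0 0) = -(chiQ p F : ZMod p) * lam (c g 0 0)
    rw [(hs.conj_frob hc hg).1, map_neg, mul_neg, neg_mul]
  intro lam₁
  by_contra hθ₁
  set θ₁ := R.theta (zet p) (p + 1) (fun h => lam₁ (c h 0 0))
  -- the kernel of `lam₁` on the diagonal
  have hkill : ∀ h ∈ R.H, lam₁ (c h 0 0) = 0 → c h 0 0 = 0 := by
    intro h hh h1
    by_contra hne
    obtain ⟨Λ, hΛ⟩ := exists_functional (p := p) k
    set lam := Λ.comp (AddMonoidHom.mulLeft (c h 0 0)⁻¹)
    obtain ⟨m, hm⟩ := exists_cast_of_pow (IsLocalRing.ResidueField A) (p := p)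
      (x := R.theta (zet p) (p + 1) (fun g => lam (c g 0 0)) / θ₁) (by
      rw [div_pow, hfrob, hfrob, mul_div_mul_left]
      exact fun h0 => neg_ne_zero.mpr (Units.ne_zero (chiQ p F))
        ((map_eq_zero_iff _ (ZMod.castHom (dvd_refl p) _).injective).mp h0))
    rw [eq_div_iff hθ₁] at hm
    have e : (fun g => (lam + (-m) • lam₁) (c g 0 0)) =
        (fun g => lam (c g 0 0)) + (-m) • fun g => lam₁ (c g 0 0) := rfl
    have h0 := hzero (lam + (-m) • lam₁) (by
      rw [e, TameRoot.theta_add (zet_spec p) hnd hlt (hlev _) ((hlev lam₁).smul (zet_spec p) _),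
        TameRoot.theta_smul (zet_spec p) hnd hlt (hlev _), val_cast, map_neg, neg_mul, hm,
        add_neg_cancel]) h hh
    change Λ ((c h 0 0)⁻¹ * c h 0 0) + (-m) * lam₁ (c h 0 0) = 0 at h0
    rw [inv_mul_cancel₀ hne, hΛ, h1, mul_zero, add_zero] at h0
    exact one_ne_zero h0
  obtain ⟨ψ, hψ⟩ := exists_retr (p := p) (ZMod p)⟮α σ₀⟯
  have : CharP (ZMod p)⟮α σ₀⟯ p :=
    charP_of_injective_algebraMap (algebraMap (ZMod p) (ZMod p)⟮α σ₀⟯).injective p
  obtain ⟨Λ₀, hΛ₀⟩ := exists_functional (p := p) (ZMod p)⟮α σ₀⟯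
  have hΛ : Λ₀.comp ψ.toAddMonoidHom ≠ 0 := fun h => by
    have h1 := DFunLike.congr_fun h 1
    change Λ₀ (ψ 1) = 0 at h1
    rw [hψ, hΛ₀] at h1
    exact one_ne_zero h1
  obtain ⟨s, hsΛ⟩ := exists_twist _ hΛ lam₁
  have hs0 : s ≠ 0 := by
    rintro rfl
    refine hθ₁ ?_
    rw [show θ₁ = R.theta (zet p) (p + 1) 0 from
      TameRoot.theta_congr (zet_spec p) hnd hlt fun g _ => by
        show lam₁ _ = 0
        rw [hsΛ, zero_mul, map_zero], TameRoot.theta_zero (zet_spec p) hnd hlt]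
  refine hθ₁ (theta_eq_zero_of_lev_succ hnd hlt ((hs.entry_lev (i := 0) (J := p + 2) hψ hc hcont Z
    hs0 Λ₀ ⊥ bot_le (fun h hh hB => ?_)
    (by rw [AddSubgroup.card_bot, mul_one, mul_add, mul_one]; omega)
    (by rw [mul_add, mul_one]; omega) (by omega)).congr fun g _ => (hsΛ _).symm))
  rw [AddSubgroup.mem_bot, hkill h hh ((hsΛ _).trans hB), mul_zero, map_zero]

omit [Finite k] in
/-- The square of the eigenvalue. -/
lemma sq_facts [CharP (IsLocalRing.ResidueField A) p] :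
    (α σ₀ ^ 2) ^ 2 - ZMod.castHom (dvd_refl p) k (hs.trc ^ 2 - 2 * (chiQ p σ₀ : ZMod p)) *
        α σ₀ ^ 2 + ZMod.castHom (dvd_refl p) k ((chiQ p σ₀ : ZMod p) ^ 2) = 0 ∧
      (α σ₀ ^ 2) ^ p ≠ α σ₀ ^ 2 ∧
      ∀ x : IsLocalRing.ResidueField A,
        x ^ 2 - ZMod.castHom (dvd_refl p) _ (hs.trc ^ 2 - 2 * (chiQ p σ₀ : ZMod p)) * x +
            ZMod.castHom (dvd_refl p) _ ((chiQ p σ₀ : ZMod p) ^ 2) = 0 →
          x = R.kap σ₀ ^ 2 ∨ x = (R.kap σ₀ ^ 2) ^ p := by
  obtain ⟨ht, hn, -⟩ := hs.kap_roots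
  refine ⟨?_, fun h => ?_, fun x hx => ?_⟩
  · simp only [map_sub, map_pow, map_mul, map_ofNat, ← coe_chiK, ← hs.chi σ₀ hs.gen, hs.trc_spec]
    ring
  · have hprod : (α σ₀ ^ p - α σ₀) * (α σ₀ + α σ₀ ^ p) = 0 := by
      have : (α σ₀ ^ p) ^ 2 = α σ₀ ^ 2 := by rw [← pow_mul, mul_comm, pow_mul]; exact h
      linear_combination this
    have ht0 := (mul_eq_zero.mp hprod).resolve_left (sub_ne_zero.mpr hs.ne)
    rw [← hs.trc_spec, map_eq_zero_iff _ (ZMod.castHom (dvd_refl p) k).injective] at ht0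
    rw [ht0, map_zero] at ht
    have h2 : R.kap σ₀ ^ (2 * p) = R.kap σ₀ ^ 2 := by
      rw [mul_comm, pow_mul, show R.kap σ₀ ^ p = -R.kap σ₀ by linear_combination -ht, neg_sq]
    have he := hs.e_succ
    have h3 := hs.three_le
    have h3p : 3 * p ≤ p * p := Nat.mul_le_mul_right p h3
    have := hs.prim.pow_inj (show 2 * p < R.e by omega) (show 2 < R.e by omega) h2
    omega
  · simp only [map_sub, map_pow, map_mul, map_ofNat, ht, hn] at hx
    have : (x - R.kap σ₀ ^ 2) * (x - (R.kap σ₀ ^ 2) ^ p) = 0 := by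
      rw [← pow_mul, mul_comm 2 p, pow_mul]
      linear_combination hx
    exact (mul_eq_zero.mp this).imp sub_eq_zero.mp sub_eq_zero.mp

/-- **The lower corner has level `p ^ 2 + 1`.** -/
theorem lower_lev {c : GQ → M22 k} (hc : c ∈ adCoc r) (hcont : IsContFun c)
    (Z : Sys A ⊤ (extAct r c)) (lam : k →+ ZMod p) :
    R.Lev (zet p) (p * p + 1) (fun h => lam (c h 1 0)) := by
  have := ECLocal.residueChar A R.lies
  have h3 := hs.three_le
  have h3p : 3 * p ≤ p * p := Nat.mul_le_mul_right p h3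
  obtain ⟨hμ, -, hroots⟩ := hs.sq_facts
  set μ := α σ₀ ^ 2
  set t := hs.trc ^ 2 - 2 * (chiQ p σ₀ : ZMod p)
  set n := (chiQ p σ₀ : ZMod p) ^ 2
  have key : ∀ d, p + 1 + d ≤ p * p + 1 → ∀ lam : k →+ ZMod p,
      R.Lev (zet p) (p + 1 + d) (fun h => lam (c h 1 0)) := by
    intro d
    induction d with
    | zero => exact fun _ => hs.lev_all hc hcont Z 1
    | succ d ih =>
      intro hd lam
      have hI := ih (by omega)
      have hit : p + 1 + d < p * R.eK := by rw [hs.eK, mul_add, mul_one]; omega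
      by_cases hdv : p ∣ p + 1 + d
      · exact TameRoot.lev_succ_of_dvd (zet_spec p) hdv (by omega) hit (hI lam)
      refine TameRoot.lev_succ_of_theta (zet_spec p) hdv hit (hI lam) ?_
      set θ : k → IsLocalRing.ResidueField A := fun s => R.theta (zet p) (p + 1 + d)
        (fun h => lam (s * c h 1 0)) with hθ
      have hmul : ∀ s, θ (μ * s) = R.kap σ₀ ^ (p + 1 + d) * θ s := fun s => by
        rw [TameRoot.kap, hθ]
        refine Eq.trans ?_ (TameRoot.theta_conj_inertia (zet_spec p) hs.gen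
          (apply_zet_zp σ₀) hdv hit
          (hI (lam.comp (AddMonoidHom.mulLeft s))))
        refine TameRoot.theta_congr (zet_spec p) hdv hit fun g hg => ?_
        show lam (μ * s * c g 1 0) = (chiQ p σ₀ : ZMod p) * lam (s * c (σ₀⁻¹ * g * σ₀) 1 0)
        rw [← HomSpace.map_castHom_mul lam, ← coe_chiK, mul_left_comm, (hs.conj_gen hc hg).2,
          mul_comm μ s, mul_assoc]
      have hadd : ∀ s s', θ (s + s') = θ s + θ s' := fun s s' => by
        simp only [hθ]
        refine Eq.trans ?_ (TameRoot.theta_add (zet_spec p) hdv hit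
          (hI (lam.comp (AddMonoidHom.mulLeft s))) (hI (lam.comp (AddMonoidHom.mulLeft s'))))
        refine TameRoot.theta_congr (zet_spec p) hdv hit fun g _ => ?_
        show _ = lam (s * c g 1 0) + lam (s' * c g 1 0)
        rw [add_mul, map_add]
      have hcast : ∀ (a : ZMod p) (s : k), θ (ZMod.castHom (dvd_refl p) k a * s) =
          ZMod.castHom (dvd_refl p) _ a * θ s := fun a s => by
        simp only [hθ]
        rw [← val_cast (K := IsLocalRing.ResidueField A)]
        refine Eq.trans ?_ (TameRoot.theta_smul (zet_spec p) hdv hit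
          (hI (lam.comp (AddMonoidHom.mulLeft s))) a)
        refine TameRoot.theta_congr (zet_spec p) hdv hit fun g _ => ?_
        show _ = a * lam (s * c g 1 0)
        rw [mul_assoc, HomSpace.map_castHom_mul]
      have h0 : θ 0 = 0 := by
        have := hadd 0 0
        rwa [add_zero, left_eq_add] at this
      have h1 : θ (μ * (μ * 1)) + θ (ZMod.castHom (dvd_refl p) k (-t) * (μ * 1)) +
          θ (ZMod.castHom (dvd_refl p) k n * 1) = 0 := by
        rw [← hadd, ← hadd, ← h0]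
        congr 1
        rw [map_neg]
        linear_combination hμ
      rw [hcast, hcast, hmul, hmul, map_neg] at h1
      set κ := R.kap σ₀ ^ (p + 1 + d)
      have h2 : (κ ^ 2 - ZMod.castHom (dvd_refl p) _ t * κ + ZMod.castHom (dvd_refl p) _ n) * θ 1 =
          0 := by linear_combination h1
      have hne : κ ^ 2 - ZMod.castHom (dvd_refl p) _ t * κ + ZMod.castHom (dvd_refl p) _ n ≠ 0 := by
        intro h
        obtain ⟨hk1, hk2⟩ := hs.kap_ne_sq (i := p + 1 + d) (by omega)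
          (by rwa [hs.eK] at hit) hdv (by omega)
        exact (hroots _ h).elim hk1 hk2
      have h3' := (mul_eq_zero.mp h2).resolve_left hne
      simpa [hθ] using h3'
  have := key (p * p - p) (by omega) lam
  rwa [show p + 1 + (p * p - p) = p * p + 1 by omega] at this

/-- Cocycles in normal shape. -/
def normal (_hs : IrrShape A R r σ₀ F α) : Submodule k (GQ → M22 k) where
  carrier := {c | c ∈ adCoc r ∧ IsContFun c ∧ (∀ h ∈ R.H, c h 0 0 = 0) ∧
    ∀ lam : k →+ ZMod p, R.Lev (zet p) (p * p + 1) (fun h => lam (c h 1 0))}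
  zero_mem' := ⟨(adCoc r).zero_mem, ⟨⊥, inferInstance, fun _ _ => rfl⟩, fun _ _ => rfl,
    fun lam => (TameRoot.lev_zero (R := R) (ζ := zet p) (p * p + 1)).congr
      fun σ _ => (map_zero lam).symm⟩
  add_mem' {a b} := by
    rintro ⟨a1, ⟨L, hL, a2⟩, a3, a4⟩ ⟨b1, ⟨L', hL', b2⟩, b3, b4⟩
    refine ⟨(adCoc r).add_mem a1 b1,
      ⟨L ⊔ L', IntermediateField.finiteDimensional_sup L L', fun σ hσ => ?_⟩,
      fun g hg => by simp [a3 g hg, b3 g hg],
      fun lam => ((a4 lam).add (zet_spec p) (b4 lam)).congr fun σ _ => (map_add lam _ _).symm⟩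
    rw [IntermediateField.fixingSubgroup_sup] at hσ
    simp [a2 σ hσ.1, b2 σ hσ.2]
  smul_mem' t a := by
    rintro ⟨a1, ⟨L, hL, a2⟩, a3, a4⟩
    exact ⟨(adCoc r).smul_mem t a1, ⟨L, hL, fun σ hσ => by simp [a2 σ hσ]⟩,
      fun g hg => by simp [a3 g hg], fun lam => a4 (lam.comp (AddMonoidHom.mulLeft t))⟩

/-- The line containing the lower corners. -/
abbrev line (_hs : IrrShape A R r σ₀ F α) : Submodule k (GQ → k) :=
  HomSpace.space R (zet p) σ₀ F (chiQ p σ₀ : ZMod p) (chiQ p F : ZMod p) 2 (p * p + 1) (α σ₀ ^ 2)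
    (ZMod.castHom (dvd_refl p) k ((chiQ p F : ZMod p) ^ 2)) (zet_spec p)

omit [Finite k] in
lemma onH_mem_line {c : GQ → M22 k} (h : c ∈ hs.normal) :
    onH R.H (fun g => c g 1 0) ∈ hs.line := by
  obtain ⟨hc, hcont, -, hlev⟩ := h
  have hσD := inertia_le_decomposition hs.gen
  refine ⟨fun g hg => onH_not_mem _ hg, fun g hg h hh => ?_,
    (hcont.comp (fun M => M 1 0) rfl).onH R.H, fun lam => ?_, fun h hh => ?_, fun h hh => ?_⟩
  · rw [onH_mem _ (mul_mem hg hh), onH_mem _ hg, onH_mem _ hh, coc_add_of_one hc (hs.rep_H hg),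
      Matrix.add_apply]
  · refine (hlev lam).congr fun σ hσ => ?_
    show lam (c σ 1 0) = lam (onH R.H (fun g => c g 1 0) σ)
    rw [onH_mem _ hσ]
  · rw [onH_mem _ (R.conj_mem_H hσD hh), onH_mem _ hh, ← coe_chiK]
    exact (hs.conj_gen hc hh).2
  · rw [onH_mem _ (R.conj_mem_H (pow_mem hs.frob.mem_decompositionSubgroup 2) hh), onH_mem _ hh,
      hs.conj_frob_sq hc hh]

omit [Finite k] in
/-- The diagonal of a cocycle trivial on the diagonal of `H` vanishes at the generator. -/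
private lemma diag_gen_eq_zero {c : GQ → M22 k} (hc : c ∈ adCoc r)
    (h00 : ∀ g ∈ R.H, c g 0 0 = 0) : c σ₀ 0 0 = 0 := by
  have ha := hs.alpha_ne_zero
  have hpow : ∀ j : ℕ, c (σ₀ ^ j) 0 0 = j * c σ₀ 0 0 := fun j => by
    induction j with
    | zero => rw [pow_zero, coc_one hc]; simp
    | succ j ih =>
      have hI := pow_mem hs.gen j
      have hX : (r (σ₀ ^ j) * c σ₀ * r (σ₀ ^ j)⁻¹) 0 0 = c σ₀ 0 0 := by
        set Y := r (σ₀ ^ j) * c σ₀ * r (σ₀ ^ j)⁻¹
        have e : Y * r (σ₀ ^ j) = r (σ₀ ^ j) * c σ₀ := by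
          rw [mul_assoc (r (σ₀ ^ j) * c σ₀), rep_inv_mul, mul_one]
        rw [hs.diag _ hI] at e
        have e00 := congrFun (congrFun e 0) 0
        simp [Matrix.mul_apply, Fin.sum_univ_two] at e00
        refine mul_right_cancel₀ ?_ (e00.trans (mul_comm _ _))
        rw [hs.alpha_pow]
        exact pow_ne_zero _ ha
      rw [pow_succ, hc.1, Matrix.add_apply, ih, hX]; push_cast; ring
  have hmem : σ₀ ^ R.e ∈ R.H := mem_rootFix.mpr ⟨pow_mem hs.gen _, by
    have e := R.kappa_pow_smul hs.gen R.e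
    rw [R.kappa_pow, div_eq_one_iff_eq R.ne_zero] at e
    exact e⟩
  have h := hpow R.e
  rw [h00 _ hmem, eq_comm, mul_eq_zero] at h
  exact h.resolve_left fun h0 => R.not_dvd ((CharP.cast_eq_zero_iff k p R.e).mp h0)

omit [Finite k] in
/-- A cocycle trivial on `H` vanishes on inertia after adding a coboundary. -/
private lemma exists_cobf_inertia_zero {c : GQ → M22 k} (hc : c ∈ adCoc r)
    (hcH : ∀ g ∈ R.H, c g = 0) :
    ∃ E : M22 k, ∀ σ ∈ A.inertiaSubgroupIn ℚ, (c + cobf r E) σ = 0 := by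
  have hd0 : c σ₀ 0 0 = 0 := hs.diag_gen_eq_zero hc fun g hg => by rw [hcH g hg]; rfl
  set a := α σ₀
  have ha := hs.alpha_ne_zero
  have hd : a - a ^ p ≠ 0 := sub_ne_zero.mpr (Ne.symm hs.ne)
  obtain ⟨u, hu⟩ : ∃ u, u * (a - a ^ p) = -(c σ₀ 0 1 * a ^ p) := ⟨_, div_mul_cancel₀ _ hd⟩
  obtain ⟨v, hv⟩ : ∃ v, v * (a - a ^ p) = c σ₀ 1 0 * a := ⟨_, div_mul_cancel₀ _ hd⟩
  set E : M22 k := !![0, u; v, 0]
  set c' := c + cobf r E with hc'def
  have hc' : c' ∈ adCoc r := (adCoc r).add_mem hc (cobf_mem r E)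
  have hc'H : ∀ g ∈ R.H, c' g = 0 := fun g hg => by
    rw [hc'def, Pi.add_apply, hcH g hg, cobf_eq_zero E (hs.rep_H hg), add_zero]
  have hs0 : c' σ₀ = 0 := by
    set Y := r σ₀ * E * r σ₀⁻¹
    have e : Y * r σ₀ = r σ₀ * E := by
      rw [mul_assoc (r σ₀ * E), rep_inv_mul, mul_one]
    rw [hs.diag _ hs.gen] at e
    have e00 := congrFun (congrFun e 0) 0
    have e01 := congrFun (congrFun e 0) 1
    have e10 := congrFun (congrFun e 1) 0
    simp [E, Matrix.mul_apply, Fin.sum_univ_two] at e00 e01 e10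
    have hY : Y 0 0 = 0 := e00.resolve_right ha
    have hY11 : Y 1 1 = 0 := by
      have ht : Y.trace = 0 := by
        rw [Selmer.trace_rep_conj]; simp [E, Matrix.trace_fin_two]
      rw [Matrix.trace_fin_two, hY, zero_add] at ht
      exact ht
    show c σ₀ + (Y - E) = 0
    ext i j
    fin_cases i <;> fin_cases j <;> simp [E, hY, hY11, hd0]
    · refine (mul_eq_zero.mp ?_).resolve_right (pow_ne_zero p ha)
      linear_combination e01 + hu
    · refine (mul_eq_zero.mp ?_).resolve_right ha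
      linear_combination e10 - hv
    · simpa [Matrix.trace_fin_two, hd0] using hc.2 σ₀
  have hI' : ∀ σ ∈ A.inertiaSubgroupIn ℚ, c' σ = 0 := fun σ hσ => by
    obtain ⟨j, hj⟩ := exists_pow_mul_mem R hs.gen hs.primπ hσ
    have hp' : ∀ j : ℕ, c' (σ₀ ^ j) = 0 := fun j => by
      induction j with
      | zero => rw [pow_zero, coc_one hc']
      | succ j ih => rw [pow_succ, hc'.1, ih, hs0, mul_zero, zero_mul, add_zero]
    rw [show σ = σ₀ ^ j * ((σ₀ ^ j)⁻¹ * σ) by group, hc'.1, hp', hc'H _ hj, mul_zero, zero_mul,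
      add_zero]
  exact ⟨E, hI'⟩

omit [Finite k] in
/-- A cocycle trivial on inertia has a diagonal value at Frobenius. -/
private lemma offdiag_frob_eq_zero {c' : GQ → M22 k} (hc' : c' ∈ adCoc r)
    (hI' : ∀ σ ∈ A.inertiaSubgroupIn ℚ, c' σ = 0) : c' F 0 1 = 0 ∧ c' F 1 0 = 0 := by
  have hFD := hs.frob.mem_decompositionSubgroup
  set a := α σ₀
  have hs0 := hI' σ₀ hs.gen
  have hτ := conj_mem_inertiaSubgroupIn_of_mem hp.out R.lies hs.gen hFD
  set τ := F * σ₀ * F⁻¹
  have hατ : α τ ≠ α τ ^ p := by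
    have e : r τ * r F = r F * r σ₀ := by
      rw [← map_mul, ← map_mul, inv_mul_cancel_right]
    rw [hs.diag _ hτ, hs.diag _ hs.gen] at e
    have e01 := congrFun (congrFun e 0) 1
    simp [Matrix.mul_apply, Fin.sum_univ_two] at e01
    have h1 : α τ = a ^ p := mul_right_cancel₀ hs.F01 (e01.trans (mul_comm _ _))
    rw [h1, ← pow_mul, hs.per σ₀ hs.gen]
    exact hs.ne
  have e := hc'.1 F σ₀
  rw [show F * σ₀ = τ * F by simp [τ, mul_assoc], hc'.1 τ F, hI' τ hτ, hs0, mul_zero, zero_mul,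
    zero_add, add_zero] at e
  have e' : r τ * c' F = c' F * r τ := by
    conv_rhs => rw [← e]
    rw [mul_assoc (r τ * c' F), rep_inv_mul, mul_one]
  rw [hs.diag _ hτ] at e'
  have e01 := congrFun (congrFun e' 0) 1
  have e10 := congrFun (congrFun e' 1) 0
  simp [Matrix.mul_apply, Fin.sum_univ_two] at e01 e10
  constructor
  · exact (mul_eq_zero.mp (show (α τ - α τ ^ p) * c' F 0 1 = 0 by
      linear_combination e01)).resolve_left (sub_ne_zero.mpr hατ)
  · exact (mul_eq_zero.mp (show (α τ - α τ ^ p) * c' F 1 0 = 0 by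
      linear_combination -e10)).resolve_left (sub_ne_zero.mpr hατ)

omit [Finite k] in
/-- Normal cocycles trivial on `H` are coboundaries. -/
lemma mem_locCob_of_zero {c : GQ → M22 k} (h : c ∈ hs.normal) (hH : ∀ g ∈ R.H, c g 1 0 = 0) :
    c ∈ locCob r (A.decompositionSubgroup ℚ) := by
  obtain ⟨hc, ⟨L, hL, hLc⟩, h00, -⟩ := h
  obtain ⟨L', hL', hLr⟩ := hs.cont
  have hFD := hs.frob.mem_decompositionSubgroup
  -- the cocycle vanishes on `H`
  have hcH : ∀ g ∈ R.H, c g = 0 := fun g hg => by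
    have h01 : c g 0 1 = 0 := by
      have e := (hs.conj_frob hc hg).2.1
      rw [hH _ (R.conj_mem_H hFD hg), mul_zero, eq_comm, mul_eq_zero] at e
      exact e.resolve_left hs.F10
    ext i j
    fin_cases i <;> fin_cases j
    · exact h00 g hg
    · exact h01
    · exact hH g hg
    · simpa [Matrix.trace_fin_two, h00 g hg] using hc.2 g
  obtain ⟨E, hI'⟩ := hs.exists_cobf_inertia_zero hc hcH
  set c' := c + cobf r E with hc'def
  have hc' : c' ∈ adCoc r := (adCoc r).add_mem hc (cobf_mem r E)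
  have hF2 := hs.offdiag_frob_eq_zero hc' hI'
  have h2 : (2 : k) ≠ 0 := fun h0 => hs.two ((Nat.prime_dvd_prime_iff_eq hp.out Nat.prime_two).mp
    ((CharP.cast_eq_zero_iff k p 2).mp (by exact_mod_cast h0)))
  obtain ⟨w, hw⟩ : ∃ w, 2 * w = c' F 0 0 := ⟨_, mul_div_cancel₀ _ h2⟩
  set T : M22 k := !![w, 0; 0, -w]
  set c'' := c' + cobf r T with hc''def
  have hc'' : c'' ∈ adCoc r := (adCoc r).add_mem hc' (cobf_mem r T)
  have hI'' : ∀ σ ∈ A.inertiaSubgroupIn ℚ, c'' σ = 0 := fun σ hσ => by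
    have e : r σ * T = T * r σ := by
      rw [hs.diag σ hσ]
      ext i j
      fin_cases i <;> fin_cases j <;> simp [T, Matrix.mul_apply, Fin.sum_univ_two, mul_comm]
    rw [hc''def, Pi.add_apply, hI' σ hσ, zero_add, cobf, e, mul_assoc, rep_mul_inv, mul_one,
      sub_self]
  have hFF : c'' F = 0 := by
    have e : r F * T * r F⁻¹ = -T := by
      have e1 : r F * T = -T * r F := by
        ext i j
        fin_cases i <;> fin_cases j <;>
          simp [T, Matrix.mul_apply, Fin.sum_univ_two, hs.F00, hs.F11, mul_comm]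
      rw [e1, mul_assoc, rep_mul_inv, mul_one]
    rw [hc''def, Pi.add_apply, cobf, e]
    have htr := hc'.2 F
    rw [Matrix.trace_fin_two] at htr
    ext i j
    fin_cases i <;> fin_cases j <;> simp [T, hF2.1, hF2.2]
    · linear_combination -hw
    · linear_combination htr + hw
  let Tg : GQ → M22 k →+ M22 k := fun g =>
    (AddMonoidHom.mulRight (r g⁻¹)).comp (AddMonoidHom.mulLeft (r g))
  have := IntermediateField.finiteDimensional_sup L L'
  have hall : ∀ g ∈ A.decompositionSubgroup ℚ, c'' g = 0 := fun g hg =>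
    vanish_decomposition R.lies hs.frob c'' Tg (fun g _ h _ => hc''.1 g h) (L ⊔ L')
      (fun σ hσ _ => by
        rw [IntermediateField.fixingSubgroup_sup] at hσ
        simp [hc''def, hc'def, hLc σ hσ.1, cobf_eq_zero _ (hLr σ hσ.2)])
      hI'' hFF hg
  refine ⟨-(E + T), fun g hg => ?_⟩
  have h := hall g hg
  simp only [hc''def, hc'def, Pi.add_apply, cobf] at h
  rw [← sub_eq_zero, ← h]
  simp only [mul_neg, neg_mul, mul_add, add_mul]
  abel

/-- **The bound for irreducible representations.** -/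
theorem finrank_le (V : Submodule k (GQ → M22 k)) [Module.Finite k V]
    (hgen : V ≤ Submodule.span k {c | c ∈ adCoc r ∧ IsContFun c ∧ IsFlatCoc A r c}) :
    Module.finrank k V ≤
      Module.finrank k (V ⊓ locCob r (A.decompositionSubgroup ℚ) :
        Submodule k (GQ → M22 k)) + 1 := by
  have hV : V ≤ hs.normal ⊔ locCob r (A.decompositionSubgroup ℚ) := by
    refine hgen.trans (Submodule.span_le.mpr ?_)
    rintro c ⟨hc, hcont, ⟨Z⟩⟩
    exact Submodule.mem_sup_left ⟨hc, hcont, fun h hh => hs.diag_zero hc hcont Z hh,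
      hs.lower_lev hc hcont Z⟩
  let : Algebra (ZMod p) k := ZMod.algebra k p
  have := ECLocal.residueChar A R.lies
  let : Algebra (ZMod p) (IsLocalRing.ResidueField A) :=
    ZMod.algebra (IsLocalRing.ResidueField A) p
  obtain ⟨hμ, hμp, hroots⟩ := hs.sq_facts
  have h3 := hs.three_le
  have h3p : 3 * p ≤ p * p := Nat.mul_le_mul_right p h3
  have hcard : Nat.card (ZMod p)⟮α σ₀ ^ 2⟯ = p ^ 2 := card_adjoin_two hμp (by
    rw [← pow_mul, mul_comm, pow_mul, hs.per σ₀ hs.gen])
  obtain ⟨hfinT, hdimT⟩ := HomSpace.finrank_space_le_one (R := R) (σ₀ := σ₀) (F := F)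
    (a₀ := (chiQ p σ₀ : ZMod p)) (aF := (chiQ p F : ZMod p)) (l := 2) (j := p * p + 1)
    (μ := α σ₀ ^ 2) (u := ZMod.castHom (dvd_refl p) k ((chiQ p F : ZMod p) ^ 2))
    (zet_spec p) hs.gen (apply_zet_zp σ₀) hs.frob hs.frobπ (apply_zet_zp F) two_pos (by omega)
    (fun hd => hp.out.not_dvd_one ((Nat.dvd_add_right (dvd_mul_right p p)).mp hd))
    (by rw [hs.eK, mul_add, mul_one]; omega) hcard fun i hi hi' hdv => by
      refine ⟨Polynomial.X ^ 2 - Polynomial.C (hs.trc ^ 2 - 2 * (chiQ p σ₀ : ZMod p)) *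
        Polynomial.X + Polynomial.C ((chiQ p σ₀ : ZMod p) ^ 2), ?_, fun h => ?_⟩
      · simp only [map_add, map_sub, map_mul, Polynomial.aeval_C, Polynomial.aeval_X, map_pow]
        rw [Subsingleton.elim (algebraMap (ZMod p) k) (ZMod.castHom (dvd_refl p) k)]
        simpa only [map_sub, map_mul, map_pow] using hμ
      · simp only [map_add, map_sub, map_mul, Polynomial.aeval_C, Polynomial.aeval_X, map_pow] at h
        rw [Subsingleton.elim (algebraMap (ZMod p) (IsLocalRing.ResidueField A))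
          (ZMod.castHom (dvd_refl p) (IsLocalRing.ResidueField A))] at h
        obtain ⟨h1, h2⟩ := hs.kap_ne_sq (i := i) (by omega) (by rwa [hs.eK] at hi') hdv (by omega)
        exact (hroots _ (by simpa only [map_sub, map_mul, map_pow] using h)).elim h1 h2
  have := hfinT
  let φ : hs.normal →ₗ[k] hs.line :=
    { toFun := fun c => ⟨onH R.H (fun g => (c : GQ → M22 k) g 1 0), hs.onH_mem_line c.2⟩
      map_add' := fun a b => Subtype.ext (funext fun g => by
        simp only [onH, Submodule.coe_add, Pi.add_apply, Matrix.add_apply]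
        split_ifs <;> simp)
      map_smul' := fun t a => Subtype.ext (funext fun g => by
        simp only [onH, RingHom.id_apply, Submodule.coe_smul, Pi.smul_apply, Matrix.smul_apply,
          smul_eq_mul]
        split_ifs <;> simp) }
  exact finrank_le_of_shape V (locCob r (A.decompositionSubgroup ℚ)) hs.normal φ 1
    ((Submodule.finrank_le _).trans hdimT) (fun x hx => by
      refine hs.mem_locCob_of_zero x.2 fun g hg => ?_
      have h1 := congrFun (congrArg Subtype.val hx) g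
      exact (onH_mem (fun g => (x : GQ → M22 k) g 1 0) hg).symm.trans h1) hV

end IrrShape

end FermatAgent.CFT.FlatBound

end
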