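import Fermat.Agent.CFT.FlatBound.Lead

/-!
# Separation of points of level two

A nonzero point of the kernel of reduction on which inertia acts through a fundamental character
of level two is at distance exactly `π` from the origin, for `π` a root of `p` of order
`p ^ 2 - 1`.
-/

set_option autoImplicit false

noncomputable section

open scoped Classical fwdDiff

namespace FermatAgent.CFT.FlatBound

open GaloisBasic Mazur SelmerP
open Flat (Sys tens valBall)

variable {A : ValuationSubring Qbar} {p : ℕ} [hp : Fact p.Prime] (R : TameRoot A p)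
  {S : Subgroup GQ} {M : Type} [AddCommGroup M] {act : GQ → M → M} (Z : Sys A S act)
  (hIS : A.inertiaSubgroupIn ℚ ≤ S)

include hIS

/-- Iterated differences along a conjugate differ to higher order by a root of unity. -/
theorem iter_sub_le {σ : GQ} (hσ : σ ∈ A.inertiaSubgroupIn ℚ) (hσ0 : act σ 0 = 0) {z : M}
    {ω : Qbar} (hω : A.valuation ω ≤ 1) {t s : A.ValueGroup} (hc : Z.Close z t)
    (hu : ∀ g ∈ Z.gens, A.valuation (σ (g z - g 0) - ω * (g z - g 0)) ≤ t * s) :
    ∀ j : ℕ, ∀ f ∈ Z.B, ∀ x,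
      A.valuation ((Δ_[act σ z])^[j] f x - ω ^ j * (Δ_[z])^[j] f x) ≤ t ^ j * s := by
  have hσS := hIS hσ
  have hconj : ∀ g ∈ Z.gens, g (act σ z) - g 0 = σ (g z - g 0) := fun g hg => by
    rw [map_sub, ← Z.equiv g hg σ hσS, ← Z.equiv g hg σ hσS, hσ0]
  have hc' : Z.Close (act σ z) t := fun g hg => by
    rw [hconj g hg, SelmerP.val_map (inertiaSubgroupIn_le_decompositionSubgroup A hσ)]
    exact hc g hg
  intro j
  induction j with
  | zero => intro f _ x; simp
  | succ j ih =>
    intro f hf x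
    let D : (M × M → Qbar) →ₗ[A] Qbar :=
      { toFun := fun Q => (Δ_[act σ z])^[j] (fun y => Q (y, act σ z) - Q (y, 0)) x -
          ω ^ (j + 1) * (Δ_[z])^[j] (fun y => Q (y, z) - Q (y, 0)) x
        map_add' := fun Q Q' => by
          rw [show (fun y => (Q + Q') (y, act σ z) - (Q + Q') (y, 0)) =
            (fun y => Q (y, act σ z) - Q (y, 0)) + (fun y => Q' (y, act σ z) - Q' (y, 0)) from
              funext fun y => by simp only [Pi.add_apply]; ring,
            show (fun y => (Q + Q') (y, z) - (Q + Q') (y, 0)) =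
            (fun y => Q (y, z) - Q (y, 0)) + (fun y => Q' (y, z) - Q' (y, 0)) from
              funext fun y => by simp only [Pi.add_apply]; ring,
            fwdDiff_iter_add, fwdDiff_iter_add, Pi.add_apply, Pi.add_apply]
          ring
        map_smul' := fun c Q => by
          rw [show (fun y => (c • Q) (y, act σ z) - (c • Q) (y, 0)) =
            c • (fun y => Q (y, act σ z) - Q (y, 0)) from funext fun y => (smul_sub c _ _).symm,
            show (fun y => (c • Q) (y, z) - (c • Q) (y, 0)) =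
            c • (fun y => Q (y, z) - Q (y, 0)) from funext fun y => (smul_sub c _ _).symm,
            fwdDiff_iter_const_smul, fwdDiff_iter_const_smul, RingHom.id_apply]
          show (c : Qbar) * _ - _ * ((c : Qbar) * _) = (c : Qbar) * _
          ring }
    have hle : Submodule.span A (tens Z.gens Z.gens : Set (M × M → Qbar)) ≤
        (valBall A (t ^ (j + 1) * s)).comap D := by
      refine Submodule.span_le.mpr fun Q hQ => ?_
      obtain ⟨g, hg, k, hk, rfl⟩ := Finset.mem_image₂.mp hQ
      show A.valuation ((Δ_[act σ z])^[j] (fun y => g y * k (act σ z) - g y * k 0) x -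
        ω ^ (j + 1) * (Δ_[z])^[j] (fun y => g y * k z - g y * k 0) x) ≤ t ^ (j + 1) * s
      rw [show (fun y => g y * k (act σ z) - g y * k 0) = (k (act σ z) - k 0) • g from
          funext fun y => by simp only [Pi.smul_apply, smul_eq_mul]; ring,
        show (fun y => g y * k z - g y * k 0) = (k z - k 0) • g from
          funext fun y => by simp only [Pi.smul_apply, smul_eq_mul]; ring,
        fwdDiff_iter_const_smul, fwdDiff_iter_const_smul, Pi.smul_apply, Pi.smul_apply,
        smul_eq_mul, smul_eq_mul, hconj k hk,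
        show σ (k z - k 0) * (Δ_[act σ z])^[j] g x - ω ^ (j + 1) * ((k z - k 0) * (Δ_[z])^[j] g x) =
          (σ (k z - k 0) - ω * (k z - k 0)) * (Δ_[act σ z])^[j] g x + ω * (k z - k 0) *
            ((Δ_[act σ z])^[j] g x - ω ^ j * (Δ_[z])^[j] g x) by rw [pow_succ']; ring,
        pow_succ']
      refine Valuation.map_add_le _ ?_ ?_
      · rw [map_mul, mul_assoc t, mul_comm (t ^ j) s, ← mul_assoc t]
        exact mul_le_mul' (hu k hk) (Z.iter_le hc' j g (Z.gen_mem hg) x)
      · rw [map_mul, map_mul, mul_assoc t]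
        exact mul_le_mul' ((mul_le_of_le_one_left zero_le hω).trans (hc k hk))
          (ih g (Z.gen_mem hg) x)
    have h1 := hle (Z.add_mem_tens hf)
    change A.valuation ((Δ_[act σ z])^[j] (fun y => f (y + act σ z) - f (y + 0)) x -
      ω ^ (j + 1) * (Δ_[z])^[j] (fun y => f (y + z) - f (y + 0)) x) ≤ t ^ (j + 1) * s at h1
    rw [show (fun y => f (y + act σ z) - f (y + 0)) = fwdDiff (act σ z) f from
        funext fun y => by simp only [fwdDiff, add_zero],
      show (fun y => f (y + z) - f (y + 0)) = fwdDiff z f from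
        funext fun y => by simp only [fwdDiff, add_zero]] at h1
    rw [Function.iterate_succ_apply, Function.iterate_succ_apply]
    exact h1

omit hIS in
/-- A nonzero leading term killed by the relation has exponent `1` or `p`. -/
private theorem exponent_eq_one_or_prime (hp2' : p ≠ 2) (hK : R.eK = p + 1) {σ : GQ}
    (hσ : σ ∈ A.inertiaSubgroupIn ℚ) (hprim : IsPrimitiveRoot (R.kap σ) R.e) (N : ℕ) (m : ℕ → ℕ)
    (hroots : ∀ c : IsLocalRing.ResidueField A,
      ∑ k ∈ Finset.range N, (m k : IsLocalRing.ResidueField A) * c ^ k = 0 →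
        c = R.kap σ ∨ c = R.kap σ ^ p)
    {n : ℕ} (hn : n < 2 * p) {w : Qbar} (hw : A.valuation w = A.valuation R.π ^ n)
    (hlt : A.valuation (∑ k ∈ Finset.range N, (m k : Qbar) * (σ ^ k) w) < A.valuation R.π ^ n) :
    n = 1 ∨ n = p := by
  have hp2 := hp.out.two_le
  have he : R.e + 1 = p * p := by
    rw [R.e_eq, hK]; obtain ⟨a, ha⟩ : ∃ a, p = a + 1 := ⟨p - 1, by omega⟩
    rw [ha, Nat.add_sub_cancel]; ring
  have : 3 * p ≤ p * p := Nat.mul_le_mul_right p (show 3 ≤ p by omega)
  have h := hroots _ (R.lead_zero hσ hw N m hlt)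
  rcases h with h | h
  · refine Or.inl (hprim.pow_inj (by omega) (by omega) ?_)
    rw [pow_one]; exact h
  · exact Or.inr (hprim.pow_inj (by omega) (by omega) h)

omit hIS in
/-- A difference fixed by the tame group, of level `p` and killed by the relation to twice that
level, is twisted by `(σ π / π) ^ p` up to twice that level. -/
private theorem twist_sub_le {σ : GQ} (hσ : σ ∈ A.inertiaSubgroupIn ℚ) (N : ℕ) (m : ℕ → ℕ)
    (hexp : ∀ n, n < 2 * p → ∀ w : Qbar, A.valuation w = A.valuation R.π ^ n →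
      A.valuation (∑ k ∈ Finset.range N, (m k : Qbar) * (σ ^ k) w) < A.valuation R.π ^ n →
        n = 1 ∨ n = p)
    {b : Qbar} (hbH : ∀ h ∈ R.H, h b = b) (hb : A.valuation b ≤ A.valuation R.π ^ p)
    (hrel : A.valuation (∑ k ∈ Finset.range N, (m k : Qbar) * (σ ^ k) b) ≤
      A.valuation R.π ^ (p + p)) :
    A.valuation (σ b - (σ R.π / R.π) ^ p * b) ≤ A.valuation R.π ^ p * A.valuation R.π ^ p := by
  have hp2 := hp.out.two_le
  have hσD := inertia_le_decomposition hσ
  set κ := σ R.π / R.π with hκ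
  set ω := κ ^ p with hω
  have hκv : A.valuation κ = 1 :=
    valuation_eq_one_of_pow R.e_pos.ne' (by rw [R.kappa_pow, map_one])
  have hω1 : A.valuation ω ≤ 1 := by rw [hω, map_pow, hκv, one_pow]
  have hωfix : ∀ τ ∈ A.inertiaSubgroupIn ℚ, τ ω = ω := fun τ hτ => by
    rw [hω, map_pow, R.inertia_kappa hτ]
  set u := σ b - ω * b with hu
  rcases eq_or_ne u 0 with hu0 | hu0
  · rw [hu0, map_zero]; exact zero_le
  have huH : ∀ h ∈ R.H, h u = u := fun h hh => by
    have hc : h (σ b) = σ ((σ⁻¹ * h * σ) b) := by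
      rw [← AlgEquiv.mul_apply, ← AlgEquiv.mul_apply]; group
    rw [hu, map_sub, map_mul, hωfix h (mem_rootFix.mp hh).1, hbH h hh, hc,
      hbH _ (R.conj_mem_H hσD hh)]
  -- smaller than the level
  have hult : A.valuation u < A.valuation R.π ^ p := by
    rcases hb.lt_or_eq with hlt | heq
    · refine Valuation.map_sub_lt _ (by rwa [SelmerP.val_map hσD]) ?_
      rw [map_mul]
      exact (mul_le_of_le_one_left zero_le hω1).trans_lt hlt
    · set b' := b / R.π ^ p
      have hb' : A.valuation b' = 1 := by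
        rw [map_div₀, heq, map_pow, div_self (pow_ne_zero _ R.val_ne_zero)]
      have hbb : b = b' * R.π ^ p := (div_mul_cancel₀ _ (pow_ne_zero _ R.ne_zero)).symm
      rw [hu, hbb, map_mul, map_pow, show σ R.π = κ * R.π from
        (div_mul_cancel₀ _ R.ne_zero).symm, mul_pow,
        show σ b' * (κ ^ p * R.π ^ p) - ω * (b' * R.π ^ p) = (σ b' - b') * (ω * R.π ^ p) by
          rw [hω]; ring, map_mul]
      refine lt_of_lt_of_le (mul_lt_of_lt_one_left ?_
        (valuation_map_sub_lt_one hp.out R.lies hσ hb'.le)) ?_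
      · exact zero_lt_iff.mpr ((Valuation.ne_zero_iff _).mpr (mul_ne_zero
          (pow_ne_zero _ fun h0 => by rw [h0, map_zero] at hκv; exact zero_ne_one hκv)
          (pow_ne_zero _ R.ne_zero)))
      · rw [map_mul, map_pow A.valuation R.π]
        exact mul_le_of_le_one_left zero_le hω1
  obtain ⟨n, hn⟩ := R.exists_zpow hu0 huH
  have hlt := hult
  rw [hn, ← zpow_natCast, R.zpow_lt] at hlt
  obtain ⟨n, rfl⟩ := Int.eq_ofNat_of_zero_le (show 0 ≤ n by omega)
  rw [zpow_natCast] at hn
  rw [hn, ← pow_add, R.pow_le]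
  by_contra hcon
  have hsum : A.valuation (∑ k ∈ Finset.range N, (m k : Qbar) * (σ ^ k) u) ≤
      A.valuation R.π ^ (p + p) := by
    set s := ∑ k ∈ Finset.range N, (m k : Qbar) * (σ ^ k) b with hs
    rw [show ∑ k ∈ Finset.range N, (m k : Qbar) * (σ ^ k) u = σ s - ω * s by
      rw [hs, map_sum, Finset.mul_sum, ← Finset.sum_sub_distrib]
      refine Finset.sum_congr rfl fun k _ => ?_
      rw [hu, map_sub (σ ^ k), map_mul (σ ^ k), hωfix _ (pow_mem hσ k), map_mul σ, map_natCast,
        ← AlgEquiv.mul_apply, ← AlgEquiv.mul_apply, ← pow_succ, pow_succ']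
      ring]
    refine Valuation.map_sub_le _ (by rw [SelmerP.val_map hσD]; exact hrel) ?_
    rw [map_mul]
    exact (mul_le_of_le_one_left zero_le hω1).trans hrel
  have := hexp n (by omega) u hn (hsum.trans_lt (R.pow_lt.mpr (by omega)))
  omega

omit hIS in
/-- The top iterated difference of a point of level `p` has the valuation of `p` times the
difference. -/
private theorem val_top_diff {z : M} (hpz : p • z = 0)
    (hclose : Z.Close z (A.valuation R.π ^ p)) {g : M → Qbar} (hg : g ∈ Z.gens)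
    (hgd : A.valuation (g z - g 0) = A.valuation R.π ^ p) :
    A.valuation ((Δ_[z])^[p] g 0) = A.valuation R.π ^ (R.e + p) := by
  have hp2 := hp.out.two_le
  set T := (Δ_[z])^[p] g 0 with hT
  have hexpand := shift_eq_sum_fwdDiff_iter (h := z) g p 0
  rw [hpz, add_zero, Finset.sum_range_succ', Nat.choose_zero_right, one_smul,
    Function.iterate_zero_apply, right_eq_add] at hexpand
  obtain ⟨q, hq⟩ : ∃ q, p = q + 1 + 1 := ⟨p - 2, by omega⟩
  rw [show Finset.range p = Finset.range (q + 1 + 1) from congrArg Finset.range hq,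
    Finset.sum_range_succ, Finset.sum_range_succ', ← hq, Nat.choose_self, one_smul, zero_add,
    Nat.choose_one_right, Function.iterate_one, fwdDiff, zero_add, ← hT] at hexpand
  have hmain : A.valuation (p • (g z - g 0)) = A.valuation R.π ^ (R.e + p) := by
    rw [nsmul_eq_mul, map_mul, R.val_natCast_p, hgd, pow_add]
  have hsmallsum : A.valuation (∑ k ∈ Finset.range q, p.choose (k + 1 + 1) •
      (Δ_[z])^[k + 1 + 1] g 0) ≤ A.valuation R.π ^ (R.e + p + 1) := by
    refine Valuation.map_sum_le _ fun k hk => ?_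
    rw [Finset.mem_range] at hk
    obtain ⟨c, hc⟩ := hp.out.dvd_choose_self (k := k + 1 + 1) (by omega) (by omega)
    rw [hc, nsmul_eq_mul, Nat.cast_mul, map_mul, map_mul, R.val_natCast_p,
      show R.e + p + 1 = R.e + (p + 1) by omega, pow_add (A.valuation R.π) R.e, mul_assoc]
    refine mul_le_mul' le_rfl ((mul_le_of_le_one_left zero_le
      (val_le_one (natCast_mem A c))).trans ((Z.iter_le hclose _ g (Z.gen_mem hg) 0).trans ?_))
    rw [← pow_mul, R.pow_le]
    have : p * 2 ≤ p * (k + 1 + 1) := Nat.mul_le_mul_left p (by omega)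
    omega
  have e : T = -(p • (g z - g 0)) - ∑ k ∈ Finset.range q, p.choose (k + 1 + 1) •
      (Δ_[z])^[k + 1 + 1] g 0 := by linear_combination hexpand
  rw [e, sub_eq_add_neg, Valuation.map_add_eq_of_lt_left, Valuation.map_neg, hmain]
  rw [Valuation.map_neg, Valuation.map_neg, hmain]
  exact hsmallsum.trans_lt (R.pow_lt.mpr (by omega))

/-- The Galois action commutes with iterated differences at the origin. -/
private theorem map_top_diff {σ : GQ} (hσ : σ ∈ A.inertiaSubgroupIn ℚ) (hσ0 : act σ 0 = 0)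
    (hadd : ∀ x y, act σ (x + y) = act σ x + act σ y) (z : M) {g : M → Qbar} (hg : g ∈ Z.gens)
    (d : ℕ) : σ ((Δ_[z])^[d] g 0) = (Δ_[act σ z])^[d] g 0 := by
  have hk : ∀ k : ℕ, act σ (k • z) = k • act σ z := fun k => by
    induction k with
    | zero => simpa using hσ0
    | succ k ih => rw [succ_nsmul, succ_nsmul, ← ih, hadd]
  rw [fwdDiff_iter_eq_sum_shift, fwdDiff_iter_eq_sum_shift, map_sum]
  refine Finset.sum_congr rfl fun k _ => ?_
  rw [zero_add, zero_add, map_zsmul σ, ← hk, Z.equiv g hg σ (hIS hσ)]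

omit hIS in
/-- An element of exact level `n` twisted by `σ π / π` to higher order forces `kap σ ^ n` to be
`kap σ`. -/
private theorem kap_pow_eq_of_val {σ : GQ} (hσ : σ ∈ A.inertiaSubgroupIn ℚ) {T : Qbar} {n : ℕ}
    (hTv : A.valuation T = A.valuation R.π ^ n)
    (hlt : A.valuation (σ T - σ R.π / R.π * T) < A.valuation R.π ^ n) :
    R.kap σ ^ n = R.kap σ := by
  set κ := σ R.π / R.π with hκ
  set v := T / R.π ^ n
  have hv1 : A.valuation v = 1 := by
    rw [map_div₀, hTv, map_pow, div_self (pow_ne_zero _ R.val_ne_zero)]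
  have hvA := mem_of_val hv1.le
  have hκA : κ ∈ A := R.kappa_mem σ
  have hσv := map_mem_of_mem_decomposition (inertia_le_decomposition hσ) hvA
  have e : σ T - κ * T = (κ ^ n * σ v - κ * v) * R.π ^ n := by
    rw [show T = v * R.π ^ n from (div_mul_cancel₀ _ (pow_ne_zero _ R.ne_zero)).symm, map_mul,
      map_pow, show σ R.π = κ * R.π from (div_mul_cancel₀ _ R.ne_zero).symm]
    ring
  rw [e, map_mul, map_pow A.valuation R.π] at hlt
  have hlt1 : A.valuation (κ ^ n * σ v - κ * v) < 1 := by
    by_contra h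
    rw [not_lt] at h
    exact not_le.mpr hlt (le_mul_of_one_le_left' h)
  rw [← red_eq_red_iff (mul_mem (pow_mem hκA n) hσv) (mul_mem hκA hvA),
    red_mul (pow_mem hκA n) hσv, red_mul hκA hvA, red_inertia R.lies hσ hvA, red_pow hκA] at hlt1
  have hv0 : red A v ≠ 0 := by
    rw [ne_eq, red_eq_zero_iff hvA, hv1]; exact lt_irrefl 1
  exact mul_right_cancel₀ hv0 hlt1

/-- **Points of level two are at distance `π`.** -/
theorem level_eq_one (hp2' : p ≠ 2) (hK : R.eK = p + 1) {σ : GQ} (hσ : σ ∈ A.inertiaSubgroupIn ℚ)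
    (hprim : IsPrimitiveRoot (R.kap σ) R.e)
    (hadd : ∀ k : ℕ, ∀ x y, act (σ ^ k) (x + y) = act (σ ^ k) x + act (σ ^ k) y)
    {z : M} (hz : z ≠ 0) (hpz : p • z = 0) (hsmall : Z.Small z)
    (hfix : ∀ h ∈ R.H, act h z = z ∧ act h 0 = 0) (N : ℕ) (m : ℕ → ℕ)
    (hrel : ∑ k ∈ Finset.range N, m k • act (σ ^ k) z = 0)
    (hroots : ∀ c : IsLocalRing.ResidueField A,
      ∑ k ∈ Finset.range N, (m k : IsLocalRing.ResidueField A) * c ^ k = 0 →
        c = R.kap σ ∨ c = R.kap σ ^ p) :
    Z.Close z (A.valuation R.π) ∧ ∃ g ∈ Z.gens, A.valuation (g z - g 0) = A.valuation R.π := by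
  have hHS : R.H ≤ S := inf_le_left.trans hIS
  have hp2 := hp.out.two_le
  have he : R.e + 1 = p * p := by
    rw [R.e_eq, hK]; obtain ⟨a, ha⟩ : ∃ a, p = a + 1 := ⟨p - 1, by omega⟩
    rw [ha, Nat.add_sub_cancel]; ring
  have hep : 2 * p ≤ R.e + 1 := by rw [he]; exact Nat.mul_le_mul_right p hp2
  have hσ0 : ∀ k : ℕ, act (σ ^ k) 0 = 0 := fun k => by
    have := hadd k 0 0; rwa [add_zero, left_eq_add] at this
  have hσS : ∀ k : ℕ, σ ^ k ∈ S := fun k => hIS (pow_mem hσ k)
  obtain ⟨d, hdK, hclose, ⟨g, hg, hgd⟩, hd1⟩ := exists_level R hHS hz hpz hfix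
  have hd : 1 ≤ d := hd1 hsmall
  have hπ1 : A.valuation R.π ^ d ≤ 1 := pow_le_one₀ zero_le R.val_lt_one.le
  -- the possible exponents
  have hexp := fun n (hn : n < 2 * p) (w : Qbar) =>
    exponent_eq_one_or_prime R hp2' hK hσ hprim N m hroots hn (w := w)
  have hrel2 : ∀ f ∈ Z.gens,
      A.valuation (∑ k ∈ Finset.range N, (m k : Qbar) * (σ ^ k) (f z - f 0)) ≤
        A.valuation R.π ^ (d + d) := fun f hf => by
    rw [pow_add]; exact level_relation hσ hσS hσ0 hπ1 hclose N m hrel hf
  rcases hexp d (by rw [hK] at hdK; omega) _ hgd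
      ((hrel2 g hg).trans_lt (R.pow_lt.mpr (by omega))) with h1 | hdp
  · subst h1
    rw [pow_one] at hclose hgd
    exact ⟨hclose, g, hg, hgd⟩
  exfalso
  subst hdp
  -- the twist on differences
  set κ := σ R.π / R.π with hκ
  have hω1 : A.valuation (κ ^ d) ≤ 1 := by
    rw [map_pow, valuation_eq_one_of_pow R.e_pos.ne' (by rw [R.kappa_pow, map_one]), one_pow]
  have hu : ∀ f ∈ Z.gens, A.valuation (σ (f z - f 0) - κ ^ d * (f z - f 0)) ≤
      A.valuation R.π ^ d * A.valuation R.π ^ d := fun f hf =>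
    twist_sub_le R hσ N m hexp (fun h hh => by
      rw [map_sub, ← Z.equiv f hf h (hHS hh), ← Z.equiv f hf h (hHS hh), (hfix h hh).1,
        (hfix h hh).2]) (hclose f hf) (hrel2 f hf)
  -- the top iterated difference
  have hit := iter_sub_le Z hIS hσ (by simpa using hσ0 1) hω1 hclose hu d g (Z.gen_mem hg) 0
  rw [← map_top_diff Z hIS hσ (by simpa using hσ0 1) (by simpa using hadd 1) z hg d] at hit
  have hκe : (κ ^ d) ^ d = κ := by rw [← pow_mul, ← he, pow_succ, R.kappa_pow, one_mul]
  rw [hκe, ← pow_mul, ← pow_add, ← he] at hit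
  have hk := kap_pow_eq_of_val R hσ (val_top_diff R Z hpz hclose hg hgd)
    (hit.trans_lt (R.pow_lt.mpr (by omega)))
  rw [pow_add, hprim.pow_eq_one, one_mul] at hk
  have := hprim.pow_inj (show d < R.e by have := Nat.mul_le_mul_right d hp2; omega)
    (show 1 < R.e by omega) (by rw [pow_one]; exact hk)
  omega

end FermatAgent.CFT.FlatBound

end
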