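import Fermat.Agent.CFT.FlatBound.Setup
import Fermat.Agent.CFT.FlatBound.Separation

/-!
# Levels of entries for representations induced from the unramified quadratic extension

For a representation which on inertia is a sum of two conjugate characters of level two, the
eigenvalues are the tame characters of level two and the entries of flat cocycles have high
levels on `H`.
-/

set_option autoImplicit false

noncomputable section

open scoped Classical Matrix IntermediateField

namespace FermatAgent.CFT.FlatBound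

open GaloisBasic Mazur SelmerP
open Global (zet zet_spec chiQ)
open Selmer (M22 adCoc locCob locFix chiK coe_chiK rep_mul_inv rep_inv_mul)

variable {k : Type} [Field k] {p : ℕ} [hp : Fact p.Prime] [CharP k p]

/-- The casts of residues modulo `p` are fixed by Frobenius. -/
lemma castHom_pow (K : Type) [Field K] [CharP K p] (a : ZMod p) :
    ZMod.castHom (dvd_refl p) K a ^ p = ZMod.castHom (dvd_refl p) K a := by
  rw [← map_pow, ZMod.pow_card]

/-- Elements fixed by Frobenius are residues modulo `p`. -/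
lemma exists_cast_of_pow (K : Type) [Field K] [CharP K p] {x : K} (h : x ^ p = x) :
    ∃ a : ZMod p, ZMod.castHom (dvd_refl p) K a = x := by
  by_contra hne
  push Not at hne
  have h0 : (Polynomial.X ^ p - Polynomial.X : Polynomial K) ≠ 0 :=
    FiniteField.X_pow_card_sub_X_ne_zero K hp.out.one_lt
  let S : Finset K := insert x (Finset.univ.image (ZMod.castHom (dvd_refl p) K))
  have hS : S ⊆ (Polynomial.X ^ p - Polynomial.X : Polynomial K).roots.toFinset := fun y hy => by
    rw [Multiset.mem_toFinset, Polynomial.mem_roots h0]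
    simp only [Polynomial.IsRoot, Polynomial.eval_sub, Polynomial.eval_pow, Polynomial.eval_X,
      sub_eq_zero]
    rcases Finset.mem_insert.mp hy with rfl | hy
    · exact h
    · obtain ⟨a, -, rfl⟩ := Finset.mem_image.mp hy
      exact castHom_pow K a
  have h1 := (Finset.card_le_card hS).trans
    ((Multiset.toFinset_card_le _).trans (Polynomial.card_roots' _))
  rw [Finset.card_insert_of_notMem (by simpa using hne),
    Finset.card_image_of_injective _ (ZMod.castHom (dvd_refl p) K).injective, Finset.card_univ,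
    ZMod.card, FiniteField.X_pow_card_sub_X_natDegree_eq K hp.out.one_lt] at h1
  omega

/-- A quadratic element generates the field with `p ^ 2` elements. -/
lemma card_adjoin_two [Algebra (ZMod p) k] [Finite k] {μ : k} (h1 : μ ^ p ≠ μ)
    (h2 : μ ^ (p * p) = μ) : Nat.card (ZMod p)⟮μ⟯ = p ^ 2 := by
  set E := (ZMod p)⟮μ⟯
  have : Module.Finite (ZMod p) E := Module.Finite.of_finite
  have hfr := Module.natCard_eq_pow_finrank (K := ZMod p) (V := E)
  rw [Nat.card_zmod] at hfr
  let L : IntermediateField (ZMod p) k :=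
    { toSubalgebra :=
        AlgHom.equalizer
          (AlgHom.mk (iterateFrobenius k p 2) fun a => by
            show algebraMap (ZMod p) k a ^ p ^ 2 = _
            rw [← map_pow, pow_two, pow_mul, ZMod.pow_card, ZMod.pow_card])
          (AlgHom.id (ZMod p) k)
      inv_mem' := fun x hx => by
        have hx' : x ^ p ^ 2 = x := hx
        show x⁻¹ ^ p ^ 2 = x⁻¹
        rw [inv_pow, hx'] }
  have hL : E ≤ L :=
    IntermediateField.adjoin_simple_le_iff.mpr (show μ ^ p ^ 2 = μ by rwa [pow_two])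
  have h0 : (Polynomial.X ^ (p ^ 2) - Polynomial.X : Polynomial k) ≠ 0 :=
    FiniteField.X_pow_card_sub_X_ne_zero k (Nat.one_lt_pow two_ne_zero hp.out.one_lt)
  have hup : Nat.card E ≤ p ^ 2 := by
    let ι : E → (Polynomial.X ^ (p ^ 2) - Polynomial.X : Polynomial k).roots.toFinset := fun e =>
      ⟨e.1, by
        rw [Multiset.mem_toFinset, Polynomial.mem_roots h0]
        have h : iterateFrobenius k p 2 e.1 = e.1 := hL e.2
        rw [iterateFrobenius_def] at h
        simpa [Polynomial.IsRoot, sub_eq_zero] using h⟩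
    refine (Nat.card_le_card_of_injective ι fun a b h => Subtype.ext (Subtype.mk.inj h)).trans ?_
    rw [Nat.card_eq_fintype_card, Fintype.card_coe]
    exact (Multiset.toFinset_card_le _).trans ((Polynomial.card_roots' _).trans
      (FiniteField.X_pow_card_sub_X_natDegree_eq k (Nat.one_lt_pow two_ne_zero hp.out.one_lt)).le)
  have hge : 2 ≤ Module.finrank (ZMod p) E := by
    by_contra hlt
    have h11 : Module.finrank (ZMod p) E = 1 := by
      have := Module.finrank_pos (R := ZMod p) (M := E)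
      omega
    have hbot := IntermediateField.finrank_eq_one_iff.mp h11
    have hm := IntermediateField.mem_adjoin_simple_self (ZMod p) μ
    rw [show (ZMod p)⟮μ⟯ = ⊥ from hbot] at hm
    obtain ⟨a, ha⟩ := IntermediateField.mem_bot.mp hm
    exact h1 (by rw [← ha, ← RingHom.map_pow, ZMod.pow_card])
  rw [hfr] at hup ⊢
  rw [le_antisymm ((Nat.pow_le_pow_iff_right hp.out.one_lt).mp hup) hge]

/-- Inertia acts by two conjugate characters of level two, exchanged by Frobenius. -/
structure IrrShape (A : ValuationSubring Qbar) (R : TameRoot A p) (r : MatRep k) (σ₀ F : GQ)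
    (α : GQ → k) : Prop where
  eK : R.eK = p + 1
  two : p ≠ 2
  gen : σ₀ ∈ A.inertiaSubgroupIn ℚ
  primπ : IsPrimitiveRoot (σ₀ R.π / R.π) R.e
  prim : IsPrimitiveRoot (R.kap σ₀) R.e
  frob : A.IsFrobeniusAt F p
  frobπ : F R.π = R.π
  diag : ∀ σ ∈ A.inertiaSubgroupIn ℚ, r σ = !![α σ, 0; 0, α σ ^ p]
  per : ∀ σ ∈ A.inertiaSubgroupIn ℚ, α σ ^ (p * p) = α σ
  chi : ∀ σ ∈ A.inertiaSubgroupIn ℚ, α σ * α σ ^ p = (chiK k p σ : k)
  F00 : r F 0 0 = 0
  F11 : r F 1 1 = 0
  F01 : r F 0 1 ≠ 0
  F10 : r F 1 0 ≠ 0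
  ne : α σ₀ ^ p ≠ α σ₀
  trivH : ∀ h ∈ R.H, α h = 1
  cont : ∃ L : IntermediateField ℚ Qbar, FiniteDimensional ℚ L ∧ ∀ σ ∈ L.fixingSubgroup, r σ = 1
  flat : IsFlatCoc A r 0

namespace IrrShape

variable {A : ValuationSubring Qbar} {R : TameRoot A p} {r : MatRep k} {σ₀ F : GQ} {α : GQ → k}
  (hs : IrrShape A R r σ₀ F α)

include hs

lemma alpha_mul {σ τ : GQ} (hσ : σ ∈ A.inertiaSubgroupIn ℚ) (hτ : τ ∈ A.inertiaSubgroupIn ℚ) :
    α (σ * τ) = α σ * α τ := by
  have h := congrFun (congrFun (map_mul r σ τ) 0) 0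
  rw [hs.diag _ hσ, hs.diag _ hτ, hs.diag _ (mul_mem hσ hτ)] at h
  simpa [Matrix.mul_apply, Fin.sum_univ_two] using h

/-- The representation is trivial on `H`. -/
lemma rep_H {h : GQ} (hh : h ∈ R.H) : r h = 1 := by
  rw [hs.diag h (mem_rootFix.mp hh).1, hs.trivH h hh, one_pow, Matrix.one_fin_two]

/-- The character at powers of the generator. -/
lemma alpha_pow (j : ℕ) : α (σ₀ ^ j) = α σ₀ ^ j := by
  induction j with
  | zero => rw [pow_zero, pow_zero, hs.trivH 1 (one_mem _)]
  | succ j ih => rw [pow_succ, hs.alpha_mul (pow_mem hs.gen j) hs.gen, ih, pow_succ]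

/-- Values of the character are powers of that at the generator. -/
lemma alpha_eq_pow {σ : GQ} (hσ : σ ∈ A.inertiaSubgroupIn ℚ) : ∃ j : ℕ, α σ = α σ₀ ^ j := by
  obtain ⟨j, hj⟩ := exists_pow_mul_mem R hs.gen hs.primπ hσ
  refine ⟨j, ?_⟩
  conv_lhs => rw [show σ = σ₀ ^ j * ((σ₀ ^ j)⁻¹ * σ) by group]
  rw [hs.alpha_mul (pow_mem hs.gen j) (mem_rootFix.mp hj).1, hs.trivH _ hj, mul_one, hs.alpha_pow]

/-- Inertia acts diagonally. -/
lemma diag_apply {σ : GQ} (hσ : σ ∈ A.inertiaSubgroupIn ℚ) (i : Fin 2) (v : V2 k) :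
    (r σ *ᵥ v) i = r σ i i * v i := by
  rw [hs.diag σ hσ]
  fin_cases i <;> simp [Matrix.mulVec, dotProduct, Fin.sum_univ_two]

/-- The diagonal entries at powers of the generator. -/
lemma diag_pow (i : Fin 2) (j : ℕ) : r (σ₀ ^ j) i i = r σ₀ i i ^ j := by
  rw [hs.diag _ (pow_mem hs.gen j), hs.diag _ hs.gen, hs.alpha_pow]
  fin_cases i
  · simp
  · simp [← pow_mul, mul_comm]

lemma alpha_ne_one : α σ₀ ≠ 1 := fun h => hs.ne (by rw [h, one_pow])

/-- The character is nonzero at the generator. -/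
lemma alpha_ne_zero : α σ₀ ≠ 0 := fun h => hs.ne (by rw [h, zero_pow hp.out.ne_zero])

/-- The eigenvalues are not in the prime field. -/
lemma eig_ne (i : Fin 2) : r σ₀ i i ^ p ≠ r σ₀ i i := by
  rw [hs.diag _ hs.gen]
  fin_cases i
  · simpa using hs.ne
  · simp only [Fin.mk_one, Matrix.of_apply, Matrix.cons_val', Matrix.cons_val_one,
      Matrix.empty_val', Matrix.cons_val_fin_one]
    rw [← pow_mul, hs.per σ₀ hs.gen]
    exact Ne.symm hs.ne

/-- The trace of the eigenvalues is a residue modulo `p`. -/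
lemma exists_trace : ∃ t : ZMod p, ZMod.castHom (dvd_refl p) k t = α σ₀ + α σ₀ ^ p :=
  exists_cast_of_pow k (by rw [add_pow_char, ← pow_mul, hs.per σ₀ hs.gen, add_comm])

/-- The trace. -/
def trc (hs : IrrShape A R r σ₀ F α) : ZMod p := hs.exists_trace.choose

/-- The trace of the character over the prime field. -/
lemma trc_spec : ZMod.castHom (dvd_refl p) k hs.trc = α σ₀ + α σ₀ ^ p := hs.exists_trace.choose_spec

lemma eig_root (i : Fin 2) :
    r σ₀ i i ^ 2 - ZMod.castHom (dvd_refl p) k hs.trc * r σ₀ i i + (chiK k p σ₀ : k) = 0 := by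
  rw [hs.trc_spec, ← hs.chi σ₀ hs.gen, hs.diag _ hs.gen]
  fin_cases i <;> simp <;> ring

omit hs in
/-- The coefficients of the characteristic polynomial at the generator. -/
def coef (t n : ZMod p) : ℕ → ℕ
  | 0 => n.val
  | 1 => (-t).val
  | _ => 1

omit hs in
/-- The quadratic polynomial as a sum of its coefficients. -/
lemma sum_coef {K : Type} [Field K] [CharP K p] (t n : ZMod p) (c : K) :
    ∑ i ∈ Finset.range 3, (coef t n i : K) * c ^ i =
      c ^ 2 - ZMod.castHom (dvd_refl p) K t * c + ZMod.castHom (dvd_refl p) K n := by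
  have e : ∀ a : ZMod p, (a.val : K) = ZMod.castHom (dvd_refl p) K a := fun a => by
    rw [← map_natCast (ZMod.castHom (dvd_refl p) K), ZMod.natCast_zmod_val]
  simp only [Finset.sum_range_succ, Finset.sum_range_zero, coef, e, map_neg, Nat.cast_one]
  ring

/-- The relation satisfied by the generator on a coordinate. -/
lemma rel_eig (i : Fin 2) :
    ∑ j ∈ Finset.range 3, (coef hs.trc (chiQ p σ₀ : ZMod p) j : k) * r σ₀ i i ^ j = 0 := by
  rw [sum_coef, ← coe_chiK]
  exact hs.eig_root i

/-- **The eigenvalues are the tame characters of level two.** -/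
theorem kap_roots [CharP (IsLocalRing.ResidueField A) p] :
    ZMod.castHom (dvd_refl p) (IsLocalRing.ResidueField A) hs.trc =
        R.kap σ₀ + R.kap σ₀ ^ p ∧
      ZMod.castHom (dvd_refl p) (IsLocalRing.ResidueField A) (chiQ p σ₀ : ZMod p) =
        R.kap σ₀ * R.kap σ₀ ^ p ∧ R.kap σ₀ ^ p ≠ R.kap σ₀ := by
  set KF := IsLocalRing.ResidueField A
  set n : ZMod p := (chiQ p σ₀ : ZMod p)
  have hκ := hs.prim
  set κ := R.kap σ₀
  have hn : ZMod.castHom (dvd_refl p) KF n = κ ^ (p + 1) := by
    rw [← hs.eK]; exact (kap_pow_eK R hs.gen).symm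
  have hp2 := hp.out.two_le
  have he : R.e + 1 = p * p := by
    rw [R.e_eq, hs.eK]; obtain ⟨a, ha⟩ : ∃ a, p = a + 1 := ⟨p - 1, by omega⟩
    rw [ha, Nat.add_sub_cancel]; ring
  have h2p : 2 * p ≤ p * p := Nat.mul_le_mul_right p hp2
  have hκne : κ ^ p ≠ κ := fun h => by
    have := hκ.pow_inj (show p < R.e by omega) (show 1 < R.e by omega) (by rwa [pow_one])
    omega
  refine ⟨?_, by rw [hn, pow_succ'], hκne⟩
  -- the coordinate system of the representation
  obtain ⟨Z⟩ := hs.flat.rep
  set z : V2 k := ![1, 0]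
  have hz : z ≠ 0 := fun h => by simpa [z] using congrFun h 0
  obtain ⟨d, hdK, hclose, ⟨g, hg, hgd⟩, hd1⟩ := exists_level R (Z := Z) le_top hz
    (by ext i; simp [nsmul_eq_mul, CharP.cast_eq_zero])
    (fun h hh => by simp [repAct, hs.rep_H hh])
  have hsmall : Z.Small z := by
    have h := small_act_sub (Z := Z) R.lies hs.gen (Subgroup.mem_top σ₀)
      (![(α σ₀ - 1)⁻¹, 0] : V2 k)
    convert h using 1
    have h1 : α σ₀ - 1 ≠ 0 := sub_ne_zero.mpr hs.alpha_ne_one
    ext i
    rw [repAct, Pi.sub_apply, hs.diag_apply hs.gen, hs.diag _ hs.gen]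
    fin_cases i
    · simp [z]; field_simp
    · simp [z]
  have hd := hd1 hsmall
  have hrel : ∑ j ∈ Finset.range 3, coef hs.trc n j • repAct r (σ₀ ^ j) z = 0 := by
    ext i
    rw [Finset.sum_apply]
    simp only [Pi.smul_apply, repAct, hs.diag_apply (pow_mem hs.gen _), hs.diag_pow, nsmul_eq_mul,
      ← mul_assoc, ← Finset.sum_mul, Pi.zero_apply]
    exact mul_eq_zero_of_left (hs.rel_eig i) _
  have hlead := R.lead_zero hs.gen hgd 3 (coef hs.trc n)
    ((level_relation hs.gen (fun _ => Subgroup.mem_top _) (fun _ => Matrix.mulVec_zero _)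
      (pow_le_one₀ zero_le R.val_lt_one.le) hclose 3 _ hrel hg).trans_lt
      (by rw [← pow_add, R.pow_lt]; omega))
  rw [sum_coef] at hlead
  set t' := ZMod.castHom (dvd_refl p) KF hs.trc
  set c := κ ^ d with hc
  have hlead' : (c ^ p) ^ 2 - t' * c ^ p + ZMod.castHom (dvd_refl p) KF n = 0 := by
    have h := congrArg (fun x => x ^ p) hlead
    simp only [zero_pow hp.out.ne_zero, add_pow_char, sub_pow_char, mul_pow] at h
    rwa [← pow_mul c 2 p, mul_comm 2 p, pow_mul, castHom_pow, castHom_pow] at h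
  have hcp : c ^ p ≠ c := fun h => by
    have hdiv : R.e ∣ d * (p - 1) := by
      refine hκ.dvd_of_pow_eq_one _ ?_
      have hc0 : c ≠ 0 := pow_ne_zero _ (R.kap_ne_zero σ₀)
      refine mul_right_cancel₀ hc0 ?_
      rw [pow_mul, ← hc, ← pow_succ, Nat.sub_add_cancel hp.out.one_le, h, one_mul]
    rw [R.e_eq, hs.eK] at hdiv
    have hd' : p + 1 = d := by
      have h1 := Nat.dvd_of_mul_dvd_mul_right (by omega) hdiv
      have := Nat.le_of_dvd (by omega) h1
      rw [hs.eK] at hdK
      omega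
    subst hd'
    rw [hc, ← hn, ← map_pow, ← map_mul, ← map_sub, ← map_add,
      map_eq_zero_iff _ (ZMod.castHom (dvd_refl p) KF).injective] at hlead
    have hn0 : n ≠ 0 := Units.ne_zero _
    have ht : hs.trc = n + 1 := by
      refine mul_right_cancel₀ hn0 ?_
      linear_combination -hlead
    have hk := hs.trc_spec
    rw [ht, map_add, map_one, show ZMod.castHom (dvd_refl p) k n = (chiK k p σ₀ : k) from rfl,
      ← hs.chi σ₀ hs.gen] at hk
    have : (α σ₀ - 1) * (α σ₀ ^ p - 1) = 0 := by linear_combination hk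
    rcases mul_eq_zero.mp this with h0 | h0
    · exact hs.alpha_ne_one (sub_eq_zero.mp h0)
    · exact hs.alpha_ne_one (sub_eq_zero.mp (eq_zero_of_pow_eq_zero
        (by rw [sub_pow_char, one_pow]; exact h0 : (α σ₀ - 1) ^ p = 0)))
  have hsum : t' = c + c ^ p := by
    refine mul_right_cancel₀ (sub_ne_zero.mpr hcp) ?_
    linear_combination hlead - hlead'
  have hprod : c * c ^ p = κ ^ (p + 1) := by
    rw [← hn]; linear_combination (-1 : KF) * hlead - c * hsum
  have hdlt : d ≠ p + 1 := fun h => hcp (by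
    rw [hc, h, ← pow_mul, show (p + 1) * p = R.e + (p + 1) by
      have : (p + 1) * p = p * p + p := by ring
      omega, pow_add, hκ.pow_eq_one, one_mul])
  have hdiv : R.e ∣ (d - 1) * (p + 1) := by
    refine hκ.dvd_of_pow_eq_one _ (mul_right_cancel₀ (pow_ne_zero (p + 1) (R.kap_ne_zero σ₀)) ?_)
    rw [← pow_add, ← Nat.succ_mul, Nat.succ_eq_add_one, Nat.sub_add_cancel hd, one_mul, pow_mul,
      ← hc, pow_succ']
    exact hprod
  rw [R.e_eq, hs.eK, mul_comm (p + 1)] at hdiv
  obtain ⟨q, hq⟩ := Nat.dvd_of_mul_dvd_mul_right (by omega) hdiv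
  rw [hs.eK] at hdK
  rw [hsum, hc]
  rcases q with _ | _ | q
  · rw [mul_zero] at hq
    obtain rfl : d = 1 := by omega
    rw [pow_one]
  · rw [zero_add, mul_one] at hq
    obtain rfl : d = p := by omega
    rw [← pow_mul, ← he, pow_succ κ R.e, hκ.pow_eq_one, one_mul, add_comm]
  · have := Nat.mul_le_mul_left (p - 1) (show 2 ≤ q + 1 + 1 by omega)
    omega

end IrrShape

end FermatAgent.CFT.FlatBound

end
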