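import Fermat.Agent.CFT.FlatBound.Levels

/-!
# Separated cosets for entries at level two

One row of a flat extension, seen through an `E`-linear retraction onto the field `E` with `p ^ 2`
elements generated by the eigenvalues, has pairwise separated points at distance `π`; this bounds
the levels of the entries on `H` from below.
-/

set_option autoImplicit false

noncomputable section

open scoped Classical Matrix IntermediateField

namespace FermatAgent.CFT.FlatBound

open GaloisBasic Mazur SelmerP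
open Flat (Sys)
open Global (zet zet_spec chiQ)
open Selmer (M22 adCoc locCob locFix chiK coe_chiK rep_mul_inv rep_inv_mul)

variable {k : Type} [Field k] {p : ℕ} [hp : Fact p.Prime] [CharP k p]

namespace IrrShape

variable [Algebra (ZMod p) k] {A : ValuationSubring Qbar} {R : TameRoot A p} {r : MatRep k}
  {σ₀ F : GQ} {α : GQ → k} (hs : IrrShape A R r σ₀ F α)

section
omit [CharP k p]

/-- The action on a row of an extension seen through a retraction. -/
def rowAct (r : MatRep k) (c : GQ → M22 k) {E : IntermediateField (ZMod p) k} (ψ : k →ₗ[E] E)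
    (s : k) (i : Fin 2) (σ : GQ) (q : V2 k × E) : V2 k × E :=
  (r σ *ᵥ q.1, ψ (r σ i i * (q.2 : k)) + ψ (s * ((c σ * r σ) *ᵥ q.1) i))

lemma rowAct_add (r : MatRep k) (c : GQ → M22 k) {E : IntermediateField (ZMod p) k}
    (ψ : k →ₗ[E] E) (s : k) (i : Fin 2) (σ : GQ) (x y : V2 k × E) :
    rowAct r c ψ s i σ (x + y) = rowAct r c ψ s i σ x + rowAct r c ψ s i σ y := by
  simp only [rowAct, Prod.fst_add, Prod.snd_add, Matrix.mulVec_add, Prod.mk_add_mk,
    IntermediateField.coe_add, mul_add, map_add, Pi.add_apply]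
  congr 1
  abel

lemma rowAct_zero (r : MatRep k) (c : GQ → M22 k) {E : IntermediateField (ZMod p) k}
    (ψ : k →ₗ[E] E) (s : k) (i : Fin 2) (σ : GQ) : rowAct r c ψ s i σ 0 = 0 := by
  simp [rowAct]

lemma retr_mul {E : IntermediateField (ZMod p) k} (ψ : k →ₗ[E] E) {e : k} (he : e ∈ E) (x : k) :
    ψ (e * x) = ⟨e, he⟩ * ψ x :=
  ψ.map_smul (⟨e, he⟩ : E) x

lemma retr_coe {E : IntermediateField (ZMod p) k} (ψ : k →ₗ[E] E) (h1 : ψ 1 = 1) (e : E) :
    ψ (e : k) = e := by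
  have := retr_mul ψ e.2 1
  rw [mul_one, h1, mul_one] at this
  exact this

/-- A retraction. -/
lemma exists_retr (E : IntermediateField (ZMod p) k) : ∃ ψ : k →ₗ[E] E, ψ 1 = 1 := by
  obtain ⟨f, hf⟩ := Module.Projective.exists_dual_ne_zero E (x := (1 : k)) one_ne_zero
  exact ⟨(f 1)⁻¹ • f, inv_mul_cancel₀ hf⟩

end

include hs

lemma eig_mem {σ : GQ} (hσ : σ ∈ A.inertiaSubgroupIn ℚ) (i : Fin 2) :
    r σ i i ∈ (ZMod p)⟮α σ₀⟯ := by
  obtain ⟨j, hj⟩ := hs.alpha_eq_pow hσ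
  have h := IntermediateField.mem_adjoin_simple_self (ZMod p) (α σ₀)
  rw [hs.diag σ hσ, hj]
  fin_cases i
  · simpa using pow_mem h j
  · simpa using pow_mem (pow_mem h j) p

variable [Finite k]

/-- The field of the character has `p²` elements. -/
lemma card_E : Nat.card (ZMod p)⟮α σ₀⟯ = p ^ 2 := card_adjoin_two hs.ne (hs.per σ₀ hs.gen)

/-- The eigenvalue and one span the field of the eigenvalues. -/
lemma exists_comb (i : Fin 2) {x : (ZMod p)⟮α σ₀⟯} (hx : x ≠ 0) (q : (ZMod p)⟮α σ₀⟯) :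
    ∃ m n : ℕ, q = m • x + n • (⟨r σ₀ i i, hs.eig_mem hs.gen i⟩ * x) := by
  set β : (ZMod p)⟮α σ₀⟯ := ⟨r σ₀ i i, hs.eig_mem hs.gen i⟩
  let Φ : ZMod p × ZMod p → (ZMod p)⟮α σ₀⟯ := fun a =>
    (algebraMap (ZMod p) _ a.1 + algebraMap (ZMod p) _ a.2 * β) * x
  have hinj : Function.Injective Φ := by
    rintro ⟨a, b⟩ ⟨a', b'⟩ h
    have h1 := mul_right_cancel₀ hx h
    have h2 := congrArg (fun z : (ZMod p)⟮α σ₀⟯ => (z : k)) h1
    simp only [IntermediateField.coe_add, IntermediateField.coe_mul] at h2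
    change algebraMap (ZMod p) k a + algebraMap (ZMod p) k b * r σ₀ i i =
      algebraMap (ZMod p) k a' + algebraMap (ZMod p) k b' * r σ₀ i i at h2
    by_cases hb : b = b'
    · subst hb
      rw [add_left_inj] at h2
      exact Prod.ext ((algebraMap (ZMod p) k).injective h2) rfl
    · exfalso
      refine hs.eig_ne i ?_
      have h3 : r σ₀ i i = algebraMap (ZMod p) k ((a' - a) / (b - b')) := by
        rw [map_div₀, map_sub, map_sub,
          eq_div_iff (sub_ne_zero.mpr ((algebraMap (ZMod p) k).injective.ne hb))]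
        linear_combination h2
      rw [h3, ← RingHom.map_pow, ZMod.pow_card]
  have : Finite (ZMod p)⟮α σ₀⟯ := inferInstance
  have hbij := hinj.bijective_of_nat_card_le (by
    rw [hs.card_E, Nat.card_prod, Nat.card_zmod, pow_two])
  obtain ⟨⟨a, b⟩, hab⟩ := hbij.surjective q
  refine ⟨a.val, b.val, ?_⟩
  rw [← hab, nsmul_eq_mul, nsmul_eq_mul, ← map_natCast (algebraMap (ZMod p) (ZMod p)⟮α σ₀⟯),
    ← map_natCast (algebraMap (ZMod p) (ZMod p)⟮α σ₀⟯), ZMod.natCast_zmod_val,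
    ZMod.natCast_zmod_val, ← mul_assoc]
  exact add_mul _ _ x

variable {c : GQ → M22 k} {ψ : k →ₗ[(ZMod p)⟮α σ₀⟯] (ZMod p)⟮α σ₀⟯} {s : k} {i : Fin 2}
  (hψ : ψ 1 = 1)

/-- A coordinate system on the row. -/
lemma exists_rowSys (Z : Sys A ⊤ (extAct r c)) (hs0 : s ≠ 0) (hψ : ψ 1 = 1) :
    Nonempty (Sys A (A.inertiaSubgroupIn ℚ) (rowAct r c ψ s i)) := by
  let π : V2 k × V2 k →+ V2 k × (ZMod p)⟮α σ₀⟯ :=
    AddMonoidHom.mk' (fun x => (x.1, ψ (s * x.2 i))) fun x y => by
      simp [mul_add]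
  have : Finite (V2 k × V2 k) := inferInstance
  obtain ⟨Z', -⟩ := (Z.mono (T := A.inertiaSubgroupIn ℚ) le_top).exists_quotient
    (act' := rowAct r c ψ s i) π (fun q => ⟨(q.1, Pi.single i ((q.2 : k) / s)), by
      show (q.1, ψ (s * (Pi.single i ((q.2 : k) / s) : V2 k) i)) = q
      rw [Pi.single_eq_same, mul_div_cancel₀ _ hs0, retr_coe ψ hψ]⟩) fun σ hσ x => by
      refine Prod.ext rfl ?_
      show ψ (s * (r σ *ᵥ x.2 + (c σ * r σ) *ᵥ x.1) i) =
        ψ (r σ i i * (ψ (s * x.2 i) : k)) + ψ (s * ((c σ * r σ) *ᵥ x.1) i)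
      rw [Pi.add_apply, mul_add, map_add, hs.diag_apply hσ, mul_left_comm,
        retr_mul ψ (hs.eig_mem hσ i), retr_mul ψ (hs.eig_mem hσ i), retr_coe ψ hψ]
  exact ⟨Z'⟩

variable (Z : Sys A (A.inertiaSubgroupIn ℚ) (rowAct r c ψ s i))
include hψ

omit [Finite k] in
lemma act_row {σ : GQ} (hσ : σ ∈ A.inertiaSubgroupIn ℚ) (q : (ZMod p)⟮α σ₀⟯) :
    rowAct r c ψ s i σ (0, q) = (0, ⟨r σ i i, hs.eig_mem hσ i⟩ * q) := by
  simp only [rowAct, Matrix.mulVec_zero, Pi.zero_apply, mul_zero, map_zero, add_zero]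
  rw [retr_mul ψ (hs.eig_mem hσ i), retr_coe ψ hψ]

omit [Finite k] in
lemma act_row_H {h : GQ} (hh : h ∈ R.H) (q : (ZMod p)⟮α σ₀⟯) :
    rowAct r c ψ s i h (0, q) = (0, q) := by
  simp [rowAct, hs.rep_H hh, retr_coe ψ hψ]

variable [CharP (IsLocalRing.ResidueField A) p]
include Z

section
omit [Finite k]

/-- Nonzero points of the row are at distance `π` from the origin. -/
theorem row_level {q : (ZMod p)⟮α σ₀⟯} (hq : q ≠ 0) :
    Z.Close (0, q) (A.valuation R.π) ∧
      ∃ g ∈ Z.gens, A.valuation (g (0, q) - g 0) = A.valuation R.π := by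
  set β : (ZMod p)⟮α σ₀⟯ := ⟨r σ₀ i i, hs.eig_mem hs.gen i⟩
  have hβ : β - 1 ≠ 0 := fun h => hs.eig_ne i (by
    have h' : r σ₀ i i = 1 := congrArg Subtype.val (sub_eq_zero.mp h)
    rw [h', one_pow])
  have hsmall : Z.Small (0, q) := by
    have h := small_act_sub (Z := Z) R.lies hs.gen hs.gen ((0, q / (β - 1)) : V2 k × _)
    rw [hs.act_row hψ hs.gen] at h
    convert h using 1
    refine Prod.ext (sub_zero (0 : V2 k)).symm ?_
    show q = β * (q / (β - 1)) - q / (β - 1)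
    rw [← sub_one_mul, mul_div_cancel₀ _ hβ]
  refine level_eq_one R Z le_rfl hs.two hs.eK hs.gen hs.prim
    (fun j => rowAct_add r c ψ s i (σ₀ ^ j)) (fun e => hq (congrArg Prod.snd e))
    (Prod.ext (smul_zero p) (by
      show p • q = 0
      rw [nsmul_eq_mul, ← map_natCast (algebraMap (ZMod p) (ZMod p)⟮α σ₀⟯), ZMod.natCast_self,
        map_zero, zero_mul]))
    hsmall (fun h hh => ⟨hs.act_row_H hψ hh q, rowAct_zero r c ψ s i h⟩) 3
    (coef hs.trc (chiQ p σ₀ : ZMod p)) ?_ fun x hx => ?_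
  · have hz : ∑ j ∈ Finset.range 3, coef hs.trc (chiQ p σ₀ : ZMod p) j • (β ^ j * q) = 0 := by
      simp only [← smul_mul_assoc, ← Finset.sum_mul]
      refine mul_eq_zero_of_left (Subtype.ext ?_) _
      show (ZMod p)⟮α σ₀⟯.val (∑ j ∈ Finset.range 3, coef hs.trc (chiQ p σ₀ : ZMod p) j • β ^ j) =
        (ZMod p)⟮α σ₀⟯.val 0
      rw [map_sum, map_zero, ← hs.rel_eig i]
      refine Finset.sum_congr rfl fun j _ => ?_
      rw [← nsmul_eq_mul]
      rfl
    refine Prod.ext ?_ ?_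
    · rw [Prod.fst_sum]
      refine Finset.sum_eq_zero fun j _ => ?_
      rw [hs.act_row hψ (pow_mem hs.gen j), Prod.smul_fst]
      exact smul_zero _
    · rw [Prod.snd_sum, Prod.snd_zero, ← hz]
      refine Finset.sum_congr rfl fun j _ => ?_
      rw [hs.act_row hψ (pow_mem hs.gen j), Prod.smul_snd]
      refine congrArg (fun z => coef hs.trc (chiQ p σ₀ : ZMod p) j • z) ?_
      show _ * q = β ^ j * q
      exact congrArg (· * q) (Subtype.ext (hs.diag_pow i j))
  · obtain ⟨ht, hn, -⟩ := hs.kap_roots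
    rw [sum_coef, ht, hn] at hx
    have : (x - R.kap σ₀) * (x - R.kap σ₀ ^ p) = 0 := by linear_combination hx
    exact (mul_eq_zero.mp this).imp sub_eq_zero.mp sub_eq_zero.mp

lemma row_close (q : (ZMod p)⟮α σ₀⟯) : Z.Close (0, q) (A.valuation R.π) := by
  rcases eq_or_ne q 0 with rfl | hq
  · exact close_zero _
  · exact (hs.row_level hψ Z hq).1

/-- Tame inertia scales differences to second order. -/
lemma row_scale {f : V2 k × (ZMod p)⟮α σ₀⟯ → Qbar} (hf : f ∈ Z.B) (q : (ZMod p)⟮α σ₀⟯) :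
    A.valuation ((f (rowAct r c ψ s i σ₀ (0, q)) - f 0) -
      σ₀ R.π / R.π * (f (0, q) - f 0)) ≤ A.valuation R.π ^ 2 := by
  set κ := σ₀ R.π / R.π
  have hκ : A.valuation κ ≤ 1 := val_le_one (R.kappa_mem σ₀)
  refine Submodule.span_induction ?_ ?_ ?_ ?_ hf (p := fun f _ =>
    A.valuation ((f (rowAct r c ψ s i σ₀ (0, q)) - f 0) - κ * (f (0, q) - f 0)) ≤
      A.valuation R.π ^ 2)
  · intro g hg
    have h0 : σ₀ (g 0) = g 0 := by
      rw [← Z.equiv g hg σ₀ hs.gen, rowAct_zero]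
    rw [show g (rowAct r c ψ s i σ₀ (0, q)) - g 0 = σ₀ (g (0, q) - g 0) by
      rw [map_sub, h0, Z.equiv g hg σ₀ hs.gen]]
    set w := g (0, q) - g 0 with hw
    have hwv : A.valuation w ≤ A.valuation R.π := hs.row_close hψ Z q g hg
    have hwH : ∀ h ∈ R.H, h w = w := fun h hh => by
      have hhI := (mem_rootFix.mp hh).1
      rw [hw, map_sub, ← Z.equiv g hg h hhI, ← Z.equiv g hg h hhI, hs.act_row_H hψ hh,
        rowAct_zero]
    set u := w / R.π with hu
    have huA : u ∈ A := mem_of_val (by rw [map_div₀, div_le_one₀ R.val_pos]; exact hwv)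
    have hσD := inertia_le_decomposition hs.gen
    have hwu : w = u * R.π := (div_mul_cancel₀ _ R.ne_zero).symm
    have e : σ₀ w - κ * w = κ * R.π * (σ₀ u - u) := by
      rw [hwu, map_mul, show σ₀ R.π = κ * R.π from (div_mul_cancel₀ _ R.ne_zero).symm]
      ring
    have hlt : A.valuation (σ₀ u - u) < A.valuation R.π ^ 0 := by
      rw [pow_zero]; exact valuation_map_sub_lt_one hp.out R.lies hs.gen (val_le_one huA)
    have hle := R.le_succ (fun h hh => by
      have hhπ := (mem_rootFix.mp hh).2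
      have hu' : h u = u := by rw [hu, map_div₀, hwH h hh, hhπ]
      have hc : h (σ₀ u) = σ₀ ((σ₀⁻¹ * h * σ₀) u) := by
        rw [← AlgEquiv.mul_apply, ← AlgEquiv.mul_apply]; group
      have hu'' : (σ₀⁻¹ * h * σ₀) u = u := by
        have hh' := R.conj_mem_H hσD hh
        rw [hu, map_div₀, hwH _ hh', (mem_rootFix.mp hh').2]
      rw [map_sub, hc, hu'', hu']) hlt
    rw [zero_add, pow_one] at hle
    rw [e, map_mul, map_mul, pow_two, mul_assoc]
    exact (mul_le_of_le_one_left zero_le hκ).trans (mul_le_mul' le_rfl hle)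
  · simp
  · intro a b _ _ ha hb
    rw [show ((a + b) (rowAct r c ψ s i σ₀ (0, q)) - (a + b) 0) -
        κ * ((a + b) (0, q) - (a + b) 0) =
        ((a (rowAct r c ψ s i σ₀ (0, q)) - a 0) - κ * (a (0, q) - a 0)) +
        ((b (rowAct r c ψ s i σ₀ (0, q)) - b 0) - κ * (b (0, q) - b 0)) by
      simp only [Pi.add_apply]; ring]
    exact Valuation.map_add_le _ ha hb
  · intro e a _ ha
    show A.valuation ((((e : Qbar)) * a (rowAct r c ψ s i σ₀ (0, q)) - (e : Qbar) * a 0) -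
      κ * ((e : Qbar) * a (0, q) - (e : Qbar) * a 0)) ≤ _
    rw [show ((e : Qbar) * a (rowAct r c ψ s i σ₀ (0, q)) - (e : Qbar) * a 0) -
      κ * ((e : Qbar) * a (0, q) - (e : Qbar) * a 0) =
      (e : Qbar) * ((a (rowAct r c ψ s i σ₀ (0, q)) - a 0) - κ * (a (0, q) - a 0)) by ring, map_mul]
    exact (mul_le_of_le_one_left zero_le (val_le_one e.2)).trans ha

end

/-- **Points of the row are separated.** -/
theorem row_sep (y : V2 k × (ZMod p)⟮α σ₀⟯) :
    ∃ g ∈ Z.gens, ∀ x x' : (ZMod p)⟮α σ₀⟯, x ≠ x' →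
      A.valuation R.π ≤ A.valuation (g (y + (0, x)) - g (y + (0, x'))) := by
  obtain ⟨-, g₀, hg₀, hv⟩ := hs.row_level hψ Z (q := 1) one_ne_zero
  obtain ⟨g, hg, hmove⟩ := exists_move (Z := Z) (z := ((0, 1) : V2 k × (ZMod p)⟮α σ₀⟯)) y hg₀
  rw [hv] at hmove
  refine ⟨g, hg, fun x x' hxx => ?_⟩
  set f : V2 k × (ZMod p)⟮α σ₀⟯ → Qbar := fun z => g (z + y)
  have hf : f ∈ Z.B := Z.translate_mem (Z.gen_mem hg) y
  have hπ1 : A.valuation R.π * A.valuation R.π < A.valuation R.π :=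
    mul_lt_of_lt_one_left R.val_pos R.val_lt_one
  -- a nonzero point where `f` moves less
  have hW : ∀ q : (ZMod p)⟮α σ₀⟯, q ≠ 0 →
      A.valuation R.π ≤ A.valuation (f (0, q) - f 0) := by
    intro q hq
    by_contra hlt
    rw [not_le] at hlt
    let W : AddSubmonoid (ZMod p)⟮α σ₀⟯ :=
      { carrier := {z | A.valuation (f (0, z) - f 0) < A.valuation R.π}
        zero_mem' := by
          show A.valuation (f 0 - f 0) < A.valuation R.π
          simp [R.val_pos]
        add_mem' := fun {a b} ha hb => by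
          have h := bilin_le (hs.row_close hψ Z a) (hs.row_close hψ Z b) hf
          rw [Prod.mk_add_mk, add_zero] at h
          show A.valuation (f (0, a + b) - f 0) < _
          rw [show f (0, a + b) - f 0 = (f (0, a + b) - f (0, a) - f (0, b) + f 0) +
            ((f (0, a) - f 0) + (f (0, b) - f 0)) by ring]
          exact Valuation.map_add_lt _ (h.trans_lt hπ1) (Valuation.map_add_lt _ ha hb) }
    have hβq : ⟨r σ₀ i i, hs.eig_mem hs.gen i⟩ * q ∈ W := by
      show A.valuation (f (0, _) - f 0) < A.valuation R.π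
      have h := hs.row_scale hψ Z hf q
      rw [hs.act_row hψ hs.gen, pow_two] at h
      refine lt_of_le_of_lt ?_ (max_lt (h.trans_lt hπ1) (lt_of_le_of_lt
        (b := A.valuation (f (0, q) - f 0)) (a := A.valuation (σ₀ R.π / R.π * (f (0, q) - f 0)))
        (by rw [map_mul]; exact mul_le_of_le_one_left zero_le (val_le_one (R.kappa_mem σ₀))) hlt))
      refine le_trans (le_of_eq (congrArg A.valuation ?_)) (Valuation.map_add _ _ _)
      ring
    obtain ⟨m, n, hmn⟩ := hs.exists_comb i hq 1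
    have h1 : (1 : (ZMod p)⟮α σ₀⟯) ∈ W := hmn ▸ add_mem (nsmul_mem hlt m) (nsmul_mem hβq n)
    change A.valuation (f (0, 1) - f 0) < A.valuation R.π at h1
    refine not_le.mpr h1 ?_
    show A.valuation R.π ≤ A.valuation (g ((0, 1) + y) - g (0 + y))
    rwa [zero_add, add_comm ((0, 1) : V2 k × (ZMod p)⟮α σ₀⟯)]
  have h := bilin_le (hs.row_close hψ Z (x - x')) (hs.row_close hψ Z x') hf
  rw [Prod.mk_add_mk, add_zero, sub_add_cancel] at h
  rw [show g (y + (0, x)) - g (y + (0, x')) = f (0, x) - f (0, x') by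
    show _ = g ((0, x) + y) - g ((0, x') + y)
    rw [add_comm y, add_comm y]]
  by_contra hlt
  rw [not_le] at hlt
  have hlow := hW (x - x') (sub_ne_zero.mpr hxx)
  refine not_le.mpr ?_ hlow
  rw [show f (0, x - x') - f 0 = (f (0, x) - f (0, x')) -
    (f (0, x) - f (0, x - x') - f (0, x') + f 0) by ring]
  exact Valuation.map_sub_lt _ hlt (h.trans_lt hπ1)

omit Z in
/-- **Levels of entries from separations.** -/
theorem entry_lev (hc : c ∈ adCoc r) (hcont : IsContFun c) (Z₀ : Sys A ⊤ (extAct r c)) (hs0 : s ≠ 0)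
    (Λ₀ : (ZMod p)⟮α σ₀⟯ →+ ZMod p) (C : AddSubgroup (ZMod p)⟮α σ₀⟯) (hC : C ≤ Λ₀.ker)
    (hker : ∀ h ∈ R.H, Λ₀ (ψ (s * c h i 0)) = 0 → ψ (s * c h i 0) ∈ C) {J : ℕ}
    (hJ : p * Nat.card C + J ≤ p * (p + 1) + 1) (hJ' : J ≤ p * (p + 1)) (hJ1 : 1 ≤ J) :
    R.Lev (zet p) J (fun h => Λ₀ (ψ (s * c h i 0))) := by
  obtain ⟨Z⟩ := hs.exists_rowSys (i := i) Z₀ hs0 hψ
  set y : V2 k × (ZMod p)⟮α σ₀⟯ := (![1, 0], 0) with hy
  have hHI : R.H ≤ A.inertiaSubgroupIn ℚ := inf_le_left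
  have hact : ∀ h ∈ R.H, rowAct r c ψ s i h y = y + (0, ψ (s * c h i 0)) := fun h hh => by
    simp [rowAct, hy, hs.rep_H hh, Matrix.mulVec, dotProduct, Fin.sum_univ_two]
  have : Finite C := inferInstance
  set C' : AddSubgroup (V2 k × (ZMod p)⟮α σ₀⟯) :=
    C.map (AddMonoidHom.inr (V2 k) (ZMod p)⟮α σ₀⟯)
  let : Fintype C' := Fintype.ofFinite _
  have hcard : Fintype.card C' = Nat.card C := by
    rw [← Nat.card_eq_fintype_card]
    exact AddSubgroup.card_map_of_injective fun a b h => congrArg Prod.snd h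
  obtain ⟨L, hL, hLc⟩ := hcont
  refine lev_of_sep (zet_spec p) Z hHI (fun h _ => rowAct_add r c ψ s i h) (y := y) C' ?_ ?_
    (fun a ha b hb => ?_) L.fixingSubgroup (IntermediateField.fixingSubgroup_isOpen L)
    (fun σ _ hσ => by simp [hLc σ hσ]) ?_ (d := 1)
    (by rw [hcard, mul_one, hs.eK]; exact hJ) (by rw [hs.eK]; exact hJ') hJ1
  · rintro h hh _ ⟨q, -, rfl⟩
    exact hs.act_row_H hψ hh q
  · intro h hh hB
    refine ⟨_, hker h hh hB, ?_⟩
    rw [hact h hh, add_sub_cancel_left]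
    rfl
  · rw [coc_add_of_one hc (hs.rep_H ha), Matrix.add_apply, mul_add, map_add, map_add]
  · intro h hh hB
    obtain ⟨g, hg, hsep⟩ := hs.row_sep hψ Z y
    refine ⟨g, hg, ?_⟩
    rintro _ ⟨q, hq, rfl⟩
    rw [pow_one, hact h hh]
    exact hsep _ q fun e => hB (by rw [e]; exact hC hq)

end IrrShape

end FermatAgent.CFT.FlatBound

end
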