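import Fermat.Agent.CFT.FlatBound.Descent
import Fermat.Agent.CFT.Selmer.Final

/-!
# The flat bound at the residue characteristic

Deformations flat at `p` give flat cocycles, so their classes at `p` form a space of dimension at
most the invariants plus one.
-/

set_option autoImplicit false

noncomputable section

open scoped Classical Matrix
open IsLocalRing GaloisRep

namespace FermatAgent.CFT.FlatBound

open GaloisBasic Mazur SelmerP
open Flat (Sys)
open Global (zet zet_spec apply_zet chiQ liesOverPrime_padicPlace)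
open Selmer (M22 adCoc locCob locFix chiK coe_chiK LocalBoundAt)

attribute [local instance] dualAlgebra

variable {𝒪 : Type} [CommRing 𝒪] [IsDomain 𝒪] [IsDiscreteValuationRing 𝒪]
  [IsAdicComplete (maximalIdeal 𝒪) 𝒪] [Finite (ResidueField 𝒪)]

omit [IsAdicComplete (maximalIdeal 𝒪) 𝒪] in
/-- Deformations flat at `p` give flat cocycles. -/
theorem isFlatCoc_of_isFlatAt (p : ℕ) [Fact p.Prime] {A : ValuationSubring Qbar}
    (hA : A.LiesOverPrime p) {r : MatRep (ResidueField 𝒪)} {c : GQ → M22 (ResidueField 𝒪)}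
    {N : MatRep (DualNumber (ResidueField 𝒪))}
    {hN : MatContinuous (DualNumber (ResidueField 𝒪)) N}
    (hent : ∀ g i j, N g i j = TrivSqZeroExt.inl (r g i j) + TrivSqZeroExt.inr ((c g * r g) i j))
    (h : (toRep N hN).IsFlatAt p) : IsFlatCoc A r c := by
  have hT := dual_test (𝒪 := 𝒪)
  have := hT.isLocalHom
  have := finite_of_isArtinianTestAlgebra hT
  have hf : Flat.IsFlatAct p (RT.matAct N) :=
    (RT.MatCond.cond_toRep_iff _ hT N hN).mp (RT.flatMatCond_of_isFlatAt p hT h)
  obtain ⟨Z⟩ := Sys.exists_of_isFlatAct hA hf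
  let Φ : V2 (ResidueField 𝒪) × V2 (ResidueField 𝒪) →+ (Fin 2 → DualNumber (ResidueField 𝒪)) :=
    AddMonoidHom.mk' (fun x i => TrivSqZeroExt.inl (x.1 i) +
        TrivSqZeroExt.inr (x.2 i)) fun x y => by
      funext i
      refine TrivSqZeroExt.ext ?_ ?_ <;> simp
  refine ⟨Z.restrict Φ (fun x y hxy => ?_) fun σ _ x => ?_⟩
  · refine Prod.ext (funext fun i => ?_) (funext fun i => ?_)
    · simpa [Φ] using congrArg TrivSqZeroExt.fst (congrFun hxy i)
    · simpa [Φ] using congrArg TrivSqZeroExt.snd (congrFun hxy i)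
  · show Φ (extAct r c σ x) = N σ *ᵥ Φ x
    funext i
    fin_cases i <;>
    refine TrivSqZeroExt.ext ?_ ?_ <;>
      simp [Φ, extAct, Matrix.mulVec, dotProduct, Fin.sum_univ_two, hent] <;> ring

omit [IsAdicComplete (maximalIdeal 𝒪) 𝒪] in
/-- **The bound for the flat condition.** -/
theorem localBound_flat (p : ℕ) [hp : Fact p.Prime] (hp2 : p ≠ 2)
    (hp𝒪 : (p : 𝒪) ∈ maximalIdeal 𝒪) (ρbar : ResidualGaloisRep (ResidueField 𝒪))
    (hdet : (GaloisRepAdic.ofResidualGaloisRep ρbar).DetIsCyclotomic p) :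
    LocalBoundAt p ρbar (fun _A _ _ ρ => ρ.IsFlatAt p) := by
  have : CharP (ResidueField 𝒪) p := (CharP.charP_iff_prime_eq_zero hp.out).mpr (by
    rw [← map_natCast (residue 𝒪), residue_eq_zero_iff]; exact hp𝒪)
  intro V _ hV hcont hlift
  have hA : (padicPlace p).LiesOverPrime p := liesOverPrime_padicPlace
  set r := residualMatrix ρbar
  have hflat : ∀ c ∈ V, IsFlatCoc (padicPlace p) r c := fun c hc => by
    obtain ⟨N, hN, hent, hf⟩ := hlift c hc
    exact isFlatCoc_of_isFlatAt p hA hent hf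
  exact finrank_le_flat hA hp2 (fun σ _ => Selmer.det_residualMatrix ρbar hdet σ)
    (Selmer.exists_residualMatrix_level ρbar)
    (hflat 0 V.zero_mem) V fun c hc => ⟨hV hc, hcont c hc, hflat c hc⟩

end FermatAgent.CFT.FlatBound

end
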