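import Fermat.Agent.CFT.FlatBound.Lead
import Fermat.Agent.CFT.SelmerP.Kummer

/-!
# Levels of radicands from separations

If inertia moves a point out of a small subgroup, whose cosets are separated by a coordinate,
then the radicand of the corresponding character is congruent to one to a high order.
-/

set_option autoImplicit false

noncomputable section

open scoped Classical Polynomial

namespace FermatAgent.CFT.FlatBound

open GaloisBasic Mazur SelmerP
open Flat (Sys)

variable {A : ValuationSubring Qbar} {p : ℕ} [hp : Fact p.Prime] {R : TameRoot A p}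
  {ζ : Qbar} (hζ : IsPrimitiveRoot ζ p)
  {S : Subgroup GQ} {M : Type} [AddCommGroup M] {act : GQ → M → M} (Z : Sys A S act)
  (hHS : R.H ≤ S) (hadd : ∀ h ∈ R.H, ∀ x z, act h (x + z) = act h x + act h z)
  {y : M} {B : GQ → ZMod p} (C : AddSubgroup M) [Fintype C]
  (hC : ∀ h ∈ R.H, ∀ z ∈ C, act h z = z)
  (hker : ∀ h ∈ R.H, B h = 0 → act h y - y ∈ C)

include hHS hadd hC hker in
/-- A move bound is incompatible with separated cosets. -/
theorem norm_contra {N d : ℕ} {h₀ : GQ} (hh₀ : h₀ ∈ R.H)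
    (hmove : ∀ a ∈ A, (∀ σ ∈ R.H, B σ = 0 → σ a = a) →
      A.valuation (h₀ a - a) ^ p ≤ A.valuation R.π ^ N)
    (hsep : ∃ g ∈ Z.gens, ∀ z ∈ C,
      A.valuation R.π ^ d ≤ A.valuation (g (act h₀ y) - g (y + z)))
    (hN : p * (Fintype.card C * d) < N) : False := by
  obtain ⟨g, hg, hsep⟩ := hsep
  set P : Qbar[X] := ∏ z : C, (Polynomial.X - Polynomial.C (g (y + z.1))) with hP
  have hroot : ∀ z : C, g (y + z.1) ∈ A := fun z => Z.integral g hg _
  have hcoef : ∀ i, P.coeff i ∈ A := by
    have : P ∈ Polynomial.lifts A.subtype := by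
      refine Subsemiring.prod_mem _ fun z _ => ?_
      refine ⟨Polynomial.X - Polynomial.C (⟨_, hroot z⟩ : A), ?_⟩
      simp
    intro i
    obtain ⟨a, ha⟩ := (Polynomial.lifts_iff_coeff_lifts P).mp this i
    rw [← ha]
    exact a.2
  -- conjugation of the polynomial
  have hmap : ∀ h ∈ R.H, P.map (h : Qbar →+* Qbar) =
      ∏ z : C, (Polynomial.X - Polynomial.C (g (act h y + z.1))) := fun h hh => by
    rw [hP, Polynomial.map_prod]
    refine Finset.prod_congr rfl fun z _ => ?_
    rw [Polynomial.map_sub, Polynomial.map_X, Polynomial.map_C]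
    congr 2
    show h (g (y + z.1)) = _
    rw [← Z.equiv g hg h (hHS hh), hadd h hh, hC h hh z.1 z.2]
  have hfix : ∀ i, ∀ σ ∈ R.H, B σ = 0 → σ (P.coeff i) = P.coeff i := fun i σ hσ hσB => by
    have e : P.map (σ : Qbar →+* Qbar) = P := by
      rw [hmap σ hσ, hP]
      refine Fintype.prod_equiv (Equiv.addLeft (⟨act σ y - y, hker σ hσ hσB⟩ : C)) _ _ fun z => ?_
      rw [Equiv.coe_addLeft, AddSubgroup.coe_add, ← add_assoc, add_sub_cancel]
    have := congrArg (fun Q => Q.coeff i) e
    simp only [Polynomial.coeff_map] at this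
    exact this
  set a := g (act h₀ y) with ha
  have haA : a ∈ A := Z.integral g hg _
  have hz : (P.map (h₀ : Qbar →+* Qbar)).eval a = 0 := by
    rw [hmap h₀ hh₀, Polynomial.eval_prod]
    refine Finset.prod_eq_zero (Finset.mem_univ (0 : C)) ?_
    rw [Polynomial.eval_sub, Polynomial.eval_X, Polynomial.eval_C, AddSubgroup.coe_zero, add_zero,
      sub_self]
  -- the upper bound
  have hup : A.valuation (P.eval a) ^ p ≤ A.valuation R.π ^ N := by
    have hdeg : (P.map (h₀ : Qbar →+* Qbar)).natDegree = P.natDegree :=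
      Polynomial.natDegree_map_eq_of_injective (RingHom.injective _) P
    rw [← sub_zero (P.eval a), ← hz, Polynomial.eval_eq_sum_range, Polynomial.eval_eq_sum_range,
      hdeg, ← Finset.sum_sub_distrib]
    obtain ⟨j, -, hj⟩ := Finset.exists_max_image (Finset.range (P.natDegree + 1))
      (fun i => A.valuation (P.coeff i * a ^ i - (P.map (h₀ : Qbar →+* Qbar)).coeff i * a ^ i))
      ⟨0, Finset.mem_range.mpr P.natDegree.succ_pos⟩
    refine (pow_le_pow_left₀ zero_le (Valuation.map_sum_le _ hj) p).trans ?_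
    rw [← sub_mul, map_mul, Valuation.map_sub_swap, mul_pow, Polynomial.coeff_map]
    exact (mul_le_of_le_one_right zero_le (pow_le_one₀ zero_le (val_le_one (pow_mem haA j)))).trans
      (hmove _ (hcoef j) (hfix j))
  -- the lower bound
  have hlow : (A.valuation R.π ^ d) ^ Fintype.card C ≤ A.valuation (P.eval a) := by
    rw [hP, Polynomial.eval_prod, map_prod, ← Finset.card_univ, ← Finset.prod_const]
    refine Finset.prod_le_prod (fun z _ => zero_le) fun z _ => ?_
    rw [Polynomial.eval_sub, Polynomial.eval_X, Polynomial.eval_C]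
    exact hsep z.1 z.2
  have h := (pow_le_pow_left₀ zero_le hlow p).trans hup
  rw [← pow_mul, ← pow_mul, R.pow_le, mul_comm d, mul_comm _ p, mul_assoc] at h
  omega

include hζ hHS hadd hC hker in
/-- **Levels from separations.** -/
theorem lev_of_sep {d J : ℕ} (hBadd : ∀ σ ∈ R.H, ∀ τ ∈ R.H, B (σ * τ) = B σ + B τ)
    (U : Subgroup GQ) (hU : IsOpen (U : Set GQ)) (hBU : ∀ σ ∈ R.H, σ ∈ U → B σ = 0)
    (hsep : ∀ h ∈ R.H, B h ≠ 0 → ∃ g ∈ Z.gens, ∀ z ∈ C,
      A.valuation R.π ^ d ≤ A.valuation (g (act h y) - g (y + z)))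
    (hJ : p * (Fintype.card C * d) + J ≤ p * R.eK + 1) (hJ' : J ≤ p * R.eK) (hJ1 : 1 ≤ J) :
    R.Lev ζ J B := by
  by_cases hz : ∀ h ∈ R.H, B h = 0
  · exact (TameRoot.lev_zero J).congr fun σ hσ => (hz σ hσ).symm
  push Not at hz
  obtain ⟨h₁, hh₁, hB₁⟩ := hz
  obtain ⟨h₀, hh₀, hB₀⟩ : ∃ h₀ ∈ R.H, B h₀ = 1 := by
    have hpow : ∀ n : ℕ, B (h₁ ^ n) = n * B h₁ := fun n => by
      induction n with
      | zero => simpa using hBadd 1 (one_mem _) 1 (one_mem _)
      | succ n ih => rw [pow_succ, hBadd _ (pow_mem hh₁ n) _ hh₁, ih]; push_cast; ring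
    exact ⟨h₁ ^ (B h₁)⁻¹.val, pow_mem hh₁ _, by
      rw [hpow, ZMod.natCast_zmod_val, inv_mul_cancel₀ hB₁]⟩
  have hsep0 := hsep h₀ hh₀ (by rw [hB₀]; exact one_ne_zero)
  obtain ⟨ρ, hρ⟩ := TameRoot.exists_rad hζ hBadd U hU hBU
  rcases TameRoot.rad_cases hζ hρ with ⟨ρ', m, h', hm, hmp⟩ | hlev
  · exact (norm_contra Z hHS hadd C hC hker hh₀
      (fun a haA hafix => TameRoot.move_of_val hζ hBadd h' hm hmp hh₀ hB₀ haA hafix)
      hsep0 (by omega)).elim
  have key : ∀ n, n + 1 ≤ J → R.Lev ζ (n + 1) B := by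
    intro n
    induction n with
    | zero => exact fun _ => hlev
    | succ n ih =>
      intro hn
      have hL := ih (by omega)
      by_cases hdv : p ∣ n + 1
      · exact TameRoot.lev_succ_of_dvd hζ hdv (by omega) (by omega) hL
      obtain ⟨σr, h1, h2⟩ := hL
      rcases h2.lt_or_eq with hlt | heq
      · exact ⟨σr, h1, R.le_succ (fun τ hτ => by
          rw [map_sub, map_one, TameRoot.rad_pow_fixed hζ h1 τ hτ]) hlt⟩
      · exact (norm_contra Z hHS hadd C hC hker hh₀
          (fun a haA hafix => TameRoot.move_of_lev hζ hBadd h1 heq hdv (by omega) hh₀ hB₀ haA hafix)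
          hsep0 (by omega)).elim
  simpa [Nat.sub_add_cancel hJ1] using key (J - 1) (by omega)

end FermatAgent.CFT.FlatBound

end
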