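import Fermat.Agent.CFT.FlatBound.Ordinary
import Fermat.Agent.CFT.FlatBound.Irreducible

/-!
# Normal forms of flat local representations

A flat local representation with cyclotomic determinant and eigenvalues in the field is, up to
conjugation, ordinary or induced from level two; so the bound on flat classes holds for it.
-/

set_option autoImplicit false

noncomputable section

open scoped Classical Matrix

namespace FermatAgent.CFT.FlatBound

open GaloisBasic Mazur SelmerP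
open Flat (Sys)
open Global (zet zet_spec chiQ)
open Selmer (M22 adCoc locCob locFix chiK coe_chiK rep_mul_inv rep_inv_mul)

variable {k : Type} [Field k]

/-- A matrix with given columns. -/
lemma exists_cols {v w : V2 k} (h : v 0 * w 1 - w 0 * v 1 ≠ 0) :
    ∃ Q : (M22 k)ˣ, Q.1 *ᵥ ![1, 0] = v ∧ Q.1 *ᵥ ![0, 1] = w := by
  have hu : IsUnit (!![v 0, w 0; v 1, w 1] : M22 k) := by
    rw [Matrix.isUnit_iff_isUnit_det, Matrix.det_fin_two_of]
    exact isUnit_iff_ne_zero.mpr h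
  refine ⟨hu.unit, funext fun i => ?_, funext fun i => ?_⟩ <;>
    fin_cases i <;> simp [IsUnit.unit_spec, Matrix.mulVec, dotProduct, Fin.sum_univ_two]

/-- A matrix with given first column. -/
lemma exists_col {v : V2 k} (hv : v ≠ 0) : ∃ Q : (M22 k)ˣ, Q.1 *ᵥ ![1, 0] = v := by
  by_cases h0 : v 0 = 0
  · have h1 : v 1 ≠ 0 := fun h => hv (funext fun i => by fin_cases i <;> assumption)
    obtain ⟨Q, hQ, -⟩ := exists_cols (v := v) (w := ![1, 0]) (by simpa [h0] using h1)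
    exact ⟨Q, hQ⟩
  · obtain ⟨Q, hQ, -⟩ := exists_cols (v := v) (w := ![0, 1]) (by simpa using h0)
    exact ⟨Q, hQ⟩

variable {p : ℕ} [hp : Fact p.Prime] {A : ValuationSubring Qbar} {r : MatRep k}

lemma cont_conjRep (P : (M22 k)ˣ)
    (hcont : ∃ L : IntermediateField ℚ Qbar, FiniteDimensional ℚ L ∧
      ∀ σ ∈ L.fixingSubgroup, r σ = 1) :
    ∃ L : IntermediateField ℚ Qbar, FiniteDimensional ℚ L ∧
      ∀ σ ∈ L.fixingSubgroup, conjRep P r σ = 1 := by
  obtain ⟨L, hL, h⟩ := hcont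
  exact ⟨L, hL, fun σ hσ => by rw [conjRep_apply, h σ hσ, mul_one, P.mul_inv]⟩

lemma flat_conjRep (P : (M22 k)ˣ) (h : IsFlatCoc A r 0) : IsFlatCoc A (conjRep P r) 0 := by
  simpa using h.conj P

lemma det_conjRep (P : (M22 k)ˣ) (σ : GQ) : (conjRep P r σ).det = (r σ).det :=
  Matrix.det_units_conj P (r σ)

/-- The first column of a conjugate with a stable line. -/
lemma lower_of_stable (Q : (M22 k)ˣ) {g : GQ} {t : k}
    (h : r g *ᵥ (Q.1 *ᵥ ![1, 0]) = t • (Q.1 *ᵥ ![1, 0])) :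
    conjRep Q⁻¹ r g 1 0 = 0 ∧ conjRep Q⁻¹ r g 0 0 = t := by
  have e : conjRep Q⁻¹ r g *ᵥ ![1, 0] = t • ![1, 0] := by
    rw [conjRep_apply, inv_inv, ← Matrix.mulVec_mulVec, ← Matrix.mulVec_mulVec, h,
      Matrix.mulVec_smul, Matrix.mulVec_mulVec, Q.inv_mul, Matrix.one_mulVec]
  have e0 := congrFun e 0
  have e1 := congrFun e 1
  simp [Matrix.mulVec, dotProduct, Fin.sum_univ_two] at e0 e1
  exact ⟨e1, e0⟩

/-- Conjugation does not change the bound. -/
theorem bound_of_conj (P : (M22 k)ˣ) (D : Subgroup GQ) (V : Submodule k (GQ → M22 k))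
    {n : ℕ}
    (h : Module.finrank k (V.map (conjLin P).toLinearMap) ≤
      Module.finrank k (V.map (conjLin P).toLinearMap ⊓ locCob (conjRep P r) D :
        Submodule k (GQ → M22 k)) + Module.finrank k (locFix (conjRep P r) D) + n) :
    Module.finrank k V ≤ Module.finrank k (V ⊓ locCob r D : Submodule k (GQ → M22 k)) +
      Module.finrank k (locFix r D) + n := by
  rw [LinearEquiv.finrank_map_eq] at h
  have hcob : locCob (conjRep P r) D = (locCob r D).map (conjLin P).toLinearMap := by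
    ext c
    rw [Submodule.mem_map_equiv]
    constructor
    · rintro ⟨e, he⟩
      refine ⟨(P⁻¹).1 * e * P.1, fun g hg => ?_⟩
      show (P⁻¹).1 * c g * P.1 = _
      rw [he g hg, conjRep_apply, conjRep_apply]
      simp only [mul_sub, sub_mul, mul_assoc, P.inv_mul, mul_one]
      simp only [← mul_assoc (P⁻¹).1 P.1, P.inv_mul, one_mul]
    · rintro ⟨e, he⟩
      refine ⟨P.1 * e * (P⁻¹).1, fun g hg => ?_⟩
      have h1 : (P⁻¹).1 * c g * P.1 = r g * e * r g⁻¹ - e := he g hg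
      have h2 := congrArg (fun X => P.1 * X * (P⁻¹).1) h1
      simp only [mul_sub, sub_mul, mul_assoc, P.mul_inv, mul_one] at h2
      simp only [← mul_assoc P.1 (P⁻¹).1, P.mul_inv, one_mul] at h2
      rw [h2, conjRep_apply, conjRep_apply]
      simp only [mul_assoc]
      simp only [← mul_assoc (P⁻¹).1 P.1, P.inv_mul, one_mul]
  rw [hcob, ← Submodule.map_inf _ (conjLin P).injective, LinearEquiv.finrank_map_eq] at h
  let φ : M22 k ≃ₗ[k] M22 k :=
    { toFun := fun X => P.1 * X * (P⁻¹).1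
      invFun := fun X => (P⁻¹).1 * X * P.1
      left_inv := fun X => by
        simp only [mul_assoc, P.inv_mul, mul_one]
        rw [← mul_assoc (P⁻¹).1, P.inv_mul, one_mul]
      right_inv := fun X => by
        simp only [mul_assoc, P.mul_inv, mul_one]
        rw [← mul_assoc P.1, P.mul_inv, one_mul]
      map_add' := fun a b => by rw [mul_add, add_mul]
      map_smul' := fun t a => by rw [mul_smul_comm, smul_mul_assoc]; rfl }
  have hfix : locFix (conjRep P r) D = (locFix r D).map φ.toLinearMap := by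
    ext X
    rw [Submodule.mem_map_equiv]
    constructor
    · rintro ⟨ht, hX⟩
      refine ⟨?_, fun g hg => ?_⟩
      · show ((P⁻¹).1 * X * P.1).trace = 0
        rw [Matrix.trace_units_conj', ht]
      · show r g * ((P⁻¹).1 * X * P.1) * r g⁻¹ = (P⁻¹).1 * X * P.1
        conv_rhs => rw [← hX g hg, conjRep_apply, conjRep_apply]
        simp only [mul_assoc, P.inv_mul, mul_one]
        simp only [← mul_assoc (P⁻¹).1 P.1, P.inv_mul, one_mul]
    · rintro ⟨ht, hX⟩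
      refine ⟨?_, fun g hg => ?_⟩
      · have : ((P⁻¹).1 * X * P.1).trace = 0 := ht
        rwa [Matrix.trace_units_conj'] at this
      · have h1 : r g * ((P⁻¹).1 * X * P.1) * r g⁻¹ = (P⁻¹).1 * X * P.1 := hX g hg
        have h2 := congrArg (fun X => P.1 * X * (P⁻¹).1) h1
        simp only [mul_assoc, P.mul_inv, mul_one] at h2
        simp only [← mul_assoc P.1 (P⁻¹).1, P.mul_inv, one_mul] at h2
        rw [conjRep_apply, conjRep_apply]
        simp only [mul_assoc]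
        exact h2
  rw [hfix, LinearEquiv.finrank_map_eq] at h
  exact h

/-- Flat generators are preserved by conjugation. -/
lemma gen_conj (P : (M22 k)ˣ) {V : Submodule k (GQ → M22 k)}
    (hgen : V ≤ Submodule.span k {c | c ∈ adCoc r ∧ IsContFun c ∧ IsFlatCoc A r c}) :
    V.map (conjLin P).toLinearMap ≤ Submodule.span k
      {c | c ∈ adCoc (conjRep P r) ∧ IsContFun c ∧ IsFlatCoc A (conjRep P r) c} := by
  refine (Submodule.map_mono hgen).trans ?_
  rw [Submodule.map_span]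
  refine Submodule.span_mono ?_
  rintro _ ⟨c, ⟨hc, hcont, hflat⟩, rfl⟩
  exact ⟨conjLin_mem P hc, hcont.comp (fun M => P.1 * M * (P⁻¹).1) (by simp), hflat.conj P⟩

variable [CharP k p]

omit [CharP k p] in
/-- Wild elements act unipotently. -/
lemma exists_rep_pow_eq_one [Finite k] (hA : A.LiesOverPrime p)
    (hcont : ∃ L : IntermediateField ℚ Qbar, FiniteDimensional ℚ L ∧
      ∀ σ ∈ L.fixingSubgroup, r σ = 1) {w : GQ} (hw : IsWild A w) :
    ∃ n : ℕ, r w ^ p ^ n = 1 := by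
  obtain ⟨L, hL, hLr⟩ := hcont
  have hopen : IsOpen (r.toHomUnits.ker : Set GQ) :=
    Subgroup.isOpen_mono (fun σ hσ => MonoidHom.mem_ker.mpr (Units.ext (hLr σ hσ)))
      (IntermediateField.fixingSubgroup_isOpen L)
  obtain ⟨n, hn⟩ := IsWild.exists_pow_eq_one hA hopen hw
  refine ⟨n, ?_⟩
  have := congrArg Units.val hn
  rwa [Units.val_pow_eq_pow_val, MonoidHom.coe_toHomUnits, Units.val_one] at this

omit [CharP k p] in
/-- A character of inertia of order dividing `e` with open kernel is trivial on `H`. -/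
private lemma apply_eq_one_of_mem_H [Finite k] (R : TameRoot A p) {α : GQ → k}
    (hne : ∀ σ ∈ A.inertiaSubgroupIn ℚ, α σ ≠ 0)
    (hmul : ∀ σ ∈ A.inertiaSubgroupIn ℚ, ∀ τ ∈ A.inertiaSubgroupIn ℚ, α (σ * τ) = α σ * α τ)
    (he : ∀ σ ∈ A.inertiaSubgroupIn ℚ, α σ ^ R.e = 1)
    (L : IntermediateField ℚ Qbar) [FiniteDimensional ℚ L]
    (hL : ∀ σ ∈ L.fixingSubgroup, α σ = 1) {h : GQ} (hh : h ∈ R.H) : α h = 1 := by
  let χ : GQ → kˣ := fun σ => if hσ : α σ ≠ 0 then Units.mk0 _ hσ else 1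
  have hχ : ∀ σ ∈ A.inertiaSubgroupIn ℚ, (χ σ : k) = α σ := fun σ hσ => by
    simp only [χ, dif_pos (hne σ hσ), Units.val_mk0]
  have h1 := eq_one_of_mem_H R χ (fun σ hσ τ hτ => Units.ext (by
      rw [Units.val_mul, hχ _ hσ, hχ _ hτ, hχ _ (mul_mem hσ hτ), hmul σ hσ τ hτ]))
    L.fixingSubgroup (IntermediateField.fixingSubgroup_isOpen L)
    (fun σ hσ hσL => Units.ext (by rw [hχ _ hσ, hL σ hσL, Units.val_one]))
    (fun σ hσ => Units.ext (by rw [Units.val_pow_eq_pow_val, hχ _ hσ, he σ hσ, Units.val_one])) hh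
  rw [← hχ h (mem_rootFix.mp hh).1, h1, Units.val_one]

section Reducible

variable [Finite k] (hA : A.LiesOverPrime p) (hp2 : p ≠ 2)
  (hdet : ∀ σ ∈ A.inertiaSubgroupIn ℚ, (r σ).det = (chiK k p σ : k))
  (hcont : ∃ L : IntermediateField ℚ Qbar, FiniteDimensional ℚ L ∧
    ∀ σ ∈ L.fixingSubgroup, r σ = 1)
  (hflat : IsFlatCoc A r 0)
include hA hp2 hdet hcont hflat

omit hA hp2 hdet hcont hflat [Finite k] [CharP k p] in
/-- The system of points on the line stable under an upper triangular representation. -/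
private def firstLine (hlow : ∀ g ∈ A.decompositionSubgroup ℚ, r g 1 0 = 0)
    (Zv : Sys A ⊤ (repAct r)) :
    Sys A (A.inertiaSubgroupIn ℚ) (fun σ (t : k) => r σ 0 0 * t) :=
  (Zv.mono (T := A.inertiaSubgroupIn ℚ) le_top).restrict
    (AddMonoidHom.mk' (fun t : k => (![t, 0] : V2 k)) fun a b => by ext i; fin_cases i <;> simp)
    (fun a b h => congrFun h 0) fun σ hσ t => by
      show ![r σ 0 0 * t, 0] = r σ *ᵥ ![t, 0]
      rw [mulVec_two, hlow σ (inertia_le_decomposition hσ), mul_zero, add_zero, zero_mul,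
        mul_zero, add_zero]

omit hA hdet hcont hflat [Finite k] in
/-- If inertia fixes the first line, a second stable line splits the decomposition group. -/
private theorem exists_stable_line (R : TameRoot A p)
    (hlow : ∀ g ∈ A.decompositionSubgroup ℚ, r g 1 0 = 0) (Zv : Sys A ⊤ (repAct r)) {σ₀ : GQ}
    (hσ₀ : σ₀ ∈ A.inertiaSubgroupIn ℚ) (hprim : IsPrimitiveRoot (R.kap σ₀) R.e)
    (hone : ∀ σ ∈ A.inertiaSubgroupIn ℚ, r σ 0 0 = 1)
    (hd1 : ∀ σ ∈ A.inertiaSubgroupIn ℚ, r σ 1 1 = (chiK k p σ : k)) :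
    ∃ w : k, ∀ g ∈ A.decompositionSubgroup ℚ, r g 0 0 * w + r g 0 1 = r g 1 1 * w := by
  have h1 := hone σ₀ hσ₀
  have hID : ∀ {σ}, σ ∈ A.inertiaSubgroupIn ℚ → σ ∈ A.decompositionSubgroup ℚ :=
    fun h => inertia_le_decomposition h
  let ι : k →+ V2 k := AddMonoidHom.mk' (fun t => ![t, 0]) fun a b => by
    ext i; fin_cases i <;> simp
  have hχ : (chiK k p σ₀ : k) - 1 ≠ 0 := sub_ne_zero.mpr (chiK_ne_one R hσ₀ hp2 hprim)
  obtain ⟨w, hw⟩ : ∃ w, w * ((chiK k p σ₀ : k) - 1) = r σ₀ 0 1 := ⟨_, div_mul_cancel₀ _ hχ⟩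
  have hsm : ∀ s : k, Zv.Small (![s * w, s] : V2 k) := fun s => by
    obtain ⟨s', hs'⟩ : ∃ s', s' * ((chiK k p σ₀ : k) - 1) = s := ⟨_, div_mul_cancel₀ _ hχ⟩
    have h := small_act_sub (Z := Zv) R.lies hσ₀ (Subgroup.mem_top σ₀) (![0, s'] : V2 k)
    convert h using 1
    rw [repAct, mulVec_two, h1, hd1 σ₀ hσ₀]
    ext i
    fin_cases i <;> simp
    · linear_combination s' * hw - w * hs'
    · linear_combination -hs'
  have hstab : ∀ g ∈ A.decompositionSubgroup ℚ,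
      r g 0 0 * w + r g 0 1 = r g 1 1 * w := fun g hg => by
    have h2 := small_map (Z := Zv) hg (Subgroup.mem_top g) (Matrix.mulVec_zero _) (hsm 1)
    rw [repAct, mulVec_two, hlow g hg] at h2
    have h3 := Zv.smallPts.sub_mem h2 (hsm (r g 1 1))
    have e : ![r g 0 0 * (1 * w) + r g 0 1 * 1, 0 * (1 * w) + r g 1 1 * 1] -
        ![r g 1 1 * w, r g 1 1] = ι (r g 0 0 * w + r g 0 1 - r g 1 1 * w) := by
      show _ = ![r g 0 0 * w + r g 0 1 - r g 1 1 * w, 0]
      ext i; fin_cases i <;> simp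
    rw [e] at h3
    by_contra hne'
    refine (firstLine hlow Zv).not_small_of_fixed hp2 R.lies le_rfl (sub_ne_zero.mpr hne')
      (by rw [nsmul_eq_mul, CharP.cast_eq_zero, zero_mul])
      (fun σ hσ => ⟨by rw [hone σ hσ, one_mul], mul_zero _⟩) fun g' hg' => ?_
    obtain ⟨f, hf, rfl⟩ := Finset.mem_image.mp hg'
    have h4 := h3 f hf
    rw [← map_zero ι] at h4
    exact h4
  exact ⟨w, hstab⟩

omit hA hp2 hdet hcont hflat [Finite k] [CharP k p] hp in
/-- A second stable line diagonalises an upper triangular representation. -/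
private theorem exists_conj_diag (hlow : ∀ g ∈ A.decompositionSubgroup ℚ, r g 1 0 = 0) {w : k}
    (hstab : ∀ g ∈ A.decompositionSubgroup ℚ, r g 0 0 * w + r g 0 1 = r g 1 1 * w) :
    ∃ P : (M22 k)ˣ, ∀ g ∈ A.decompositionSubgroup ℚ,
      conjRep P r g = !![r g 1 1, 0; 0, r g 0 0] := by
  obtain ⟨Q, hQ1, hQ2⟩ := exists_cols (v := (![w, 1] : V2 k)) (w := ![1, 0]) (by simp)
  refine ⟨Q⁻¹, fun g hg => ?_⟩
  have e : r g * Q.1 = Q.1 * !![r g 1 1, 0; 0, r g 0 0] := by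
    have q00 := congrFun hQ1 0
    have q10 := congrFun hQ1 1
    have q01 := congrFun hQ2 0
    have q11 := congrFun hQ2 1
    simp [Matrix.mulVec, dotProduct, Fin.sum_univ_two] at q00 q10 q01 q11
    ext i j
    fin_cases i <;> fin_cases j <;>
      simp [Matrix.mul_apply, Fin.sum_univ_two, q00, q10, q01, q11, hlow g hg]
    linear_combination hstab g hg
  rw [conjRep_apply, inv_inv, mul_assoc, e, ← mul_assoc, Q.inv_mul, one_mul]

omit hA hp2 hdet hcont hflat [Finite k] in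
/-- A nontrivial character of inertia on the first line is cyclotomic at the generator. -/
private theorem cast_eq_chiQ_of_ne_one (R : TameRoot A p) (hK : R.eK = 1)
    (hlow : ∀ g ∈ A.decompositionSubgroup ℚ, r g 1 0 = 0) (Zv : Sys A ⊤ (repAct r)) {σ₀ : GQ}
    (hσ₀ : σ₀ ∈ A.inertiaSubgroupIn ℚ) (h1 : r σ₀ 0 0 ≠ 1)
    (hH : ∀ h ∈ R.H, r h 0 0 = 1) (hpow : ∀ n : ℕ, r (σ₀ ^ n) 0 0 = r σ₀ 0 0 ^ n)
    {a : ZMod p} (ha : ZMod.castHom (dvd_refl p) k a = r σ₀ 0 0) :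
    a = (chiQ p σ₀ : ZMod p) := by
  have := ECLocal.residueChar A R.lies
  let Z1 := firstLine hlow Zv
  have hz : Z1.Small (1 : k) := by
    have h := small_act_sub (Z := Z1) R.lies hσ₀ hσ₀ ((r σ₀ 0 0 - 1)⁻¹ : k)
    convert h using 1
    rw [← sub_one_mul, mul_inv_cancel₀ (sub_ne_zero.mpr h1)]
  have hH1 : R.H ≤ A.inertiaSubgroupIn ℚ := inf_le_left
  obtain ⟨d, hdK, hclose, ⟨g, hg, hgd⟩, hd1⟩ := exists_level R (Z := Z1) hH1 one_ne_zero
    (by rw [nsmul_eq_mul, CharP.cast_eq_zero, zero_mul])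
    (fun h hh => ⟨by rw [hH h hh, one_mul], mul_zero _⟩)
  have hd' : d = 1 := by have := hd1 hz; omega
  subst hd'
  rw [pow_one] at hclose hgd
  let m : ℕ → ℕ := fun j => if j = 0 then (-a).val else 1
  have hlt := level_relation (Z := Z1) hσ₀ (pow_mem hσ₀) (fun _ => mul_zero _)
    R.val_lt_one.le hclose 2 m (by
      simp only [Finset.sum_range_succ, Finset.sum_range_zero, m, hpow, mul_one,
        pow_zero, pow_one, nsmul_eq_mul, ← ha, if_true, one_ne_zero, if_false, zero_add,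
        Nat.cast_one, one_mul, val_cast, map_neg, neg_add_cancel]) hg
  have hlead := R.lead_zero hσ₀ (hgd.trans (pow_one _).symm) 2 m (hlt.trans_lt
    (by rw [pow_one]; exact mul_lt_of_lt_one_left R.val_pos R.val_lt_one))
  simp only [Finset.sum_range_succ, Finset.sum_range_zero, m, pow_one, pow_zero, mul_one,
    if_true, one_ne_zero, if_false, zero_add, Nat.cast_one, one_mul, val_cast, map_neg,
    neg_add_eq_zero] at hlead
  have hkap := kap_pow_eK R hσ₀
  rw [hK, pow_one, ← hlead] at hkap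
  exact (ZMod.castHom (dvd_refl p) _).injective hkap

/-- **Reducible representations are ordinary up to conjugation.** -/
theorem exists_ordShape (hlow : ∀ g ∈ A.decompositionSubgroup ℚ, r g 1 0 = 0) :
    ∃ P : (M22 k)ˣ, OrdShape p A (conjRep P r) := by
  obtain ⟨R, hK⟩ := TameRoot.exists_of hA (eK := 1) one_pos hp.out.not_dvd_one
  have := ECLocal.residueChar A R.lies
  obtain ⟨σ₀, hσ₀, hprimπ, hprim⟩ := R.exists_generator
  obtain ⟨F, hF, hFπ⟩ := R.exists_frobenius_fix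
  have hID : ∀ {σ}, σ ∈ A.inertiaSubgroupIn ℚ → σ ∈ A.decompositionSubgroup ℚ :=
    fun h => inertia_le_decomposition h
  have hmul : ∀ g ∈ A.decompositionSubgroup ℚ, ∀ h ∈ A.decompositionSubgroup ℚ,
      r (g * h) 0 0 = r g 0 0 * r h 0 0 ∧ r (g * h) 1 1 = r g 1 1 * r h 1 1 := fun g hg h hh => by
    simp [map_mul, Matrix.mul_apply, Fin.sum_univ_two, hlow g hg, hlow h hh]
  have hne : ∀ g ∈ A.decompositionSubgroup ℚ, r g 0 0 ≠ 0 := fun g hg h0 => by
    have h := (hmul g hg _ (inv_mem hg)).1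
    rw [mul_inv_cancel, map_one, Matrix.one_apply_eq, h0, zero_mul] at h
    exact one_ne_zero h
  have hpow : ∀ g ∈ A.decompositionSubgroup ℚ, ∀ n : ℕ, r (g ^ n) 0 0 = r g 0 0 ^ n :=
    fun g hg n => by
      induction n with
      | zero => simp
      | succ n ih => rw [pow_succ, (hmul _ (pow_mem hg n) _ hg).1, ih, pow_succ]
  have hwild : ∀ w, IsWild A w → r w 0 0 = 1 := fun w hw => by
    obtain ⟨n, hn⟩ := exists_rep_pow_eq_one hA hcont hw
    rw [← map_pow] at hn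
    have h := hpow w (hID hw.1) (p ^ n)
    rw [hn, Matrix.one_apply_eq] at h
    exact sub_eq_zero.mp (eq_zero_of_pow_eq_zero (n := p ^ n)
      (by rw [sub_pow_char_pow, one_pow, ← h, sub_self]))
  have hfix : ∀ σ ∈ A.inertiaSubgroupIn ℚ, r σ 0 0 ^ p = r σ 0 0 := fun σ hσ => by
    have hw := isWild_frobenius hA hσ hF
    have hFD := hF.mem_decompositionSubgroup
    have h1 := hwild _ hw
    have h2 := (hmul _ (hID hw.1) _ (pow_mem (hID hσ) p)).1
    rw [h1, one_mul, hpow _ (hID hσ), inv_mul_cancel_right,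
      (hmul _ (mul_mem hFD (hID hσ)) _ (inv_mem hFD)).1, (hmul _ hFD _ (hID hσ)).1,
      mul_right_comm, ← (hmul _ hFD _ (inv_mem hFD)).1, mul_inv_cancel, map_one,
      Matrix.one_apply_eq, one_mul] at h2
    exact h2.symm
  have hexp : ∀ σ ∈ A.inertiaSubgroupIn ℚ, r σ 0 0 ^ R.e = 1 := fun σ hσ => by
    rw [R.e_eq, hK, one_mul]
    refine mul_right_cancel₀ (hne σ (hID hσ)) ?_
    rw [← pow_succ, Nat.sub_add_cancel hp.out.one_le, one_mul, hfix σ hσ]
  obtain ⟨L, hL, hLr⟩ := hcont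
  have hH : ∀ h ∈ R.H, r h 0 0 = 1 := fun h hh =>
    apply_eq_one_of_mem_H (α := fun σ => r σ 0 0) R (fun σ hσ => hne σ (hID hσ))
      (fun σ hσ τ hτ => (hmul _ (hID hσ) _ (hID hτ)).1) hexp L
      (fun σ hσ => by simp [hLr σ hσ]) hh
  have hgen : ∀ σ ∈ A.inertiaSubgroupIn ℚ, ∃ j : ℕ, r σ 0 0 = r σ₀ 0 0 ^ j ∧
      (chiK k p σ : k) = (chiK k p σ₀ : k) ^ j := fun σ hσ => by
    obtain ⟨j, hj⟩ := exists_pow_mul_mem R hσ₀ hprimπ hσ
    refine ⟨j, ?_, ?_⟩
    · conv_lhs => rw [show σ = σ₀ ^ j * ((σ₀ ^ j)⁻¹ * σ) by group]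
      rw [(hmul _ (pow_mem (hID hσ₀) j) _ (hID (mem_rootFix.mp hj).1)).1, hH _ hj, mul_one,
        hpow _ (hID hσ₀)]
    · conv_lhs => rw [show σ = σ₀ ^ j * ((σ₀ ^ j)⁻¹ * σ) by group]
      rw [map_mul, Units.val_mul, chiK_H R hj, mul_one, map_pow, Units.val_pow_eq_pow_val]
  have hd : ∀ σ ∈ A.inertiaSubgroupIn ℚ, r σ 0 0 * r σ 1 1 = (chiK k p σ : k) := fun σ hσ => by
    rw [← hdet σ hσ, Matrix.det_fin_two, hlow σ (hID hσ), mul_zero, sub_zero]
  obtain ⟨Zv⟩ := hflat.rep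
  by_cases h1 : r σ₀ 0 0 = 1
  · -- the second line
    have hone : ∀ σ ∈ A.inertiaSubgroupIn ℚ, r σ 0 0 = 1 := fun σ hσ => by
      obtain ⟨j, hj, -⟩ := hgen σ hσ; rw [hj, h1, one_pow]
    have hd1 : ∀ σ ∈ A.inertiaSubgroupIn ℚ, r σ 1 1 = (chiK k p σ : k) := fun σ hσ => by
      rw [← hd σ hσ, hone σ hσ, one_mul]
    obtain ⟨w, hstab⟩ := exists_stable_line hp2 R hlow Zv hσ₀ hprim hone hd1
    obtain ⟨P, hconj⟩ := exists_conj_diag hlow hstab
    exact ⟨P, fun g hg => by rw [hconj g hg]; rfl,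
      fun σ hσ => by rw [hconj σ (hID hσ)]; exact hd1 σ hσ,
      fun σ hσ => by rw [hconj σ (hID hσ)]; exact hone σ hσ,
      cont_conjRep _ ⟨L, hL, hLr⟩, flat_conjRep _ hflat⟩
  · -- the line is the cyclotomic one
    obtain ⟨a, ha⟩ := exists_cast_of_pow k (hfix σ₀ hσ₀)
    have haχ : a = (chiQ p σ₀ : ZMod p) :=
      cast_eq_chiQ_of_ne_one R hK hlow Zv hσ₀ h1 hH (hpow _ (hID hσ₀)) ha
    have hχ : ∀ σ ∈ A.inertiaSubgroupIn ℚ, r σ 0 0 = (chiK k p σ : k) := fun σ hσ => by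
      obtain ⟨j, hj, hj'⟩ := hgen σ hσ
      rw [hj, hj', coe_chiK, ← haχ, ha]
    exact ⟨1, fun g hg => by simpa [conjRep_apply] using hlow g hg,
      fun σ hσ => by simpa [conjRep_apply] using hχ σ hσ,
      fun σ hσ => by
        have h := hd σ hσ
        rw [hχ σ hσ] at h
        simpa [conjRep_apply] using (mul_eq_left₀ (Units.ne_zero _)).mp h,
      cont_conjRep _ ⟨L, hL, hLr⟩, flat_conjRep _ hflat⟩

end Reducible

omit [CharP k p] in
/-- A vector outside the line of a nonzero vector gives an invertible pair of columns. -/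
private lemma det_ne_zero_of_ne_smul {v u : V2 k} (hv : v ≠ 0) (h : ∀ t : k, u ≠ t • v) :
    v 0 * u 1 - u 0 * v 1 ≠ 0 := by
  intro e
  by_cases h0 : v 0 = 0
  · have h1 : v 1 ≠ 0 := fun h1 => hv (funext fun i => by fin_cases i <;> assumption)
    have hu : u 0 = 0 := by simpa [h0, h1] using e
    refine h (u 1 / v 1) (funext fun i => ?_)
    fin_cases i <;> simp [hu, h0, h1]
  · refine h (u 0 / v 0) (funext fun i => ?_)
    fin_cases i
    · simp [h0]
    · show u 1 = u 0 / v 0 * v 1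
      field_simp
      linear_combination e

omit [CharP k p] in
/-- Powers of a diagonal matrix. -/
private lemma diag_pow (x y : k) (n : ℕ) :
    (!![x, 0; 0, y] : M22 k) ^ n = !![x ^ n, 0; 0, y ^ n] := by
  induction n with
  | zero => simp [Matrix.one_fin_two]
  | succ n ih => rw [pow_succ, ih, Matrix.mul_fin_two]; simp [pow_succ]

omit [CharP k p] in
/-- The commutant of a diagonal matrix with distinct entries is diagonal. -/
private lemma offdiag_eq_zero {a b : k} (hab : a ≠ b) {M : M22 k}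
    (h : M * !![a, 0; 0, b] = !![a, 0; 0, b] * M) : M 0 1 = 0 ∧ M 1 0 = 0 := by
  have e01 := congrFun (congrFun h 0) 1
  have e10 := congrFun (congrFun h 1) 0
  simp [Matrix.mul_apply, Fin.sum_univ_two] at e01 e10
  have hba : b - a ≠ 0 := sub_ne_zero.mpr (Ne.symm hab)
  exact ⟨(mul_eq_zero.mp (show (b - a) * M 0 1 = 0 by linear_combination e01)).resolve_left hba,
    (mul_eq_zero.mp (show (b - a) * M 1 0 = 0 by linear_combination -e10)).resolve_left hba⟩

omit hp [CharP k p] in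
/-- An antidiagonally supported matrix exchanges the entries of `X ↦ X ^ p` on diagonal `X`. -/
private lemma entries_of_frob {M : M22 k} {x y : k} (h01 : M 0 1 ≠ 0) (h10 : M 1 0 ≠ 0)
    (e : M * !![x, 0; 0, y] = !![x, 0; 0, y] ^ p * M) :
    y = x ^ p ∧ x = y ^ p ∧ M 0 0 * x = x ^ p * M 0 0 ∧ M 1 1 * y = y ^ p * M 1 1 := by
  rw [diag_pow] at e
  have e00 := congrFun (congrFun e 0) 0
  have e01 := congrFun (congrFun e 0) 1
  have e10 := congrFun (congrFun e 1) 0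
  have e11 := congrFun (congrFun e 1) 1
  simp [Matrix.mul_apply, Fin.sum_univ_two] at e00 e01 e10 e11
  exact ⟨mul_left_cancel₀ h01 (e01.trans (mul_comm _ _)),
    mul_left_cancel₀ h10 (e10.trans (mul_comm _ _)), e00, e11⟩

omit hp in
/-- An element with a single eigenvalue which Frobenius raises to the power `p` is scalar. -/
private lemma eq_smul_one_of_frob (Q : (M22 k)ˣ) {σ F : GQ} {a x : k}
    (hX : conjRep Q⁻¹ r σ = !![a, x; 0, a]) (hfrob : r F * r σ = r σ ^ p * r F) :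
    r σ = a ^ p • 1 := by
  have hXn : ∀ n : ℕ, (!![a, x; 0, a] : M22 k) ^ n =
      !![a ^ n, n * a ^ (n - 1) * x; 0, a ^ n] := by
    intro n
    induction n with
    | zero => simp [Matrix.one_fin_two]
    | succ n ih =>
      rw [pow_succ, ih]
      rcases n with _ | n
      · simp
      · rw [Matrix.mul_fin_two]
        simp only [Nat.add_sub_cancel, mul_zero, zero_mul, add_zero, zero_add, Nat.cast_add,
          Nat.cast_one]
        ext i j
        fin_cases i <;> fin_cases j <;> simp <;> ring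
  have hs : conjRep Q⁻¹ r σ ^ p = a ^ p • 1 := by
    rw [hX, hXn, CharP.cast_eq_zero, zero_mul, zero_mul, Matrix.smul_one_eq_diagonal]
    ext i j
    fin_cases i <;> fin_cases j <;> simp
  have hs' : r σ ^ p = a ^ p • 1 := by
    have h := congrArg (fun X => Q.1 * X * (Q⁻¹).1) hs
    rw [← map_pow (conjRep Q⁻¹ r), conjRep_apply, inv_inv, map_pow] at h
    simp only [← mul_assoc, Q.mul_inv, one_mul, mul_smul_comm, smul_mul_assoc, mul_one] at h
    rwa [mul_assoc (r σ ^ p), Q.mul_inv, mul_one] at h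
  rw [hs', smul_mul_assoc, one_mul] at hfrob
  have h := congrArg (fun X => r F⁻¹ * X) hfrob
  simp only [← mul_assoc, rep_inv_mul, one_mul, mul_smul_comm] at h
  exact h

omit hp in
/-- A nonscalar element which Frobenius raises to the power `p` is diagonalisable, with distinct
eigenvalues, when it has an eigenvalue in the field. -/
private lemma exists_diag_conj {σ F : GQ} (hscal : ∀ t : k, r σ ≠ t • 1)
    (hfrob : r F * r σ = r σ ^ p * r F)
    (heig : ∃ (a : k) (v : V2 k), v ≠ 0 ∧ r σ *ᵥ v = a • v) :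
    ∃ (Q : (M22 k)ˣ) (a b : k), a ≠ b ∧ conjRep Q⁻¹ r σ = !![a, 0; 0, b] := by
  obtain ⟨a, v, hv, hav⟩ := heig
  obtain ⟨Q₁, hQ₁⟩ := exists_col hv
  rw [← hQ₁] at hav
  obtain ⟨h10, h00⟩ := lower_of_stable Q₁ hav
  set b := conjRep Q₁⁻¹ r σ 1 1 with hb
  set x := conjRep Q₁⁻¹ r σ 0 1 with hx
  have hX : conjRep Q₁⁻¹ r σ = !![a, x; 0, b] := by
    ext i j; fin_cases i <;> fin_cases j <;> simp [h00, h10, hb, hx]
  have hab : a ≠ b := fun hab =>
    hscal _ (eq_smul_one_of_frob Q₁ (by rw [hX, ← hab]) hfrob)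
  obtain ⟨y, hy⟩ : ∃ y, y * (b - a) = x :=
    ⟨_, div_mul_cancel₀ _ (sub_ne_zero.mpr (Ne.symm hab))⟩
  obtain ⟨Q₂, hQ₂1, hQ₂2⟩ := exists_cols (v := (![1, 0] : V2 k)) (w := ![y, 1]) (by simp)
  have e : conjRep Q₁⁻¹ r σ * Q₂.1 = Q₂.1 * !![a, 0; 0, b] := by
    have q00 := congrFun hQ₂1 0
    have q10 := congrFun hQ₂1 1
    have q01 := congrFun hQ₂2 0
    have q11 := congrFun hQ₂2 1
    simp [Matrix.mulVec, dotProduct, Fin.sum_univ_two] at q00 q10 q01 q11
    rw [hX]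
    ext i j
    fin_cases i <;> fin_cases j <;>
      simp [Matrix.mul_apply, Fin.sum_univ_two, q00, q10, q01, q11]
    linear_combination -hy
  have hrr : conjRep (Q₁ * Q₂)⁻¹ r σ = (Q₂⁻¹).1 * conjRep Q₁⁻¹ r σ * Q₂.1 := by
    simp [conjRep_apply, mul_assoc]
  refine ⟨Q₁ * Q₂, a, b, hab, ?_⟩
  rw [hrr, mul_assoc, e, ← mul_assoc, Q₂.inv_mul, one_mul]

section Irreducible

variable [Finite k] (hA : A.LiesOverPrime p) (hp2 : p ≠ 2)
  (hdet : ∀ σ ∈ A.inertiaSubgroupIn ℚ, (r σ).det = (chiK k p σ : k))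
  (hcont : ∃ L : IntermediateField ℚ Qbar, FiniteDimensional ℚ L ∧
    ∀ σ ∈ L.fixingSubgroup, r σ = 1)
  (hflat : IsFlatCoc A r 0)
include hA hcont

omit [CharP k p] [Finite k] in
/-- A line stable under inertia and Frobenius is stable. -/
lemma stable_of_gens {F : GQ} (hF : A.IsFrobeniusAt F p) {v : V2 k}
    (hI : ∀ σ ∈ A.inertiaSubgroupIn ℚ, ∃ t : k, r σ *ᵥ v = t • v) (hFv : ∃ t : k, r F *ᵥ v = t • v)
    {g : GQ} (hg : g ∈ A.decompositionSubgroup ℚ) : ∃ t : k, r g *ᵥ v = t • v := by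
  obtain ⟨L, hL, hLr⟩ := hcont
  obtain ⟨j, ι, hι, u, hu, rfl⟩ := exists_frob_pow_mul_inertia hp.out hA hF hg L
  have hpow : ∀ n : ℕ, ∃ t : k, r (F ^ n) *ᵥ v = t • v := fun n => by
    induction n with
    | zero => exact ⟨1, by simp⟩
    | succ n ih =>
      obtain ⟨t, ht⟩ := ih
      obtain ⟨t', ht'⟩ := hFv
      exact ⟨t' * t, by
        rw [pow_succ, map_mul, ← Matrix.mulVec_mulVec, ht', Matrix.mulVec_smul, ht, smul_smul]⟩
  obtain ⟨t, ht⟩ := hpow j
  obtain ⟨t', ht'⟩ := hI ι hι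
  refine ⟨t' * t, ?_⟩
  rw [map_mul, map_mul, hLr u hu, mul_one,
    ← Matrix.mulVec_mulVec, ht', Matrix.mulVec_smul, ht, smul_smul]

/-- Wild elements have a common nonzero fixed vector. -/
private lemma exists_fixed_of_isWild :
    ∃ v : V2 k, v ≠ 0 ∧ ∀ w, IsWild A w → r w *ᵥ v = v := by
  let W : Subgroup GQ :=
    { carrier := {σ | IsWild A σ}
      one_mem' := ⟨one_mem _, fun x hx => tw1_one hx⟩
      mul_mem' := fun {a b} ha hb => ⟨mul_mem ha.1 hb.1, fun x hx => by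
        rw [tw1_mul hA ha.1 hb.1 hx, ha.2 x hx, hb.2 x hx, one_mul]⟩
      inv_mem' := fun {a} ha => ⟨inv_mem ha.1, fun x hx => by
        have h := tw1_mul hA ha.1 (inv_mem ha.1) hx
        rw [mul_inv_cancel, tw1_one hx, ha.2 x hx, one_mul] at h
        exact h.symm⟩ }
  let P := W.map r.toHomUnits
  let : MulAction P (V2 k) :=
    { smul := fun x v => x.1.1 *ᵥ v
      one_smul := fun v => Matrix.one_mulVec v
      mul_smul := fun x y v => (Matrix.mulVec_mulVec v x.1.1 y.1.1).symm }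
  have hP : IsPGroup p P := by
    rintro ⟨_, w, hw, rfl⟩
    obtain ⟨n, hn⟩ := exists_rep_pow_eq_one hA hcont (show IsWild A w from hw)
    refine ⟨n, Subtype.ext (Units.ext ?_)⟩
    rw [SubgroupClass.coe_pow, Units.val_pow_eq_pow_val, MonoidHom.coe_toHomUnits, hn]
    rfl
  have hmod := hP.card_modEq_card_fixedPoints (V2 k)
  have hdvd : p ∣ Nat.card (MulAction.fixedPoints P (V2 k)) := by
    refine Nat.modEq_zero_iff_dvd.mp (hmod.symm.trans (Nat.modEq_zero_iff_dvd.mpr ?_))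
    let := Fintype.ofFinite k
    obtain ⟨n, -, hn⟩ := FiniteField.card k p
    rw [Nat.card_eq_fintype_card, Fintype.card_fun, Fintype.card_fin, hn, ← pow_mul]
    exact dvd_pow_self p (by positivity)
  have h0 : (0 : V2 k) ∈ MulAction.fixedPoints P (V2 k) := fun x => Matrix.mulVec_zero _
  obtain ⟨⟨v, hv⟩, hv0⟩ : ∃ v : MulAction.fixedPoints P (V2 k), v ≠ ⟨0, h0⟩ := by
    by_contra hall
    push Not at hall
    have : Subsingleton (MulAction.fixedPoints P (V2 k)) :=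
      ⟨fun a b => (hall a).trans (hall b).symm⟩
    have : Nonempty (MulAction.fixedPoints P (V2 k)) := ⟨⟨0, h0⟩⟩
    rw [Nat.card_of_subsingleton ⟨0, h0⟩] at hdvd
    exact hp.out.not_dvd_one hdvd
  exact ⟨v, fun h => hv0 (Subtype.ext h), fun w hw => hv ⟨_, w, hw, rfl⟩⟩

/-- Wild elements act trivially on a representation without stable lines. -/
private lemma rep_eq_one_of_isWild
    (hirr : ∀ v : V2 k, v ≠ 0 → ∃ g ∈ A.decompositionSubgroup ℚ, ∀ t : k, r g *ᵥ v ≠ t • v)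
    {w : GQ} (hw : IsWild A w) : r w = 1 := by
  obtain ⟨v, hv, hfixv⟩ := exists_fixed_of_isWild hA hcont
  obtain ⟨g, hg, hgv⟩ := hirr v hv
  have hfixu : r w *ᵥ (r g *ᵥ v) = r g *ᵥ v := by
    have h := hfixv _ (isWild_conj hA hw (inv_mem hg))
    rw [inv_inv] at h
    have e : r w * r g = r g * r (g⁻¹ * w * g) := by
      rw [← map_mul, ← map_mul]; congr 1; group
    rw [Matrix.mulVec_mulVec, e, ← Matrix.mulVec_mulVec, h]
  obtain ⟨Q, hQ1, hQ2⟩ := exists_cols (det_ne_zero_of_ne_smul hv hgv)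
  have e : r w * Q.1 = Q.1 := by
    have e1 := hfixv w hw
    rw [← hQ1, Matrix.mulVec_mulVec] at e1
    rw [← hQ2, Matrix.mulVec_mulVec] at hfixu
    ext i j
    fin_cases j
    · simpa [Matrix.mulVec, dotProduct, Fin.sum_univ_two] using congrFun e1 i
    · simpa [Matrix.mulVec, dotProduct, Fin.sum_univ_two] using congrFun hfixu i
  rw [← mul_one (r w), ← Q.mul_inv, ← mul_assoc, e]

omit [Finite k] [CharP k p] in
/-- Some element of inertia is not scalar. -/
private lemma exists_inertia_ne_smul_one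
    (hsplit : ∀ σ : GQ, ∃ (a : k) (v : V2 k), v ≠ 0 ∧ r σ *ᵥ v = a • v)
    (hirr : ∀ v : V2 k, v ≠ 0 → ∃ g ∈ A.decompositionSubgroup ℚ, ∀ t : k, r g *ᵥ v ≠ t • v)
    {F : GQ} (hF : A.IsFrobeniusAt F p) :
    ∃ σ ∈ A.inertiaSubgroupIn ℚ, ∀ t : k, r σ ≠ t • 1 := by
  by_contra hall
  push Not at hall
  obtain ⟨t, v, hv, hFv⟩ := hsplit F
  obtain ⟨g, hg, hgv⟩ := hirr v hv
  obtain ⟨t', ht'⟩ := stable_of_gens hA hcont hF (v := v) (fun σ hσ => by
    obtain ⟨s, hs⟩ := hall σ hσ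
    exact ⟨s, by rw [hs, Matrix.smul_mulVec, Matrix.one_mulVec]⟩) ⟨t, hFv⟩ hg
  exact hgv t' ht'

omit [Finite k] [CharP k p] in
/-- When inertia is diagonal, Frobenius has both off-diagonal entries nonzero. -/
private lemma frob_offdiag_ne_zero
    (hirr : ∀ v : V2 k, v ≠ 0 → ∃ g ∈ A.decompositionSubgroup ℚ, ∀ t : k, r g *ᵥ v ≠ t • v)
    {F : GQ} (hF : A.IsFrobeniusAt F p) (Q : (M22 k)ˣ)
    (hoff : ∀ σ ∈ A.inertiaSubgroupIn ℚ,
      conjRep Q⁻¹ r σ 0 1 = 0 ∧ conjRep Q⁻¹ r σ 1 0 = 0) :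
    conjRep Q⁻¹ r F 0 1 ≠ 0 ∧ conjRep Q⁻¹ r F 1 0 ≠ 0 := by
  set r' := conjRep Q⁻¹ r with hr'
  have hline : ∀ i : Fin 2, (∀ j, j ≠ i → r' F j i = 0) → False := fun i hi => by
    set e : V2 k := Pi.single i 1
    have hcol : ∀ g, (∀ j, j ≠ i → r' g j i = 0) → r' g *ᵥ e = r' g i i • e := fun g hg => by
      funext j
      rw [Matrix.mulVec_single_one, Pi.smul_apply, smul_eq_mul]
      by_cases hj : j = i
      · subst hj; simp [e]
      · simp [e, hj, hg j hj]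
    have hback : ∀ g, (∀ j, j ≠ i → r' g j i = 0) →
        r g *ᵥ (Q.1 *ᵥ e) = r' g i i • (Q.1 *ᵥ e) := fun g hg => by
      rw [← Matrix.mulVec_smul, ← hcol g hg, hr', conjRep_apply, inv_inv, Matrix.mulVec_mulVec,
        Matrix.mulVec_mulVec]
      congr 1
      simp only [← mul_assoc, Q.mul_inv, one_mul]
    have hne : Q.1 *ᵥ e ≠ 0 := fun h => by
      have := congrArg (fun z => (Q⁻¹).1 *ᵥ z) h
      simp only [Matrix.mulVec_mulVec, Q.inv_mul, Matrix.one_mulVec, Matrix.mulVec_zero] at this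
      simpa [e] using congrFun this i
    obtain ⟨g, hg, hgv⟩ := hirr _ hne
    obtain ⟨t, ht⟩ := stable_of_gens hA hcont hF (v := Q.1 *ᵥ e) (fun σ hσ =>
      ⟨_, hback σ fun j hj => by
        fin_cases i <;> fin_cases j <;> first | exact absurd rfl hj | simp [hoff σ hσ]⟩)
      ⟨_, hback F hi⟩ hg
    exact hgv t ht
  exact ⟨fun h => hline 1 fun j hj => by
      fin_cases j
      · exact h
      · exact absurd rfl hj,
    fun h => hline 0 fun j hj => by
      fin_cases j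
      · exact absurd rfl hj
      · exact h⟩

include hp2 hdet hflat

/-- **Representations without stable lines are induced up to conjugation.** -/
theorem exists_irrShape (hsplit : ∀ σ : GQ, ∃ (a : k) (v : V2 k), v ≠ 0 ∧ r σ *ᵥ v = a • v)
    (hirr : ∀ v : V2 k, v ≠ 0 → ∃ g ∈ A.decompositionSubgroup ℚ, ∀ t : k, r g *ᵥ v ≠ t • v) :
    ∃ (P : (M22 k)ˣ) (R : TameRoot A p) (σ₀ F : GQ) (α : GQ → k),
      IrrShape A R (conjRep P r) σ₀ F α := by
  have hcop : ¬ p ∣ p + 1 := fun hd => hp.out.not_dvd_one ((Nat.dvd_add_right dvd_rfl).mp hd)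
  obtain ⟨R, hK⟩ := TameRoot.exists_of hA (eK := p + 1) (Nat.succ_pos p) hcop
  obtain ⟨σ₀, hσ₀, hprimπ, hprim⟩ := R.exists_generator
  obtain ⟨F, hF, hFπ⟩ := R.exists_frobenius_fix
  have hwild : ∀ w, IsWild A w → r w = 1 := fun w => rep_eq_one_of_isWild hA hcont hirr
  have hcomm : ∀ σ ∈ A.inertiaSubgroupIn ℚ, ∀ τ ∈ A.inertiaSubgroupIn ℚ,
      r σ * r τ = r τ * r σ := fun σ hσ τ hτ => by
    rw [← map_mul, ← map_mul, show σ * τ = σ * τ * σ⁻¹ * τ⁻¹ * (τ * σ) by group, map_mul,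
      hwild _ (isWild_commutator hA hσ hτ), one_mul]
  have hfrob : ∀ σ ∈ A.inertiaSubgroupIn ℚ, r F * r σ = r σ ^ p * r F := fun σ hσ => by
    rw [← map_pow, ← map_mul, ← map_mul,
      show F * σ = F * σ * F⁻¹ * (σ ^ p)⁻¹ * (σ ^ p * F) by group, map_mul,
      hwild _ (isWild_frobenius hA hσ hF), one_mul]
  -- a basis diagonalising inertia
  obtain ⟨σ₁, hσ₁, hσ₁s⟩ := exists_inertia_ne_smul_one hA hcont hsplit hirr hF
  obtain ⟨Q, a, b, hab, hdiag1⟩ := exists_diag_conj hσ₁s (hfrob σ₁ hσ₁) (hsplit σ₁)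
  set r' := conjRep Q⁻¹ r with hr'
  have hoff : ∀ σ ∈ A.inertiaSubgroupIn ℚ, r' σ 0 1 = 0 ∧ r' σ 1 0 = 0 := fun σ hσ => by
    refine offdiag_eq_zero hab ?_
    rw [← hdiag1, ← map_mul, ← map_mul, hr', conjRep_apply, conjRep_apply, map_mul, map_mul,
      hcomm σ hσ σ₁ hσ₁]
  have hdiag : ∀ σ ∈ A.inertiaSubgroupIn ℚ, r' σ = !![r' σ 0 0, 0; 0, r' σ 1 1] := fun σ hσ => by
    ext i j; fin_cases i <;> fin_cases j <;> simp [hoff σ hσ]
  -- Frobenius exchanges the two characters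
  obtain ⟨hF01, hF10⟩ := frob_offdiag_ne_zero hA hcont hirr hF Q hoff
  have hrel : ∀ σ ∈ A.inertiaSubgroupIn ℚ, r' σ 1 1 = r' σ 0 0 ^ p ∧ r' σ 0 0 = r' σ 1 1 ^ p ∧
      r' F 0 0 * r' σ 0 0 = r' σ 0 0 ^ p * r' F 0 0 ∧
      r' F 1 1 * r' σ 1 1 = r' σ 1 1 ^ p * r' F 1 1 := fun σ hσ => by
    refine entries_of_frob hF01 hF10 ?_
    rw [← hdiag σ hσ, ← map_pow, ← map_mul, ← map_mul, hr', conjRep_apply, conjRep_apply,
      map_mul, map_mul, map_pow, hfrob σ hσ]
  obtain ⟨hb1, ha1, hF00, hF11⟩ := hrel σ₁ hσ₁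
  simp only [hdiag1, Matrix.of_apply, Matrix.cons_val', Matrix.cons_val_zero, Matrix.cons_val_one,
    Matrix.empty_val', Matrix.cons_val_fin_one] at hb1 ha1 hF00 hF11
  -- the character on the first line
  have hdet' : ∀ σ ∈ A.inertiaSubgroupIn ℚ, r' σ 0 0 * r' σ 0 0 ^ p = (chiK k p σ : k) :=
    fun σ hσ => by
      have h := hdet σ hσ
      rw [← det_conjRep Q⁻¹ σ, ← hr', Matrix.det_fin_two, (hoff σ hσ).1, (hrel σ hσ).1, zero_mul,
        sub_zero] at h
      exact h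
  have hne0 : ∀ σ ∈ A.inertiaSubgroupIn ℚ, r' σ 0 0 ≠ 0 := fun σ hσ h => by
    have := hdet' σ hσ
    rw [h, zero_mul] at this
    exact Units.ne_zero (chiK k p σ) this.symm
  have hper : ∀ σ ∈ A.inertiaSubgroupIn ℚ, r' σ 0 0 ^ (p * p) = r' σ 0 0 := fun σ hσ => by
    obtain ⟨h1, h2, -, -⟩ := hrel σ hσ
    rw [pow_mul, ← h1, ← h2]
  have hmul : ∀ σ ∈ A.inertiaSubgroupIn ℚ, ∀ τ ∈ A.inertiaSubgroupIn ℚ,
      r' (σ * τ) 0 0 = r' σ 0 0 * r' τ 0 0 := fun σ hσ τ hτ => by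
    simp [map_mul, Matrix.mul_apply, Fin.sum_univ_two, hoff σ hσ]
  obtain ⟨L, hL, hLr⟩ := cont_conjRep Q⁻¹ hcont
  have hH : ∀ h ∈ R.H, r' h 0 0 = 1 := fun h hh => by
    refine apply_eq_one_of_mem_H (α := fun σ => r' σ 0 0) R hne0 hmul (fun σ hσ => ?_) L
      (fun σ hσ => by simp [hr', hLr σ hσ]) hh
    refine mul_right_cancel₀ (hne0 σ hσ) ?_
    rw [← pow_succ, one_mul, R.e_eq, hK, show (p + 1) * (p - 1) + 1 = p * p by
      obtain ⟨c, hc⟩ : ∃ c, p = c + 1 := ⟨p - 1, by have := hp.out.two_le; omega⟩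
      rw [hc, Nat.add_sub_cancel]; ring, hper σ hσ]
  refine ⟨Q⁻¹, R, σ₀, F, fun σ => r' σ 0 0, hK, hp2, hσ₀, hprimπ, hprim, hF, hFπ, fun σ hσ => ?_,
    hper, hdet', ?_, ?_, hF01, hF10, fun h0 => ?_, hH, ⟨L, hL, hLr⟩, flat_conjRep _ hflat⟩
  · rw [← hr', ← (hrel σ hσ).1]
    exact hdiag σ hσ
  · by_contra hne'
    refine hab (((mul_right_cancel₀ hne' ?_ : a = a ^ p)).trans hb1.symm)
    linear_combination hF00
  · by_contra hne'
    refine hab (ha1.trans ((mul_right_cancel₀ hne' ?_ : b ^ p = b)))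
    linear_combination -hF11
  · refine hab ?_
    obtain ⟨j, hj⟩ := exists_pow_mul_mem R hσ₀ hprimπ hσ₁
    have hpw : ∀ n : ℕ, r' (σ₀ ^ n) 0 0 = r' σ₀ 0 0 ^ n := fun n => by
      induction n with
      | zero => simp
      | succ n ih => rw [pow_succ, hmul _ (pow_mem hσ₀ n) _ hσ₀, ih, pow_succ]
    have ha' : a = r' σ₀ 0 0 ^ j := by
      rw [← hpw, ← mul_one (r' (σ₀ ^ j) 0 0), ← hH _ hj,
        ← hmul _ (pow_mem hσ₀ j) _ (mem_rootFix.mp hj).1, mul_inv_cancel_left, hdiag1]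
      rfl
    have h0' : r' σ₀ 0 0 ^ p = r' σ₀ 0 0 := h0
    rw [hb1, ha', ← pow_mul, mul_comm, pow_mul, h0']

end Irreducible

/-- **The bound when eigenvalues lie in the field.** -/
theorem finrank_le_split [Finite k] (hA : A.LiesOverPrime p) (hp2 : p ≠ 2)
    (hdet : ∀ σ ∈ A.inertiaSubgroupIn ℚ, (r σ).det = (chiK k p σ : k))
    (hcont : ∃ L : IntermediateField ℚ Qbar, FiniteDimensional ℚ L ∧
      ∀ σ ∈ L.fixingSubgroup, r σ = 1)
    (hflat : IsFlatCoc A r 0)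
    (hsplit : ∀ σ : GQ, ∃ (a : k) (v : V2 k), v ≠ 0 ∧ r σ *ᵥ v = a • v)
    (V : Submodule k (GQ → M22 k)) [Module.Finite k V]
    (hgen : V ≤ Submodule.span k {c | c ∈ adCoc r ∧ IsContFun c ∧ IsFlatCoc A r c}) :
    Module.finrank k V ≤
      Module.finrank k (V ⊓ locCob r (A.decompositionSubgroup ℚ) :
        Submodule k (GQ → M22 k)) +
      Module.finrank k (locFix r (A.decompositionSubgroup ℚ)) + 1 := by
  by_cases hirr : ∀ v : V2 k, v ≠ 0 → ∃ g ∈ A.decompositionSubgroup ℚ, ∀ t : k, r g *ᵥ v ≠ t • v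
  · obtain ⟨P, R, σ₀, F, α, hs⟩ := exists_irrShape hA hp2 hdet hcont hflat hsplit hirr
    refine bound_of_conj P _ V ?_
    exact (hs.finrank_le _ (gen_conj P hgen)).trans (by omega)
  · push Not at hirr
    obtain ⟨v, hv, hstab⟩ := hirr
    obtain ⟨Q, hQ⟩ := exists_col hv
    have hlow : ∀ g ∈ A.decompositionSubgroup ℚ, conjRep Q⁻¹ r g 1 0 = 0 := fun g hg => by
      obtain ⟨t, ht⟩ := hstab g hg
      exact (lower_of_stable Q (by rw [hQ]; exact ht)).1
    obtain ⟨P, hs⟩ := exists_ordShape hA hp2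
      (fun σ hσ => (det_conjRep Q⁻¹ σ).trans (hdet σ hσ)) (cont_conjRep _ hcont)
      (flat_conjRep _ hflat) hlow
    obtain ⟨R, hK⟩ := TameRoot.exists_of hA (eK := 1) one_pos hp.out.not_dvd_one
    obtain ⟨σ₀, hσ₀, hprimπ, hprim⟩ := R.exists_generator
    obtain ⟨F, hF, hFπ⟩ := R.exists_frobenius_fix
    refine bound_of_conj Q⁻¹ _ V (bound_of_conj P _ _ ?_)
    exact hs.finrank_le R hK hp2 hσ₀ hprimπ hprim hF hFπ _ (gen_conj P (gen_conj Q⁻¹ hgen))

end FermatAgent.CFT.FlatBound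

end
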