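import Fermat.Agent.CFT.FlatBound.Setup

/-!
# Flat classes of ordinary local representations

For a representation which on inertia is an extension of the trivial character by the cyclotomic
one, flat cocycles are, up to coboundaries, strictly upper triangular on inertia with a peu
ramifiée corner, and their classes form a space of dimension at most the invariants plus one.
-/

set_option autoImplicit false

noncomputable section

open scoped Classical Matrix IntermediateField Polynomial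

namespace FermatAgent.CFT.FlatBound

open GaloisBasic Mazur SelmerP
open Flat (Sys)
open Global (zet zet_spec chiQ)
open Selmer (M22 adCoc locCob locFix chiK coe_chiK rep_mul_inv rep_inv_mul)

variable {k : Type} [Field k] {p : ℕ} [hp : Fact p.Prime] [CharP k p]

/-- A matrix applied to a vector of length two. -/
lemma mulVec_two (M : M22 k) (x y : k) :
    M *ᵥ ![x, y] = ![M 0 0 * x + M 0 1 * y, M 1 0 * x + M 1 1 * y] := by
  ext i
  fin_cases i <;> simp [Matrix.mulVec, dotProduct, Fin.sum_univ_two]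

lemma add_neg_of_trace {M : M22 k} (h : M.trace = 0) : M 1 1 = -M 0 0 := by
  rw [Matrix.trace_fin_two] at h
  linear_combination h

/-- Inertia is an extension of the trivial character by the cyclotomic one. -/
structure OrdShape (p : ℕ) [Fact p.Prime] [CharP k p] (A : ValuationSubring Qbar) (r : MatRep k) :
    Prop where
  lower : ∀ g ∈ A.decompositionSubgroup ℚ, r g 1 0 = 0
  chi : ∀ σ ∈ A.inertiaSubgroupIn ℚ, r σ 0 0 = (chiK k p σ : k)
  unr : ∀ σ ∈ A.inertiaSubgroupIn ℚ, r σ 1 1 = 1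
  cont : ∃ L : IntermediateField ℚ Qbar, FiniteDimensional ℚ L ∧ ∀ σ ∈ L.fixingSubgroup, r σ = 1
  flat : IsFlatCoc A r 0

namespace OrdShape

variable {A : ValuationSubring Qbar} {r : MatRep k} (hr : OrdShape p A r)

section Entries

include hr

lemma diag_mul {g h : GQ} (hg : g ∈ A.decompositionSubgroup ℚ)
    (hh : h ∈ A.decompositionSubgroup ℚ) :
    r (g * h) 0 0 = r g 0 0 * r h 0 0 ∧ r (g * h) 1 1 = r g 1 1 * r h 1 1 ∧
      r (g * h) 0 1 = r g 0 0 * r h 0 1 + r g 0 1 * r h 1 1 := by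
  simp [map_mul, Matrix.mul_apply, Fin.sum_univ_two, hr.lower g hg, hr.lower h hh]

lemma diag_ne_zero {g : GQ} (hg : g ∈ A.decompositionSubgroup ℚ) :
    r g 0 0 ≠ 0 ∧ r g 1 1 ≠ 0 := by
  obtain ⟨h1, h2, -⟩ := hr.diag_mul hg (inv_mem hg)
  rw [mul_inv_cancel, map_one, Matrix.one_apply_eq] at h1 h2
  exact ⟨left_ne_zero_of_mul_eq_one h1.symm, left_ne_zero_of_mul_eq_one h2.symm⟩

/-- Conjugating a matrix by the representation. -/
lemma conj_entries {g : GQ} (hg : g ∈ A.decompositionSubgroup ℚ) (C : M22 k) :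
    (r g * C * r g⁻¹) 1 0 * r g 0 0 = r g 1 1 * C 1 0 ∧
      (C 1 0 = 0 → (r g * C * r g⁻¹) 1 0 = 0 ∧ (r g * C * r g⁻¹) 0 0 = C 0 0 ∧
        (r g * C * r g⁻¹) 0 1 * r g 1 1 =
          r g 0 0 * C 0 1 + r g 0 1 * (C 1 1 - C 0 0)) := by
  set Y := r g * C * r g⁻¹
  have e : Y * r g = r g * C := by rw [mul_assoc (r g * C), rep_inv_mul, mul_one]
  have e10 := congrFun (congrFun e 1) 0
  have e00 := congrFun (congrFun e 0) 0
  have e01 := congrFun (congrFun e 0) 1
  simp only [Matrix.mul_apply, Fin.sum_univ_two, hr.lower g hg, mul_zero, add_zero, zero_mul,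
    zero_add] at e10 e00 e01
  refine ⟨e10, fun hC => ?_⟩
  obtain ⟨ha, -⟩ := hr.diag_ne_zero hg
  rw [hC, mul_zero] at e10
  rw [hC, mul_zero, add_zero, mul_comm (r g 0 0)] at e00
  have h00 := mul_right_cancel₀ ha e00
  refine ⟨(mul_eq_zero.mp e10).resolve_right ha, h00, ?_⟩
  rw [h00] at e01
  linear_combination e01

end Entries

/-- The ratio of the diagonal characters. -/
def ratio (_hr : OrdShape p A r) (g : GQ) : k := r g 0 0 / r g 1 1

include hr

lemma ratio_mul {g h : GQ} (hg : g ∈ A.decompositionSubgroup ℚ)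
    (hh : h ∈ A.decompositionSubgroup ℚ) : hr.ratio (g * h) = hr.ratio g * hr.ratio h := by
  obtain ⟨h1, h2, -⟩ := hr.diag_mul hg hh
  simp only [ratio, h1, h2, mul_div_mul_comm]

lemma ratio_inertia {σ : GQ} (hσ : σ ∈ A.inertiaSubgroupIn ℚ) :
    hr.ratio σ = (chiK k p σ : k) := by
  rw [ratio, hr.chi σ hσ, hr.unr σ hσ, div_one]

section Root

variable (R : TameRoot A p)

lemma ratio_H {h : GQ} (hh : h ∈ R.H) : hr.ratio h = 1 := by
  rw [hr.ratio_inertia (mem_rootFix.mp hh).1, chiK_H R hh]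

omit hr in
lemma chiK_conj {σ F : GQ} : (chiK k p (F * σ * F⁻¹) : k) = (chiK k p σ : k) := by
  rw [map_mul, map_mul, mul_comm (chiK k p F), mul_assoc, ← map_mul, mul_inv_cancel, map_one,
    mul_one]

end Root

variable [Finite k] (R : TameRoot A p) (hK : R.eK = 1) (hp2 : p ≠ 2) {σ₀ F : GQ}
  (hσ₀ : σ₀ ∈ A.inertiaSubgroupIn ℚ) (hprimπ : IsPrimitiveRoot (σ₀ R.π / R.π) R.e)
  (hprim : IsPrimitiveRoot (R.kap σ₀) R.e) (hF : A.IsFrobeniusAt F p) (hFπ : F R.π = R.π)

section Shape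

variable {c : GQ → M22 k} (hc : c ∈ adCoc r) (Z : Sys A ⊤ (extAct r c))

include hσ₀ hp2 hprim hc Z

omit [Finite k] hc in
/-- Every multiple of the distinguished point of a line reduces to the origin. -/
lemma small_line (s t : k) :
    Z.Small (![s, 0], ![t, s * ((chiK k p σ₀ : k) * c σ₀ 1 0 / ((chiK k p σ₀ : k) - 1))]) := by
  set χ := (chiK k p σ₀ : k)
  have hχ : χ - 1 ≠ 0 := sub_ne_zero.mpr (chiK_ne_one R hσ₀ hp2 hprim)
  obtain ⟨s', e1⟩ : ∃ s', s' * (χ - 1) = s := ⟨_, div_mul_cancel₀ s hχ⟩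
  obtain ⟨t', e2⟩ : ∃ t', t' * (χ - 1) = t - χ * c σ₀ 0 0 * s' := ⟨_, div_mul_cancel₀ _ hχ⟩
  have hv : s' * χ * c σ₀ 1 0 = s * (χ * c σ₀ 1 0 / (χ - 1)) := by
    rw [← e1, mul_assoc s' (χ - 1), mul_div_cancel₀ _ hχ, mul_assoc]
  have h := small_act_sub (Z := Z) R.lies hσ₀ (Subgroup.mem_top σ₀)
    ((![s', 0], ![t', 0]) : V2 k × V2 k)
  rw [← hv]
  convert h using 1
  have h10 := hr.lower σ₀ (inertia_le_decomposition hσ₀)
  have h00 : r σ₀ 0 0 = χ := hr.chi σ₀ hσ₀
  refine Prod.ext (funext fun i => ?_) (funext fun i => ?_) <;>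
    fin_cases i <;>
    simp [extAct, h10, h00, Matrix.mul_apply, Fin.sum_univ_two]
  · linear_combination -e1
  · linear_combination -e2
  · ring

omit hσ₀ hprim hc in
include R in
/-- Small points of the representation lie on the line. -/
lemma snd_eq_zero_of_small {δ : V2 k} (h : Z.Small (0, δ)) : δ 1 = 0 := by
  let Zv : Sys A ⊤ (repAct r) := Z.restrict (AddMonoidHom.inr (V2 k) (V2 k))
    (fun x y e => congrArg Prod.snd e) fun σ _ x => by simp [extAct, repAct]
  have hsm : Zv.Small δ := fun g hg => by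
    obtain ⟨f, hf, rfl⟩ := Finset.mem_image.mp hg
    exact h f hf
  let π : V2 k →+ k := Pi.evalAddMonoidHom _ 1
  obtain ⟨Z', hB⟩ := (Zv.mono (T := A.inertiaSubgroupIn ℚ) le_top).exists_quotient
    (act' := fun _ x => x) π (fun x => ⟨![0, x], rfl⟩) fun σ hσ x => by
      show (r σ *ᵥ x) 1 = x 1
      simp [Matrix.mulVec, dotProduct, Fin.sum_univ_two,
        hr.lower σ (inertia_le_decomposition hσ), hr.unr σ hσ]
  by_contra hne
  exact Z'.not_small_of_fixed hp2 R.lies le_rfl hne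
    (by rw [nsmul_eq_mul, CharP.cast_eq_zero, zero_mul]) (fun σ _ => ⟨rfl, rfl⟩)
    (small_quotient hB (z := δ) fun g hg => hsm g hg)

omit hc in
/-- The lower corner of a flat cocycle is a coboundary. -/
theorem lower_eq {g : GQ} (hg : g ∈ A.decompositionSubgroup ℚ) :
    c g 1 0 * r g 0 0 =
      (chiK k p σ₀ : k) * c σ₀ 1 0 / ((chiK k p σ₀ : k) - 1) * (r g 0 0 - r g 1 1) := by
  set w := (chiK k p σ₀ : k) * c σ₀ 1 0 / ((chiK k p σ₀ : k) - 1)
  have h1 := small_map (Z := Z) hg (Subgroup.mem_top g) (extAct_zero r c g)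
    (hr.small_line R hp2 hσ₀ hprim Z 1 0)
  have h2 := hr.small_line R hp2 hσ₀ hprim Z (r g 0 0) (r g 0 1 * w + c g 0 0 * r g 0 0)
  have h3 := Z.smallPts.sub_mem h1 h2
  have e : extAct r c g (![1, 0], ![0, 1 * w]) -
      (![r g 0 0, 0], ![r g 0 1 * w + c g 0 0 * r g 0 0, r g 0 0 * w]) =
      ((0, ![0, r g 1 1 * w + c g 1 0 * r g 0 0 - r g 0 0 * w]) : V2 k × V2 k) := by
    simp only [extAct, mulVec_two, hr.lower g hg, Matrix.mul_apply, Fin.sum_univ_two, mul_zero,
      add_zero, mul_one, one_mul]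
    refine Prod.ext (funext fun i => ?_) (funext fun i => ?_) <;> fin_cases i <;> simp
  rw [e] at h3
  have h4 : r g 1 1 * w + c g 1 0 * r g 0 0 - r g 0 0 * w = 0 := by
    simpa using hr.snd_eq_zero_of_small R hp2 Z h3
  linear_combination h4

/-- With trivial lower corner the diagonal is unramified. -/
theorem diag_eq_zero (h10 : ∀ g ∈ A.decompositionSubgroup ℚ, c g 1 0 = 0) {σ : GQ}
    (hσ : σ ∈ A.inertiaSubgroupIn ℚ) : c σ 0 0 = 0 := by
  have hσD := inertia_le_decomposition hσ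
  have h1 := small_act_sub (Z := Z) R.lies hσ (Subgroup.mem_top σ) ((![0, 1], 0) : V2 k × V2 k)
  have h2 := hr.small_line R hp2 hσ₀ hprim Z (r σ 0 1) (c σ 0 0 * r σ 0 1 + c σ 0 1)
  rw [h10 σ₀ (inertia_le_decomposition hσ₀), mul_zero, zero_div, mul_zero] at h2
  have h3 := Z.smallPts.sub_mem h1 h2
  have e : extAct r c σ (![0, 1], 0) - (![0, 1], 0) -
      (![r σ 0 1, 0], ![c σ 0 0 * r σ 0 1 + c σ 0 1, 0]) =
      ((0, ![0, -c σ 0 0]) : V2 k × V2 k) := by
    simp only [extAct, mulVec_two, Matrix.mulVec_zero, zero_add, Matrix.mul_apply,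
      Fin.sum_univ_two, hr.unr σ hσ, h10 σ hσD, add_neg_of_trace (hc.2 σ)]
    refine Prod.ext (funext fun i => ?_) (funext fun i => ?_) <;> fin_cases i <;> simp
  rw [e] at h3
  simpa using hr.snd_eq_zero_of_small R hp2 Z h3

end Shape

include hσ₀ hp2 hprim in
/-- **Normal shape of flat cocycles.** -/
theorem exists_shape {c : GQ → M22 k} (hc : c ∈ adCoc r) (hflat : IsFlatCoc A r c) :
    ∃ e : M22 k, (∀ g ∈ A.decompositionSubgroup ℚ, (c + cobf r e) g 1 0 = 0) ∧
      ∀ σ ∈ A.inertiaSubgroupIn ℚ, (c + cobf r e) σ 0 0 = 0 := by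
  obtain ⟨Z⟩ := hflat
  set w := (chiK k p σ₀ : k) * c σ₀ 1 0 / ((chiK k p σ₀ : k) - 1)
  have hlow : ∀ g ∈ A.decompositionSubgroup ℚ,
      (c + cobf r !![0, 0; w, 0]) g 1 0 = 0 := fun g hg => by
    obtain ⟨e10, -⟩ := hr.conj_entries hg (!![0, 0; w, 0] : M22 k)
    simp only [Matrix.of_apply, Matrix.cons_val', Matrix.cons_val_zero, Matrix.cons_val_one,
      Matrix.empty_val', Matrix.cons_val_fin_one] at e10
    have h1 := hr.lower_eq R hp2 hσ₀ hprim Z hg
    show c g 1 0 + ((r g * !![0, 0; w, 0] * r g⁻¹) 1 0 - (!![0, 0; w, 0] : M22 k) 1 0) = 0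
    simp only [Matrix.of_apply, Matrix.cons_val', Matrix.cons_val_zero, Matrix.cons_val_one,
      Matrix.empty_val', Matrix.cons_val_fin_one]
    refine (mul_eq_zero.mp ?_).resolve_right (hr.diag_ne_zero hg).1
    linear_combination h1 + e10
  refine ⟨!![0, 0; w, 0], hlow, fun σ hσ => ?_⟩
  obtain ⟨Z'⟩ := (IsFlatCoc.add_cob ⟨Z⟩ (!![0, 0; w, 0] : M22 k))
  exact hr.diag_eq_zero R hp2 hσ₀ hprim ((adCoc r).add_mem hc (cobf_mem r _)) Z' hlow hσ

section Corner

variable {c : GQ → M22 k} (hc : c ∈ adCoc r)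
  (h10 : ∀ g ∈ A.decompositionSubgroup ℚ, c g 1 0 = 0)

include hc h10

omit [Finite k] in
lemma coc_diag {g h : GQ} (hg : g ∈ A.decompositionSubgroup ℚ)
    (hh : h ∈ A.decompositionSubgroup ℚ) : c (g * h) 0 0 = c g 0 0 + c h 0 0 := by
  rw [hc.1, Matrix.add_apply, ((hr.conj_entries hg (c h)).2 (h10 h hh)).2.1]

omit [Finite k] in
lemma coc_corner {g h : GQ} (hg : g ∈ A.decompositionSubgroup ℚ)
    (hh : h ∈ A.decompositionSubgroup ℚ) (h00 : c h 0 0 = 0) :
    c (g * h) 0 1 = c g 0 1 + hr.ratio g * c h 0 1 := by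
  have e := ((hr.conj_entries hg (c h)).2 (h10 h hh)).2.2
  rw [add_neg_of_trace (hc.2 h), h00, neg_zero, sub_zero, mul_zero, add_zero] at e
  rw [hc.1, Matrix.add_apply, ratio, div_mul_eq_mul_div, ← e,
    mul_div_cancel_right₀ _ (hr.diag_ne_zero hg).2]

variable (h00 : ∀ σ ∈ A.inertiaSubgroupIn ℚ, c σ 0 0 = 0)
include h00

omit [Finite k] in
lemma corner_add {g h : GQ} (hg : g ∈ R.H) (hh : h ∈ R.H) :
    c (g * h) 0 1 = c g 0 1 + c h 0 1 := by
  rw [hr.coc_corner hc h10 (inertia_le_decomposition (mem_rootFix.mp hg).1)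
    (inertia_le_decomposition (mem_rootFix.mp hh).1) (h00 h (mem_rootFix.mp hh).1),
    hr.ratio_H R hg, one_mul]

omit [Finite k] in
/-- Conjugates of the corner. -/
lemma corner_conj {g h : GQ} (hg : g ∈ A.decompositionSubgroup ℚ) (hh : h ∈ R.H)
    (hbg : r h 0 1 * c g 0 0 = 0) :
    hr.ratio g * c (g⁻¹ * h * g) 0 1 = c h 0 1 := by
  have hc' := (mem_rootFix.mp (R.conj_mem_H hg hh)).1
  have hI := (mem_rootFix.mp hh).1
  have hhD := inertia_le_decomposition hI
  have e1 := hr.coc_corner hc h10 hg (inertia_le_decomposition hc') (h00 _ hc')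
  have e2 := ((hr.conj_entries hhD (c g)).2 (h10 g hg))
  rw [show g * (g⁻¹ * h * g) = h * g by group, hc.1 h g, Matrix.add_apply] at e1
  have e3 : (r h * c g * r h⁻¹) 0 1 = c g 0 1 + r h 0 1 * (c g 1 1 - c g 0 0) := by
    have := e2.2.2
    rwa [hr.unr h hI, hr.chi h hI, chiK_H R hh, one_mul, mul_one] at this
  rw [e3, add_neg_of_trace (hc.2 g)] at e1
  linear_combination -e1 - 2 * hbg

include hK hσ₀ hprim in
/-- **The corner of a flat cocycle is peu ramifié.** -/
theorem corner_lev (hcont : IsContFun c) (Z : Sys A ⊤ (extAct r c)) (lam : k →+ ZMod p) :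
    R.Lev (zet p) (p - 1) (fun g => lam (c g 0 1)) := by
  rcases eq_or_ne lam 0 with rfl | hlam
  · exact (TameRoot.lev_zero (R := R) (ζ := zet p) (p - 1)).congr fun σ _ => rfl
  have hp1 := hp.out.two_le
  have hID : ∀ {σ}, σ ∈ A.inertiaSubgroupIn ℚ → σ ∈ A.decompositionSubgroup ℚ :=
    fun h => inertia_le_decomposition h
  have : Finite (V2 k × V2 k) := inferInstance
  let π : V2 k × V2 k →+ k × k × ZMod p :=
    AddMonoidHom.mk' (fun x => (x.1 1, x.2 1, lam (x.2 0))) fun x y => by simp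
  have hπ : Function.Surjective π := fun q => by
    obtain ⟨x₀, hx₀⟩ := DFunLike.ne_iff.mp hlam
    rw [AddMonoidHom.zero_apply] at hx₀
    refine ⟨(![0, q.1], ![(q.2.2 / lam x₀).val • x₀, q.2.1]), Prod.ext rfl (Prod.ext rfl ?_)⟩
    show lam ((q.2.2 / lam x₀).val • x₀) = q.2.2
    rw [map_nsmul, nsmul_eq_mul, ZMod.natCast_zmod_val, div_mul_cancel₀ _ hx₀]
  obtain ⟨Z', -⟩ := (Z.mono (T := A.inertiaSubgroupIn ℚ) le_top).exists_quotient
    (act' := fun σ q => (q.1, q.2.1,
      (chiQ p σ : ZMod p) * q.2.2 + lam (r σ 0 1 * q.2.1 + c σ 0 1 * q.1)))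
    π hπ fun σ hσ x => by
      obtain ⟨⟨v, w⟩, rfl⟩ : ∃ y, x = y := ⟨x, rfl⟩
      have hv : v = ![v 0, v 1] := funext fun i => by fin_cases i <;> rfl
      have hw : w = ![w 0, w 1] := funext fun i => by fin_cases i <;> rfl
      show ((extAct r c σ (v, w)).1 1, (extAct r c σ (v, w)).2 1,
        lam ((extAct r c σ (v, w)).2 0)) = _
      conv_lhs => rw [hv, hw]
      simp only [extAct, mulVec_two, hr.lower σ (hID hσ), hr.chi σ hσ, hr.unr σ hσ,
        Matrix.mul_apply, Fin.sum_univ_two, h10 σ (hID hσ), h00 σ hσ,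
        add_neg_of_trace (hc.2 σ), neg_zero, mul_zero, zero_mul, add_zero, zero_add, one_mul,
        mul_one, Pi.add_apply, Matrix.cons_val_zero, Matrix.cons_val_one]
      refine Prod.ext rfl (Prod.ext rfl ?_)
      show lam _ = (chiQ p σ : ZMod p) * lam (w 0) + lam (r σ 0 1 * w 1 + c σ 0 1 * v 1)
      rw [← HomSpace.map_castHom_mul lam, ← coe_chiK, ← map_add, add_assoc]
  have hH : R.H ≤ A.inertiaSubgroupIn ℚ := inf_le_left
  obtain ⟨L, hL, hLc⟩ := hcont
  have hBadd : ∀ σ ∈ R.H, ∀ τ ∈ R.H, lam (c (σ * τ) 0 1) = lam (c σ 0 1) + lam (c τ 0 1) :=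
    fun σ hσ τ hτ => by rw [hr.corner_add R hc h10 h00 hσ hτ, map_add]
  have hy : ∀ h ∈ R.H, ((1 : k), (0 : k), (chiQ p h : ZMod p) * 0 +
      lam (r h 0 1 * 0 + c h 0 1 * 1)) - ((1 : k), (0 : k), (0 : ZMod p)) =
      (0, 0, lam (c h 0 1)) := fun h _ => by simp
  have h1 : R.Lev (zet p) 1 (fun g => lam (c g 0 1)) := by
    refine lev_of_sep (zet_spec p) Z' hH (fun h _ x z => ?_) (y := ((1, 0, 0) : k × k × ZMod p))
      (⊥ : AddSubgroup (k × k × ZMod p)) (fun h _ z hz => ?_) (fun h hh hB => ?_) (d := 1) hBadd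
      L.fixingSubgroup (IntermediateField.fixingSubgroup_isOpen L)
      (fun σ _ hσ => by rw [hLc σ hσ, Matrix.zero_apply, map_zero]) (fun h hh hB => ?_) ?_
      (by rw [hK, mul_one]; omega) le_rfl
    · refine Prod.ext rfl (Prod.ext rfl ?_)
      show _ = _ + lam _ + (_ + lam _)
      simp only [Prod.fst_add, Prod.snd_add, mul_add, map_add]
      abel
    · rw [AddSubgroup.mem_bot.mp hz]
      simp only [Prod.fst_zero, Prod.snd_zero, mul_zero, add_zero, map_zero]
      rfl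
    · rw [AddSubgroup.mem_bot, hy h hh, hB]; rfl
    · set z := (((1 : k), (0 : k), (chiQ p h : ZMod p) * 0 +
        lam (r h 0 1 * 0 + c h 0 1 * 1)) - ((1 : k), (0 : k), (0 : ZMod p)))
      have hz : z = (0, 0, lam (c h 0 1)) := hy h hh
      have hz0 : z ≠ 0 := fun e => hB (by rw [hz] at e; exact congrArg (fun q => q.2.2) e)
      obtain ⟨g₀, hg₀, hfar⟩ := Z'.exists_far R.lies hz0 (by
        rw [hz]
        simp only [Prod.smul_mk, smul_zero]
        rw [nsmul_eq_mul, ZMod.natCast_self, zero_mul]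
        rfl)
      obtain ⟨g, hg, hmove⟩ := exists_move (Z := Z') (z := z) ((1, 0, 0) : k × k × ZMod p) hg₀
      refine ⟨g, hg, fun w hw => ?_⟩
      rw [AddSubgroup.mem_bot.mp hw, add_zero, pow_one]
      rw [R.val_natCast_p, R.e_eq, hK, one_mul] at hfar
      have h2 := ((pow_le_pow_iff_left₀ zero_le zero_le (by omega : p - 1 ≠ 0)).mp hfar).trans hmove
      rwa [add_sub_cancel] at h2
    · rw [hK]; simp
  refine TameRoot.lev_climb (zet_spec p) one_ne_zero
    (by rw [hK]; omega) h1 fun i _ hi hdv hLev => ?_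
  have h2 := TameRoot.theta_conj_inertia (zet_spec p) hσ₀ (apply_zet_zp σ₀) hdv
    (by rw [hK]; omega) hLev
  rw [TameRoot.theta_congr (zet_spec p) hdv (by rw [hK]; omega)
    (B' := fun g => lam (c g 0 1)) (fun g hg => by
      show (chiQ p σ₀ : ZMod p) * lam (c (σ₀⁻¹ * g * σ₀) 0 1) = lam (c g 0 1)
      rw [← HomSpace.map_castHom_mul lam, ← coe_chiK, ← hr.ratio_inertia hσ₀,
        hr.corner_conj R hc h10 h00 (hID hσ₀) hg (by rw [h00 σ₀ hσ₀, mul_zero])]),
    eq_comm, mul_left_eq_self₀] at h2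
  refine h2.resolve_left ?_
  exact hprim.pow_ne_one_of_pos_of_lt (by omega) (by rw [R.e_eq, hK, one_mul]; omega)

end Corner

/-- Cocycles in normal shape. -/
def normal (_hr : OrdShape p A r) : Submodule k (GQ → M22 k) where
  carrier := {c | c ∈ adCoc r ∧ IsContFun c ∧
    (∀ g ∈ A.decompositionSubgroup ℚ, c g 1 0 = 0) ∧
    (∀ σ ∈ A.inertiaSubgroupIn ℚ, c σ 0 0 = 0) ∧
    ∀ lam : k →+ ZMod p, R.Lev (zet p) (p - 1) (fun g => lam (c g 0 1))}
  zero_mem' := ⟨(adCoc r).zero_mem, ⟨⊥, inferInstance, fun _ _ => rfl⟩, fun _ _ => rfl,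
    fun _ _ => rfl, fun lam => (TameRoot.lev_zero (R := R) (ζ := zet p) (p - 1)).congr
      fun σ _ => (map_zero lam).symm⟩
  add_mem' {a b} := by
    rintro ⟨a1, ⟨L, hL, a2⟩, a3, a4, a5⟩ ⟨b1, ⟨L', hL', b2⟩, b3, b4, b5⟩
    refine ⟨(adCoc r).add_mem a1 b1,
      ⟨L ⊔ L', IntermediateField.finiteDimensional_sup L L', fun σ hσ => ?_⟩,
      fun g hg => by simp [a3 g hg, b3 g hg], fun σ hσ => by simp [a4 σ hσ, b4 σ hσ],
      fun lam => ((a5 lam).add (zet_spec p) (b5 lam)).congr fun σ _ => (map_add lam _ _).symm⟩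
    rw [IntermediateField.fixingSubgroup_sup] at hσ
    simp [a2 σ hσ.1, b2 σ hσ.2]
  smul_mem' t a := by
    rintro ⟨a1, ⟨L, hL, a2⟩, a3, a4, a5⟩
    exact ⟨(adCoc r).smul_mem t a1, ⟨L, hL, fun σ hσ => by simp [a2 σ hσ]⟩,
      fun g hg => by simp [a3 g hg], fun σ hσ => by simp [a4 σ hσ],
      fun lam => a5 (lam.comp (AddMonoidHom.mulLeft t))⟩

/-- The line containing the corners. -/
abbrev line (σ₀ F : GQ) : Submodule k (GQ → k) :=
  HomSpace.space R (zet p) σ₀ F (chiQ p σ₀ : ZMod p) (chiQ p F : ZMod p) 1 (p - 1) (1 : k)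
    ((chiK k p F : k) / hr.ratio F) (zet_spec p)

include hK hp2 hσ₀ hprim hprimπ hF hFπ

omit hK hp2 hprimπ hprim hFπ [Finite k] in
lemma onH_mem_line {c : GQ → M22 k} (h : c ∈ hr.normal R)
    (hb : (∀ g ∈ R.H, r g 0 1 = 0) ∨ c F 0 0 = 0) :
    onH R.H (fun g => c g 0 1) ∈ hr.line R σ₀ F := by
  obtain ⟨hc, hcont, h10, h00, hlev⟩ := h
  have hFD := hF.mem_decompositionSubgroup
  have hσD := inertia_le_decomposition hσ₀
  refine ⟨fun g hg => onH_not_mem _ hg, fun g hg h hh => ?_,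
    (hcont.comp (fun M => M 0 1) rfl).onH R.H, fun lam => ?_, fun h hh => ?_, fun h hh => ?_⟩
  · rw [onH_mem _ (mul_mem hg hh), onH_mem _ hg, onH_mem _ hh, hr.corner_add R hc h10 h00 hg hh]
  · refine (hlev lam).congr fun σ hσ => ?_
    show lam (c σ 0 1) = lam (onH R.H (fun g => c g 0 1) σ)
    rw [onH_mem _ hσ]
  · rw [onH_mem _ (R.conj_mem_H hσD hh), onH_mem _ hh, one_mul, ← coe_chiK,
      ← hr.ratio_inertia hσ₀]
    exact hr.corner_conj R hc h10 h00 hσD hh (by rw [h00 σ₀ hσ₀, mul_zero])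
  · simp only [pow_one]
    rw [onH_mem _ (R.conj_mem_H hFD hh), onH_mem _ hh, ← coe_chiK]
    have e : hr.ratio F ≠ 0 :=
      div_ne_zero (hr.diag_ne_zero hFD).1 (hr.diag_ne_zero hFD).2
    rw [← hr.corner_conj R hc h10 h00 hFD hh (by
      rcases hb with hb | hb
      · rw [hb h hh, zero_mul]
      · rw [hb, mul_zero]), div_mul_eq_mul_div, ← mul_assoc, mul_right_comm,
      mul_div_assoc, div_self e, mul_one]

omit [Finite k] hK hprimπ hFπ in
/-- The ratio at the generator and its conjugates is not one. -/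
lemma ratio_ne_one : hr.ratio σ₀ ≠ 1 ∧ hr.ratio (F * σ₀ * F⁻¹) ≠ 1 := by
  have hc := conj_mem_inertiaSubgroupIn_of_mem hp.out R.lies hσ₀ hF.mem_decompositionSubgroup
  rw [hr.ratio_inertia hσ₀, hr.ratio_inertia hc, chiK_conj]
  exact ⟨chiK_ne_one R hσ₀ hp2 hprim, chiK_ne_one R hσ₀ hp2 hprim⟩

omit [Finite k] hK hp2 hσ₀ hprimπ hprim hF hFπ in
lemma ratio_level : ∃ L : IntermediateField ℚ Qbar, FiniteDimensional ℚ L ∧
    ∀ σ ∈ L.fixingSubgroup, r σ = 1 ∧ hr.ratio σ = 1 := by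
  obtain ⟨L, hL, h⟩ := hr.cont
  exact ⟨L, hL, fun σ hσ => ⟨h σ hσ, by simp [ratio, h σ hσ]⟩⟩

omit [Finite k] hK hFπ in
/-- Normal cocycles determined by the diagonal at Frobenius and the corner on `H`. -/
lemma mem_locCob_of_zero {c : GQ → M22 k} (h : c ∈ hr.normal R) (hF0 : c F 0 0 = 0)
    (hH0 : ∀ g ∈ R.H, c g 0 1 = 0) : c ∈ locCob r (A.decompositionSubgroup ℚ) := by
  obtain ⟨hc, hcont, h10, h00, -⟩ := h
  obtain ⟨L, hL, hLc⟩ := hcont
  obtain ⟨L', hL', hLr⟩ := hr.ratio_level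
  have hdiag : ∀ g ∈ A.decompositionSubgroup ℚ, c g 0 0 = 0 := fun g hg =>
    vanish_decomposition R.lies hF (fun g => c g 0 0) (fun _ => AddMonoidHom.id k)
      (fun g hg h hh => hr.coc_diag hc h10 hg hh) L
      (fun σ hσ _ => by rw [hLc σ hσ]; rfl) h00 hF0 hg
  obtain ⟨hν₀, hνc⟩ := hr.ratio_ne_one R hp2 hσ₀ hprim hF
  have := IntermediateField.finiteDimensional_sup L L'
  obtain ⟨t, ht⟩ := twisted_line R hσ₀ hprimπ hF (ν := hr.ratio) (f := fun g => c g 0 1)
    (fun g hg h hh => hr.ratio_mul hg hh) hν₀ hνc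
    (fun g hg h hh => hr.coc_corner hc h10 hg hh (hdiag h hh))
    ⟨L ⊔ L', inferInstance, fun σ hσ _ => by
      rw [IntermediateField.fixingSubgroup_sup] at hσ
      exact ⟨by rw [hLc σ hσ.1]; rfl, (hLr σ hσ.2).2⟩⟩
    fun g hg => ⟨hH0 g hg, hr.ratio_H R hg⟩
  refine ⟨!![0, t; 0, 0], fun g hg => ?_⟩
  obtain ⟨-, h2⟩ := hr.conj_entries hg (!![0, t; 0, 0] : M22 k)
  obtain ⟨e10, e00, e01⟩ := h2 rfl
  simp only [Matrix.of_apply, Matrix.cons_val', Matrix.cons_val_zero, Matrix.cons_val_one,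
    Matrix.empty_val', Matrix.cons_val_fin_one, sub_self, mul_zero, add_zero] at e00 e01
  have htr : (r g * !![0, t; 0, 0] * r g⁻¹).trace = 0 := by
    rw [Selmer.trace_rep_conj]; simp [Matrix.trace_fin_two]
  have e11 := add_neg_of_trace htr
  have hc01 : c g 0 1 = t * (hr.ratio g - 1) := ht g hg
  have e01' : (r g * !![0, t; 0, 0] * r g⁻¹) 0 1 = hr.ratio g * t := by
    rw [ratio, div_mul_eq_mul_div, ← e01, mul_div_cancel_right₀ _ (hr.diag_ne_zero hg).2]
  ext i j
  fin_cases i <;> fin_cases j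
  · simp [hdiag g hg, e00]
  · simp [hc01, e01']; ring
  · simp [h10 g hg, e10]
  · simp [add_neg_of_trace (hc.2 g), hdiag g hg, e11, e00]

omit hK hFπ [Finite k] in
/-- A representation split on `H` has nonzero invariants. -/
private lemma locFix_pos_of_split
    [Module.Finite k (locFix r (A.decompositionSubgroup ℚ))] (hb : ∀ g ∈ R.H, r g 0 1 = 0) :
    0 < Module.finrank k (locFix r (A.decompositionSubgroup ℚ)) := by
  set D := A.decompositionSubgroup ℚ
  obtain ⟨L', hL', hLr⟩ := hr.ratio_level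
  obtain ⟨hν₀, hνc⟩ := hr.ratio_ne_one R hp2 hσ₀ hprim hF
  obtain ⟨t, ht⟩ := twisted_line R hσ₀ hprimπ hF (ν := hr.ratio)
    (f := fun g => r g 0 1 / r g 1 1) (fun g hg h hh => hr.ratio_mul hg hh) hν₀ hνc
    (fun g hg h hh => by
      obtain ⟨-, e1, e2⟩ := hr.diag_mul hg hh
      have h1 := (hr.diag_ne_zero hg).2
      have h2 := (hr.diag_ne_zero hh).2
      rw [e1, e2, ratio]
      field_simp
      ring)
    ⟨L', hL', fun σ hσ _ => ⟨by simp [(hLr σ hσ).1], (hLr σ hσ).2⟩⟩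
    fun g hg => ⟨by rw [hb g hg, zero_div], hr.ratio_H R hg⟩
  have hX : (!![1, 2 * t; 0, -1] : M22 k) ∈ locFix r D := by
    refine ⟨by simp [Matrix.trace_fin_two], fun g hg => ?_⟩
    have h1 := (hr.diag_ne_zero hg).2
    have e : r g * !![1, 2 * t; 0, -1] = !![1, 2 * t; 0, -1] * r g := by
      have e1 := ht g hg
      rw [ratio, div_eq_iff h1, mul_assoc, sub_one_mul, div_mul_cancel₀ _ h1] at e1
      ext i j
      fin_cases i <;> fin_cases j <;>
        simp [Matrix.mul_apply, Fin.sum_univ_two, hr.lower g hg]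
      linear_combination (-2) * e1
    rw [e, mul_assoc, rep_mul_inv, mul_one]
  exact Module.finrank_pos_iff_exists_ne_zero.mpr ⟨⟨_, hX⟩, fun h0 => by
      simpa using congrFun (congrFun (congrArg Subtype.val h0) 0) 0⟩

omit hp2 hprimπ hFπ in
/-- The coboundary of `diag (1, -1)` is normal and has no diagonal at Frobenius. -/
private lemma diag_cobf_mem_normal :
    cobf r (!![1, 0; 0, -1] : M22 k) ∈ hr.normal R ∧
      cobf r (!![1, 0; 0, -1] : M22 k) F 0 0 = 0 := by
  set D := A.decompositionSubgroup ℚ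
  set T : M22 k := !![1, 0; 0, -1]
  have h10 : ∀ g ∈ D, cobf r T g 1 0 = 0 ∧ cobf r T g 0 0 = 0 := fun g hg => by
    obtain ⟨e10, e00, -⟩ := (hr.conj_entries hg T).2 (by simp [T])
    constructor
    · show (r g * T * r g⁻¹) 1 0 - T 1 0 = 0
      rw [e10]; simp [T]
    · show (r g * T * r g⁻¹) 0 0 - T 0 0 = 0
      rw [e00, sub_self]
  have hT : cobf r T ∈ hr.normal R := by
    have hc := cobf_mem r T
    have hct : IsContFun (cobf r T) := by
      simpa using IsContFun.add_cob (c := (0 : GQ → M22 k)) ⟨⊥, inferInstance, fun _ _ => rfl⟩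
        hr.cont T
    obtain ⟨Z⟩ : IsFlatCoc A r (cobf r T) := by simpa using hr.flat.add_cob T
    exact ⟨hc, hct, fun g hg => (h10 g hg).1,
      fun σ hσ => (h10 σ (inertia_le_decomposition hσ)).2, fun lam =>
        hr.corner_lev R hK hσ₀ hprim hc (fun g hg => (h10 g hg).1)
          (fun σ hσ => (h10 σ (inertia_le_decomposition hσ)).2) hct Z lam⟩
  exact ⟨hT, (h10 F hF.mem_decompositionSubgroup).2⟩

omit [Finite k] hK hσ₀ hprimπ hprim hF hFπ in
/-- The corner of the coboundary of `diag (1, -1)` is nonzero on `H` where the representation is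
nonsplit. -/
private lemma diag_cobf_corner_ne_zero {g₁ : GQ} (hg₁ : g₁ ∈ R.H) (hb₁ : r g₁ 0 1 ≠ 0) :
    onH R.H (fun g => cobf r (!![1, 0; 0, -1] : M22 k) g 0 1) ≠ 0 := fun h0 => by
  set T : M22 k := !![1, 0; 0, -1]
  have h2 : (2 : k) ≠ 0 := fun h0 => hp2 ((Nat.prime_dvd_prime_iff_eq hp.out Nat.prime_two).mp
    ((CharP.cast_eq_zero_iff k p 2).mp (by exact_mod_cast h0)))
  have h1 := congrFun h0 g₁
  change onH R.H (fun g => cobf r T g 0 1) g₁ = 0 at h1
  rw [onH_mem _ hg₁] at h1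
  have hI := (mem_rootFix.mp hg₁).1
  obtain ⟨-, -, e01⟩ := (hr.conj_entries (inertia_le_decomposition hI) T).2 (by simp [T])
  rw [hr.unr g₁ hI, mul_one] at e01
  change (r g₁ * T * r g₁⁻¹) 0 1 - T 0 1 = 0 at h1
  rw [e01] at h1
  simp [T] at h1
  rcases h1 with h | h
  · exact hb₁ h
  · exact h2 (by linear_combination -h)

omit hprimπ hF hFπ in
/-- Flat cocycles are normal up to coboundaries. -/
private lemma span_flat_le_normal_sup :
    Submodule.span k {c | c ∈ adCoc r ∧ IsContFun c ∧ IsFlatCoc A r c} ≤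
      hr.normal R ⊔ locCob r (A.decompositionSubgroup ℚ) := by
  set D := A.decompositionSubgroup ℚ
  refine Submodule.span_le.mpr ?_
  rintro c ⟨hc, hcont, hflat⟩
  obtain ⟨e, he10, he00⟩ := hr.exists_shape R hp2 hσ₀ hprim hc hflat
  obtain ⟨Z⟩ := hflat.add_cob e
  have hc' := (adCoc r).add_mem hc (cobf_mem r e)
  have hct := hcont.add_cob hr.cont e
  have hn : c + cobf r e ∈ hr.normal R := ⟨hc', hct, he10, he00,
    fun lam => hr.corner_lev R hK hσ₀ hprim hc' he10 he00 hct Z lam⟩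
  rw [SetLike.mem_coe, show c = (c + cobf r e) + -cobf r e by rw [add_neg_cancel_right]]
  exact Submodule.add_mem_sup hn ((locCob r D).neg_mem (cobf_mem_locCob e D))

/-- **The bound for ordinary representations.** -/
theorem finrank_le (V : Submodule k (GQ → M22 k)) [Module.Finite k V]
    (hgen : V ≤ Submodule.span k {c | c ∈ adCoc r ∧ IsContFun c ∧ IsFlatCoc A r c}) :
    Module.finrank k V ≤
      Module.finrank k (V ⊓ locCob r (A.decompositionSubgroup ℚ) :
        Submodule k (GQ → M22 k)) +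
      Module.finrank k (locFix r (A.decompositionSubgroup ℚ)) + 1 := by
  set D := A.decompositionSubgroup ℚ
  have hV := hgen.trans (hr.span_flat_le_normal_sup R hK hp2 hσ₀ hprim)
  have : Fact (1 < p) := ⟨hp.out.one_lt⟩
  have := ECLocal.residueChar A R.lies
  let : Algebra (ZMod p) k := ZMod.algebra k p
  let : Algebra (ZMod p) (IsLocalRing.ResidueField A) :=
    ZMod.algebra (IsLocalRing.ResidueField A) p
  have hcard : Nat.card (ZMod p)⟮(1 : k)⟯ = p ^ 1 := by
    rw [pow_one, IntermediateField.adjoin_one]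
    exact (Nat.card_congr (IntermediateField.botEquiv (ZMod p) k).toEquiv).trans (Nat.card_zmod p)
  obtain ⟨hfinT, hdimT⟩ := HomSpace.finrank_space_le_one (R := R) (σ₀ := σ₀) (F := F)
    (a₀ := (chiQ p σ₀ : ZMod p)) (aF := (chiQ p F : ZMod p)) (l := 1) (j := p - 1) (μ := (1 : k))
    (u := (chiK k p F : k) / hr.ratio F) (zet_spec p) hσ₀ (apply_zet_zp σ₀) hF hFπ (apply_zet_zp F)
    one_pos (by have := hp.out.two_le; omega)
    (fun hd => by have := Nat.le_of_dvd (by have := hp.out.two_le; omega) hd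
                  have := hp.out.two_le; omega)
    (by rw [hK, mul_one]; have := hp.out.two_le; omega) hcard
    fun i hi hi' => by rw [hK, mul_one] at hi'; omega
  have := hfinT
  let φ₀ : hr.normal R →ₗ[k] k :=
    { toFun := fun c => (c : GQ → M22 k) F 0 0
      map_add' := fun _ _ => rfl
      map_smul' := fun _ _ => rfl }
  by_cases hb : ∀ g ∈ R.H, r g 0 1 = 0
  · -- the representation is split on `H`
    let φ₁ : hr.normal R →ₗ[k] hr.line R σ₀ F :=
      { toFun := fun c => ⟨onH R.H (fun g => (c : GQ → M22 k) g 0 1),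
          hr.onH_mem_line R hσ₀ hF c.2 (Or.inl hb)⟩
        map_add' := fun a b => Subtype.ext (funext fun g => by
          simp only [onH, Submodule.coe_add, Pi.add_apply, Matrix.add_apply]
          split_ifs <;> simp)
        map_smul' := fun t a => Subtype.ext (funext fun g => by
          simp only [onH, RingHom.id_apply, Submodule.coe_smul, Pi.smul_apply, Matrix.smul_apply,
            smul_eq_mul]
          split_ifs <;> simp) }
    have hd : Module.finrank k (hr.line R σ₀ F) ≤ 1 := hdimT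
    have hn : Module.finrank k (LinearMap.range (φ₀.prod φ₁)) ≤ 2 := by
      refine (Submodule.finrank_le _).trans ?_
      rw [Module.finrank_prod, Module.finrank_self]
      omega
    have hbound := finrank_le_of_shape V (locCob r D) (hr.normal R) (φ₀.prod φ₁) 2 hn
      (fun x hx => by
        refine hr.mem_locCob_of_zero R hp2 hσ₀ hprimπ hprim hF x.2
          (congrArg Prod.fst hx) fun g hg => ?_
        have h1 := congrFun (congrArg Subtype.val (congrArg Prod.snd hx)) g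
        exact (onH_mem (fun g => (x : GQ → M22 k) g 0 1) hg).symm.trans h1) hV
    have hfix : 0 < Module.finrank k (locFix r D) :=
      hr.locFix_pos_of_split R hp2 hσ₀ hprimπ hprim hF hb
    omega
  · -- the extension spans the line
    push Not at hb
    obtain ⟨g₁, hg₁, hb₁⟩ := hb
    set T : M22 k := !![1, 0; 0, -1]
    obtain ⟨hT, hTF⟩ := hr.diag_cobf_mem_normal R hK hσ₀ hprim hF
    have hTm := hr.onH_mem_line R hσ₀ hF hT (Or.inr hTF)
    have hT0 : (⟨_, hTm⟩ : hr.line R σ₀ F) ≠ 0 := fun h0 =>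
      hr.diag_cobf_corner_ne_zero R hp2 hg₁ hb₁ (congrArg Subtype.val h0)
    have hbound := finrank_le_of_shape V (locCob r D) (hr.normal R) φ₀ 1
      ((Submodule.finrank_le _).trans (Module.finrank_self k).le) (fun x hx => by
        have hm := hr.onH_mem_line R hσ₀ hF x.2 (Or.inr hx)
        obtain ⟨t, ht⟩ := (finrank_le_one_iff.mp hdimT)
        obtain ⟨a, ha⟩ := ht ⟨_, hTm⟩
        obtain ⟨b, hb⟩ := ht ⟨_, hm⟩
        have ha0 : a ≠ 0 := fun h0 => hT0 (by rw [← ha, h0, zero_smul])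
        set y := (x : GQ → M22 k) - (b / a) • cobf r T
        have hy : y ∈ locCob r D := by
          refine hr.mem_locCob_of_zero R hp2 hσ₀ hprimπ hprim hF
            ((hr.normal R).sub_mem x.2 ((hr.normal R).smul_mem _ hT)) ?_ fun g hg => ?_
          · show (x : GQ → M22 k) F 0 0 - b / a * cobf r T F 0 0 = 0
            rw [show (x : GQ → M22 k) F 0 0 = 0 from hx, hTF, mul_zero, sub_zero]
          · show (x : GQ → M22 k) g 0 1 - b / a * cobf r T g 0 1 = 0
            have ea := congrFun (congrArg Subtype.val ha) g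
            have eb := congrFun (congrArg Subtype.val hb) g
            simp only [SetLike.val_smul, Pi.smul_apply, smul_eq_mul, onH_mem _ hg] at ea eb
            rw [← ea, ← eb, ← mul_assoc, div_mul_cancel₀ _ ha0, sub_self]
        have e : (x : GQ → M22 k) = y + (b / a) • cobf r T := (sub_add_cancel _ _).symm
        rw [e]
        exact add_mem hy ((locCob r D).smul_mem _ (cobf_mem_locCob T D))) hV
    omega

end OrdShape

end FermatAgent.CFT.FlatBound

end
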