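import Mathlib

/-!
# Counting semilinear functionals

An additive map from a finite field `k` to a field, turning multiplication by `μ` into
multiplication by a scalar and multiplication by `u` into the `q`-th power, `q` being the order
of the field generated by `μ`, is one of at most `|k|` maps.
-/

set_option autoImplicit false

noncomputable section

open scoped Classical
open Polynomial IntermediateField

namespace FermatAgent.CFT.FlatBound

variable {p : ℕ} [hp : Fact p.Prime] {k : Type} [Field k] [Finite k] [CharP k p]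
  {Fb : Type*} [Field Fb] [CharP Fb p]

/-- Semilinear additive maps. -/
def semiMaps (q : ℕ) (μ u : k) (c : Fb) : Set (k →+ Fb) :=
  {Θ | (∀ y, Θ (μ * y) = c * Θ y) ∧ ∀ y, Θ (u * y) = Θ y ^ q}

omit [CharP k p] in
/-- **The count of semilinear maps.** -/
theorem finite_semiMaps [Algebra (ZMod p) k] (q : ℕ) (μ u : k) (c : Fb) (hq : 1 < q)
    (hcard : Nat.card (ZMod p)⟮μ⟯ = q) :
    (semiMaps q μ u c).Finite ∧ Nat.card (semiMaps q μ u c) ≤ Nat.card k := by
  let : Algebra (ZMod p) Fb := ZMod.algebra Fb p
  have : Finite (ZMod p) := inferInstance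
  have : FiniteDimensional (ZMod p) k := Module.Finite.of_finite
  set E := (ZMod p)⟮μ⟯
  have hint : IsIntegral (ZMod p) μ := IsIntegral.of_finite _ _
  have hpoly : ∀ e : E, ∃ f : (ZMod p)[X], aeval μ f = (e : k) := fun e => by
    have h : (e : k) ∈ (ZMod p)⟮μ⟯.toSubalgebra := e.2
    rw [IntermediateField.adjoin_simple_toSubalgebra_of_isAlgebraic hint.isAlgebraic,
      Algebra.adjoin_singleton_eq_range_aeval] at h
    exact h
  choose f hf using hpoly
  let ι : E → Fb := fun e => aeval c (f e)
  have hcast : ∀ (Θ : k →+ Fb) (a : ZMod p) (y : k), Θ (algebraMap _ k a * y) =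
      algebraMap _ Fb a * Θ y := fun Θ a y => by
    rw [← ZMod.natCast_zmod_val a, map_natCast, map_natCast, ← nsmul_eq_mul, map_nsmul,
      nsmul_eq_mul]
  have hμ : ∀ Θ ∈ semiMaps q μ u c, ∀ (g : (ZMod p)[X]) (y : k),
      Θ (aeval μ g * y) = aeval c g * Θ y := by
    intro Θ hΘ g
    induction g using Polynomial.induction_on with
    | C a => intro y; rw [aeval_C, aeval_C, hcast]
    | add g g' hg hg' => intro y; rw [map_add, map_add, add_mul, add_mul, map_add, hg, hg']
    | monomial n a ih =>
      intro y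
      rw [show C a * X ^ (n + 1) = C a * X ^ n * X by ring, map_mul (aeval μ) _ X,
        map_mul (aeval c) _ X, aeval_X, aeval_X, mul_assoc, ih, hΘ.1, mul_assoc]
  have hu : ∀ Θ ∈ semiMaps q μ u c, ∀ (i : ℕ) (y : k), Θ (u ^ i * y) = Θ y ^ q ^ i := by
    intro Θ hΘ i
    induction i with
    | zero => intro y; rw [pow_zero, one_mul, pow_zero, pow_one]
    | succ i ih => intro y; rw [pow_succ, mul_assoc, ih, hΘ.2, ← pow_mul, ← pow_succ']
  have huE : IsIntegral E u := IsIntegral.of_finite _ _
  set K := E⟮u⟯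
  let pb := IntermediateField.adjoin.powerBasis huE
  have : FiniteDimensional K k := Module.Finite.of_finite
  let bK := Module.finBasis K k
  set d := pb.dim
  set m := Module.finrank K k
  let a : Fin d → E := fun i => (minpoly E u).coeff i
  let Q : Fb[X] := X ^ q ^ d + ∑ i : Fin d, C (ι (a i)) * X ^ q ^ (i : ℕ)
  have hQd : Q.Monic ∧ Q.natDegree = q ^ d := by
    have hlt : (∑ i : Fin d, C (ι (a i)) * X ^ q ^ (i : ℕ)).degree < ((q ^ d : ℕ) : WithBot ℕ) := by
      refine (degree_sum_le _ _).trans_lt
        ((Finset.sup_lt_iff (WithBot.bot_lt_coe _)).mpr fun i _ => ?_)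
      exact (degree_C_mul_X_pow_le _ _).trans_lt
        (WithBot.coe_lt_coe.mpr (Nat.pow_lt_pow_right hq i.2))
    refine ⟨monic_X_pow_add hlt, natDegree_eq_of_degree_eq_some ?_⟩
    show (X ^ q ^ d + _).degree = _
    rw [degree_add_eq_left_of_degree_lt (by rwa [degree_X_pow]), degree_X_pow]
  have hroot : ∀ Θ ∈ semiMaps q μ u c, ∀ y : k, Θ y ∈ Q.roots.toFinset := fun Θ hΘ y => by
    rw [Multiset.mem_toFinset, mem_roots hQd.1.ne_zero, IsRoot, eval_add, eval_pow, eval_X,
      eval_finsetSum]
    simp only [eval_mul, eval_C, eval_pow, eval_X]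
    have hmin := minpoly.aeval E u
    rw [aeval_eq_sum_range, show (minpoly E u).natDegree = d from
      (IntermediateField.adjoin.powerBasis_dim huE).symm, Finset.sum_range_succ,
      show (minpoly E u).coeff d = 1 by
        rw [show d = (minpoly E u).natDegree from IntermediateField.adjoin.powerBasis_dim huE]
        exact (minpoly.monic huE).coeff_natDegree,
      one_smul, Finset.sum_range (fun i => (minpoly E u).coeff i • u ^ i)] at hmin
    have h := congrArg (fun z => Θ (z * y)) hmin
    simp only [zero_mul, map_zero, add_mul, map_add, Finset.sum_mul, map_sum] at h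
    rw [hu Θ hΘ] at h
    rw [← h, add_comm]
    congr 1
    refine Finset.sum_congr rfl fun i _ => ?_
    rw [Algebra.smul_def, mul_assoc, show algebraMap E k ((minpoly E u).coeff i) =
      ((a i : E) : k) from rfl, ← hf, hμ Θ hΘ, hu Θ hΘ]
  let Ψ : semiMaps q μ u c → (Fin m → Q.roots.toFinset) := fun Θ l =>
    ⟨Θ.1 (bK l), hroot Θ.1 Θ.2 _⟩
  have hinj : Function.Injective Ψ := fun Θ Θ' h => by
    refine Subtype.ext (AddMonoidHom.ext fun y => ?_)
    have hb : ∀ l, Θ.1 (bK l) = Θ'.1 (bK l) := fun l => congrArg Subtype.val (congrFun h l)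
    rw [← bK.sum_repr y, map_sum, map_sum]
    refine Finset.sum_congr rfl fun l _ => ?_
    rw [← pb.basis.sum_repr (bK.repr y l), Finset.sum_smul, map_sum, map_sum]
    refine Finset.sum_congr rfl fun i _ => ?_
    rw [pb.coe_basis, IntermediateField.adjoin.powerBasis_gen, Algebra.smul_def,
      show algebraMap K k (pb.basis.repr (bK.repr y l) i • (AdjoinSimple.gen E u) ^ (i : ℕ)) =
        ((pb.basis.repr (bK.repr y l) i : E) : k) * u ^ (i : ℕ) by
          rw [Algebra.smul_def, map_mul, map_pow]; rfl,
      mul_assoc, ← hf, hμ _ Θ.2, hμ _ Θ'.2, hu _ Θ.2, hu _ Θ'.2, hb]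
  have : Finite (semiMaps q μ u c) := Finite.of_injective Ψ hinj
  refine ⟨Set.toFinite _, (Nat.card_le_card_of_injective Ψ hinj).trans ?_⟩
  rw [Nat.card_fun, Nat.card_fin, Module.natCard_eq_pow_finrank (K := K) (V := k)]
  refine Nat.pow_le_pow_left ?_ _
  rw [Nat.card_eq_fintype_card, Fintype.card_coe, Module.natCard_eq_pow_finrank (K := E) (V := K),
    hcard, pb.finrank]
  exact (Multiset.toFinset_card_le _).trans ((card_roots' Q).trans hQd.2.le)

end FermatAgent.CFT.FlatBound

end
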