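import Fermat.Agent.CFT.SelmerP.Place
import Mathlib.GroupTheory.FiniteAbelian.Duality

/-!
# The tame quotient of inertia at `p`

The inertia elements acting trivially on the graded pieces of every valued field have images of
`p`-power order; modulo them inertia is abelian and Frobenius acts by `p`-th powers.
-/

set_option autoImplicit false

noncomputable section

open scoped Classical

namespace FermatAgent.CFT.FlatBound

open GaloisBasic Mazur SelmerP
open ECLocal (valuation_natCast_ne_zero)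

variable {A : ValuationSubring Qbar} {p : ℕ} [hp : Fact p.Prime] (hA : A.LiesOverPrime p)

/-- The residual ratio of a conjugate. -/
def tw1 (A : ValuationSubring Qbar) (σ : GQ) (x : Qbar) : IsLocalRing.ResidueField A :=
  red A (σ x / x)

/-- The element fixes every graded piece. -/
def IsWild (A : ValuationSubring Qbar) (σ : GQ) : Prop :=
  σ ∈ A.inertiaSubgroupIn ℚ ∧ ∀ x : Qbar, x ≠ 0 → tw1 A σ x = 1

omit hp in
lemma ratio_mem {σ : GQ} (hσ : σ ∈ A.decompositionSubgroup ℚ) (x : Qbar) : σ x / x ∈ A := by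
  rcases eq_or_ne x 0 with rfl | hx
  · simp
  exact mem_of_val (by rw [map_div₀, val_map hσ, div_self (by simpa using hx)])

omit hp in
/-- The tame twist at one is one. -/
lemma tw1_one {x : Qbar} (hx : x ≠ 0) : tw1 A 1 x = 1 := by
  rw [tw1, AlgEquiv.one_apply, div_self hx, red_one]

include hA

lemma tw1_mul_left {σ : GQ} (hσ : σ ∈ A.inertiaSubgroupIn ℚ) {x y : Qbar}
    (hx : A.valuation x = A.valuation y)
    (hy : y ≠ 0) : tw1 A σ x = tw1 A σ y := by
  have hD := inertia_le_decomposition hσ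
  have hx0 : x ≠ 0 := fun h => hy (by rw [h, map_zero, eq_comm, map_eq_zero] at hx; exact hx)
  have hu : A.valuation (x / y) = 1 := by rw [map_div₀, hx, div_self (by simpa using hy)]
  have huA := mem_of_val hu.le
  have hu1 : red A (σ (x / y) / (x / y)) = 1 := by
    have h1 : red A (σ (x / y)) = red A (x / y) := red_inertia hA hσ huA
    have h0 : red A (x / y) ≠ 0 := by
      rw [ne_eq, red_eq_zero_iff huA, hu]; exact lt_irrefl 1
    have h2 := red_mul (ratio_mem hD (x / y)) huA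
    rw [div_mul_cancel₀ _ (div_ne_zero hx0 hy), h1] at h2
    exact mul_right_cancel₀ h0 (h2.symm.trans (one_mul _).symm)
  rw [tw1, tw1, show σ x / x = (σ (x / y) / (x / y)) * (σ y / y) by
    have : σ y ≠ 0 := by simpa using hy
    rw [map_div₀]; field_simp, red_mul (ratio_mem hD _) (ratio_mem hD _), hu1, one_mul]

/-- The tame twist is multiplicative on inertia. -/
lemma tw1_mul {σ τ : GQ} (hσ : σ ∈ A.inertiaSubgroupIn ℚ) (hτ : τ ∈ A.inertiaSubgroupIn ℚ)
    {x : Qbar} (hx : x ≠ 0) : tw1 A (σ * τ) x = tw1 A σ x * tw1 A τ x := by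
  have hτD := inertia_le_decomposition hτ
  have hσD := inertia_le_decomposition hσ
  have h0 : τ x ≠ 0 := by simpa using hx
  rw [← tw1_mul_left hA hσ (val_map hτD x) hx, tw1, tw1, tw1,
    ← red_mul (ratio_mem hσD _) (ratio_mem hτD _), AlgEquiv.mul_apply]
  congr 1
  field_simp

lemma tw1_pow {σ : GQ} (hσ : σ ∈ A.inertiaSubgroupIn ℚ) {x : Qbar} (hx : x ≠ 0) (n : ℕ) :
    tw1 A (σ ^ n) x = tw1 A σ x ^ n := by
  induction n with
  | zero => rw [pow_zero, pow_zero, tw1_one hx]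
  | succ n ih => rw [pow_succ, tw1_mul hA (pow_mem hσ n) hσ hx, ih, pow_succ]

lemma tw1_frobenius {σ F : GQ} (hσ : σ ∈ A.inertiaSubgroupIn ℚ) (hF : A.IsFrobeniusAt F p)
    {x : Qbar} (hx : x ≠ 0) : tw1 A (F * σ * F⁻¹) x = tw1 A σ x ^ p := by
  have hFD := hF.mem_decompositionSubgroup
  have hy : F⁻¹ x ≠ 0 := by simpa using hx
  have e : (F * σ * F⁻¹) x / x = F (σ (F⁻¹ x) / F⁻¹ x) := by
    rw [map_div₀, show F (F⁻¹ x) = x from F.apply_symm_apply x, AlgEquiv.mul_apply,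
      AlgEquiv.mul_apply]
  rw [tw1, e, red_frobenius hA hF (ratio_mem (inertia_le_decomposition hσ) _), ← tw1,
    tw1_mul_left hA hσ (val_map (inv_mem hFD) x) hx]

/-- Frobenius raises inertia to the `p`-th power modulo wild elements. -/
theorem isWild_frobenius {σ F : GQ} (hσ : σ ∈ A.inertiaSubgroupIn ℚ) (hF : A.IsFrobeniusAt F p) :
    IsWild A (F * σ * F⁻¹ * (σ ^ p)⁻¹) := by
  have hc := conj_mem_inertiaSubgroupIn_of_mem hp.out hA hσ hF.mem_decompositionSubgroup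
  have hp' := inv_mem (pow_mem hσ p)
  refine ⟨mul_mem hc hp', fun x hx => ?_⟩
  have h1 := tw1_mul hA (pow_mem hσ p) hp' hx
  rw [mul_inv_cancel, tw1_one hx, tw1_pow hA hσ hx] at h1
  rw [tw1_mul hA hc hp' hx, tw1_frobenius hA hσ hF hx, ← h1]

/-- Commutators of inertia are wild. -/
theorem isWild_commutator {σ τ : GQ} (hσ : σ ∈ A.inertiaSubgroupIn ℚ)
    (hτ : τ ∈ A.inertiaSubgroupIn ℚ) : IsWild A (σ * τ * σ⁻¹ * τ⁻¹) := by
  refine ⟨mul_mem (mul_mem (mul_mem hσ hτ) (inv_mem hσ)) (inv_mem hτ), fun x hx => ?_⟩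
  have h1 := tw1_mul hA hσ (inv_mem hσ) hx
  have h2 := tw1_mul hA hτ (inv_mem hτ) hx
  rw [mul_inv_cancel, tw1_one hx] at h1 h2
  rw [tw1_mul hA (mul_mem (mul_mem hσ hτ) (inv_mem hσ)) (inv_mem hτ) hx,
    tw1_mul hA (mul_mem hσ hτ) (inv_mem hσ) hx, tw1_mul hA hσ hτ hx,
    mul_right_comm (tw1 A σ x), ← h1, one_mul, ← h2]

/-- Wild elements are stable under conjugation by the decomposition group. -/
theorem isWild_conj {σ g : GQ} (hσ : IsWild A σ) (hg : g ∈ A.decompositionSubgroup ℚ) :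
    IsWild A (g * σ * g⁻¹) := by
  refine ⟨conj_mem_inertiaSubgroupIn_of_mem hp.out hA hσ.1 hg, fun x hx => ?_⟩
  have hy : g⁻¹ x ≠ 0 := by simpa using hx
  have hm := ratio_mem (inertia_le_decomposition hσ.1) (g⁻¹ x)
  have h1 : A.valuation (σ (g⁻¹ x) / g⁻¹ x - 1) < 1 := by
    rw [← red_eq_red_iff hm (one_mem A), red_one]; exact hσ.2 _ hy
  have e : (g * σ * g⁻¹) x / x = g (σ (g⁻¹ x) / g⁻¹ x) := by
    rw [map_div₀, show g (g⁻¹ x) = x from g.apply_symm_apply x, AlgEquiv.mul_apply,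
      AlgEquiv.mul_apply]
  rw [tw1, e, ← red_one (A := A), red_eq_red_iff (map_mem_of_mem_decomposition hg hm) (one_mem A),
    show g (σ (g⁻¹ x) / g⁻¹ x) - 1 = g (σ (g⁻¹ x) / g⁻¹ x - 1) by rw [map_sub, map_one],
    val_map hg]
  exact h1

/-- A wild element with a power of order prime to `p` fixing a point fixes it. -/
theorem IsWild.fix_of_pow {σ : GQ} (hσ : IsWild A σ) {x : Qbar} :
    ∀ m : ℕ, ¬ p ∣ m → (σ ^ m) x = x → σ x = x := by
  intro m hm h
  by_contra hne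
  set d := σ x - x with hd
  have hd0 : d ≠ 0 := sub_ne_zero.mpr hne
  have hsum : (σ ^ m) x - x = d * ∑ i ∈ Finset.range m, (σ ^ i) d / d := by
    rw [Finset.mul_sum, Finset.sum_congr rfl fun i _ => mul_div_cancel₀ ((σ ^ i) d) hd0,
      Finset.sum_congr rfl (g := fun i => (σ ^ (i + 1)) x - (σ ^ i) x) fun i _ => by
        rw [hd, map_sub, ← AlgEquiv.mul_apply, ← pow_succ],
      Finset.sum_range_sub (fun i => (σ ^ i) x)]
    rfl
  rw [h, sub_self, eq_comm, mul_eq_zero] at hsum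
  have h1 := hsum.resolve_left hd0
  have hmem : ∀ i : ℕ, (σ ^ i) d / d ∈ A := fun i =>
    ratio_mem (inertia_le_decomposition (pow_mem hσ.1 i)) d
  have h2 := congrArg (red A) h1
  rw [red_sum _ fun i _ => hmem i, red_zero, Finset.sum_congr rfl (g := fun _ => 1) fun i _ => by
    rw [show red A ((σ ^ i) d / d) = tw1 A (σ ^ i) d from rfl, tw1_pow hA hσ.1 hd0, hσ.2 d hd0,
      one_pow], Finset.sum_const, Finset.card_range, nsmul_one] at h2
  have := ECLocal.residueChar A hA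
  exact hm ((CharP.cast_eq_zero_iff _ p m).mp h2)

omit hA in
lemma exists_field_of_open {G : Type*} [Group G] (ρ : GQ →* G) (hρ : IsOpen (ρ.ker : Set GQ)) :
    (IntermediateField.fixedField ρ.ker).fixingSubgroup = ρ.ker :=
  InfiniteGalois.fixingSubgroup_fixedField ⟨ρ.ker, Subgroup.isClosed_of_isOpen _ hρ⟩

/-- Wild elements have images of `p`-power order. -/
theorem IsWild.map_eq_one {G : Type*} [Group G] {ρ : GQ →* G} (hρ : IsOpen (ρ.ker : Set GQ))
    {σ : GQ} (hσ : IsWild A σ) {m : ℕ} (hm : ¬ p ∣ m) (h : ρ σ ^ m = 1) : ρ σ = 1 := by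
  rw [← MonoidHom.mem_ker, ← exists_field_of_open ρ hρ, IntermediateField.mem_fixingSubgroup_iff]
  intro x hx
  refine IsWild.fix_of_pow hA hσ m hm ?_
  refine (IntermediateField.mem_fixingSubgroup_iff _ _).mp ?_ x hx
  rw [exists_field_of_open ρ hρ, MonoidHom.mem_ker, map_pow, h]

/-- Wild elements have images of `p`-power order, in exponential form. -/
theorem IsWild.exists_pow_eq_one {G : Type*} [Group G] [Finite G] {ρ : GQ →* G}
    (hρ : IsOpen (ρ.ker : Set GQ)) {σ : GQ} (hσ : IsWild A σ) : ∃ a : ℕ, ρ σ ^ p ^ a = 1 := by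
  obtain ⟨a, m, hm, he⟩ :=
    Nat.exists_eq_pow_mul_and_not_dvd (orderOf_pos (ρ σ)).ne' p hp.out.ne_one
  have hw : IsWild A (σ ^ p ^ a) :=
    ⟨pow_mem hσ.1 _, fun x hx => by rw [tw1_pow hA hσ.1 hx, hσ.2 x hx, one_pow]⟩
  refine ⟨a, ?_⟩
  rw [← map_pow]
  refine IsWild.map_eq_one hA hρ hw hm ?_
  rw [map_pow, ← pow_mul, ← he, pow_orderOf_eq_one]

omit hA in
/-- An abelian character of inertia of exponent dividing the order of the root is killed by
`H`. -/
theorem eq_one_of_mem_H (R : TameRoot A p) {G : Type*} [CommGroup G] [Finite G] (χ : GQ → G)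
    (hmul : ∀ σ ∈ A.inertiaSubgroupIn ℚ, ∀ τ ∈ A.inertiaSubgroupIn ℚ, χ (σ * τ) = χ σ * χ τ)
    (U : Subgroup GQ) (hU : IsOpen (U : Set GQ))
    (hUχ : ∀ σ ∈ A.inertiaSubgroupIn ℚ, σ ∈ U → χ σ = 1)
    (hexp : ∀ σ ∈ A.inertiaSubgroupIn ℚ, χ σ ^ R.e = 1) {h : GQ} (hh : h ∈ R.H) : χ h = 1 := by
  obtain ⟨hI, hπ⟩ := mem_rootFix.mp hh
  by_contra hne
  have : NeZero R.e := ⟨R.e_pos.ne'⟩
  have : NeZero (Monoid.exponent G) := ⟨Monoid.exponent_ne_zero_of_finite⟩
  have : HasEnoughRootsOfUnity Qbar (Monoid.exponent G) := inferInstance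
  obtain ⟨φ, hφ⟩ := CommGroup.exists_apply_ne_one_of_hasEnoughRootsOfUnity G Qbar hne
  let f : GQ → Qbar := fun σ => (φ (χ σ) : Qbar)
  have hfe : ∀ σ ∈ A.inertiaSubgroupIn ℚ, f σ ^ R.e = 1 := fun σ hσ => by
    show (φ (χ σ) : Qbar) ^ R.e = 1
    rw [← Units.val_pow_eq_pow_val, ← map_pow, hexp σ hσ, map_one, Units.val_one]
  obtain ⟨a, ha0, ha⟩ := exists_eq_mul_of_cocycle (A.inertiaSubgroupIn ℚ) f
    (fun σ hσ τ hτ => by
      rw [R.inertia_fixes hσ R.not_dvd R.e_pos.ne' (hfe τ hτ)]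
      show _ = (φ (χ σ) : Qbar) * φ (χ τ)
      rw [← Units.val_mul, ← map_mul, ← hmul σ hσ τ hτ])
    (fun σ _ => Units.ne_zero _) U hU
    (fun σ hσ hk => by
      show (φ (χ σ) : Qbar) = 1
      rw [hUχ σ hσ hk, map_one, Units.val_one])
  have hae : ∀ σ ∈ A.inertiaSubgroupIn ℚ, σ (a ^ R.e) = a ^ R.e := fun σ hσ => by
    rw [map_pow, ha σ hσ, mul_pow, hfe σ hσ, one_mul]
  obtain ⟨n, hn⟩ := exists_zpow_valuation_eq hp.out R.lies (pow_ne_zero _ ha0) hae
  have hv : A.valuation (a / R.π ^ n) = 1 := by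
    refine valuation_eq_one_of_pow R.e_pos.ne' ?_
    rw [div_pow, map_div₀, hn, ← zpow_natCast (R.π ^ n), ← zpow_mul, mul_comm, zpow_mul,
      zpow_natCast, R.pow_eq, map_zpow₀,
      div_self (zpow_ne_zero _ (valuation_natCast_ne_zero hp.out))]
  have hfh : h (a / R.π ^ n) = f h * (a / R.π ^ n) := by
    rw [map_div₀, map_zpow₀, hπ, ha h hI, mul_div_assoc]
  have he : h (a / R.π ^ n) = a / R.π ^ n :=
    root_eq_of_sub_lt hp.out R.lies R.not_dvd R.e_pos.ne' hv
      (by rw [hfh, mul_pow, hfe h hI, one_mul])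
      (valuation_map_sub_lt_one hp.out R.lies hI hv.le)
  rw [hfh, mul_eq_right₀ (fun e => by rw [e, map_zero] at hv; exact zero_ne_one hv)] at he
  exact hφ (Units.ext he)

end FermatAgent.CFT.FlatBound

end
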