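import Fermat.Agent.CFT.FlatBound.Ext
import Fermat.Agent.CFT.FlatBound.HomSpace
import Fermat.Agent.CFT.FlatBound.Norm
import Fermat.Agent.CFT.FlatBound.Tame

/-!
# Local representations with cyclotomic determinant

The cyclotomic character at a tame root, cocycles on the kernel of a representation, twisted
cocycles and functionals on finite fields.
-/

set_option autoImplicit false

noncomputable section

open scoped Classical Matrix

namespace FermatAgent.CFT.FlatBound

open GaloisBasic Mazur SelmerP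
open Flat (Sys)
open Global (zet zet_spec apply_zet)
open Selmer (M22 adCoc locCob locFix chiK coe_chiK rep_mul_inv rep_inv_mul)
open Global (chiQ)

variable {k : Type} [Field k] {p : ℕ} [hp : Fact p.Prime] {A : ValuationSubring Qbar}

/-- Extension by zero from a subgroup. -/
def onH (H : Subgroup GQ) (f : GQ → k) : GQ → k := fun g => if g ∈ H then f g else 0

/-- The truncation on the subgroup. -/
lemma onH_mem {H : Subgroup GQ} (f : GQ → k) {g : GQ} (hg : g ∈ H) : onH H f g = f g := if_pos hg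

/-- The truncation vanishes outside the subgroup. -/
lemma onH_not_mem {H : Subgroup GQ} (f : GQ → k) {g : GQ} (hg : g ∉ H) : onH H f g = 0 := if_neg hg

/-- The action on `p`-th roots of unity. -/
lemma apply_zet_zp (σ : GQ) : σ (zet p) = zp (zet p) (chiQ p σ : ZMod p) := apply_zet p σ

section Cyclotomic

variable (R : TameRoot A p)

/-- The cyclotomic character is trivial on `H`. -/
lemma chiQ_H {h : GQ} (hh : h ∈ R.H) : chiQ p h = 1 := by
  refine Units.ext (zp_injective (zet_spec p) ?_)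
  rw [← apply_zet_zp, R.H_fixes_zeta hh (zet_spec p).pow_eq_one, Units.val_one]
  have : Fact (1 < p) := ⟨hp.out.one_lt⟩
  simp [zp, ZMod.val_one]

/-- The cyclotomic character is trivial on `H`. -/
lemma chiK_H [CharP k p] {h : GQ} (hh : h ∈ R.H) : (chiK k p h : k) = 1 := by
  rw [coe_chiK, chiQ_H R hh, Units.val_one, map_one]

/-- The cyclotomic character on inertia is a power of the tame character. -/
lemma kap_pow_eK [CharP (IsLocalRing.ResidueField A) p] {σ : GQ}
    (hσ : σ ∈ A.inertiaSubgroupIn ℚ) :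
    R.kap σ ^ R.eK =
      ZMod.castHom (dvd_refl p) (IsLocalRing.ResidueField A) (chiQ p σ : ZMod p) := by
  rw [TameRoot.kap, ← R.cyclo_eq (zet_spec p) hσ (apply_zet p σ),
    ← map_natCast (ZMod.castHom (dvd_refl p) (IsLocalRing.ResidueField A)), ZMod.natCast_zmod_val]

/-- The order of the cyclotomic character at a generator of tame inertia. -/
lemma chiQ_ne_one {σ : GQ} (hσ : σ ∈ A.inertiaSubgroupIn ℚ) (hp2 : p ≠ 2)
    (hprim : IsPrimitiveRoot (R.kap σ) R.e) : chiQ p σ ≠ 1 := fun h => by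
  have := ECLocal.residueChar A R.lies
  have h1 := kap_pow_eK R hσ
  rw [h, Units.val_one, map_one] at h1
  refine hprim.pow_ne_one_of_pos_of_lt R.eK_pos.ne' ?_ h1
  have := hp.out.two_le
  rw [R.e_eq]
  exact (Nat.lt_mul_iff_one_lt_right R.eK_pos).mpr (by omega)

/-- The cyclotomic character is non-trivial at a generator of inertia. -/
lemma chiK_ne_one [CharP k p] {σ : GQ} (hσ : σ ∈ A.inertiaSubgroupIn ℚ) (hp2 : p ≠ 2)
    (hprim : IsPrimitiveRoot (R.kap σ) R.e) : (chiK k p σ : k) ≠ 1 := fun h => by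
  rw [coe_chiK, ← map_one (ZMod.castHom (dvd_refl p) k)] at h
  exact chiQ_ne_one R hσ hp2 hprim (Units.ext ((ZMod.castHom _ k).injective h))

end Cyclotomic

section Cocycle

variable {r : MatRep k} {c : GQ → M22 k}

/-- Cocycles are additive on the kernel. -/
lemma coc_add_of_one (hc : c ∈ adCoc r) {g : GQ} (hg : r g = 1) (g' : GQ) :
    c (g * g') = c g + c g' := by
  have hg' : r g⁻¹ = 1 := by
    have := rep_mul_inv r g
    rwa [hg, one_mul] at this
  rw [hc.1, hg, hg', one_mul, mul_one]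

/-- Cocycles at conjugates of elements of the kernel. -/
lemma coc_conj_of_one (hc : c ∈ adCoc r) {g h : GQ} (hh : r h = 1) :
    c (g⁻¹ * h * g) = r g⁻¹ * c h * r g := by
  have e := hc.1 g (g⁻¹ * h * g)
  rw [show g * (g⁻¹ * h * g) = h * g by group, coc_add_of_one hc hh, add_comm (c h),
    add_right_inj] at e
  rw [e]
  simp only [← mul_assoc, rep_inv_mul, one_mul]
  rw [mul_assoc (c _), rep_inv_mul, mul_one]

/-- Coboundaries vanish where the representation is trivial. -/
lemma cobf_eq_zero (e : M22 k) {g : GQ} (hg : r g = 1) : cobf r e g = 0 := by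
  have hg' : r g⁻¹ = 1 := by
    have := rep_mul_inv r g
    rwa [hg, one_mul] at this
  simp [cobf, hg, hg']

/-- Adding a coboundary preserves continuity. -/
lemma IsContFun.add_cob (hc : IsContFun c)
    (hcont : ∃ L : IntermediateField ℚ Qbar, FiniteDimensional ℚ L ∧
      ∀ σ ∈ L.fixingSubgroup, r σ = 1) (e : M22 k) : IsContFun (c + cobf r e) := by
  obtain ⟨L, hL, h1⟩ := hc
  obtain ⟨L', hL', h2⟩ := hcont
  refine ⟨L ⊔ L', IntermediateField.finiteDimensional_sup L L', fun σ hσ => ?_⟩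
  rw [IntermediateField.fixingSubgroup_sup] at hσ
  rw [Pi.add_apply, h1 σ hσ.1, cobf_eq_zero e (h2 σ hσ.2), add_zero]

/-- Coboundaries are local coboundaries. -/
lemma cobf_mem_locCob (e : M22 k) (H : Subgroup GQ) : cobf r e ∈ locCob r H := ⟨e, fun _ _ => rfl⟩

/-- Continuity of the components. -/
lemma IsContFun.comp {W W' : Type} [Zero W] [Zero W'] {f : GQ → W} (hf : IsContFun f) (φ : W → W')
    (hφ : φ 0 = 0) : IsContFun fun g => φ (f g) := by
  obtain ⟨L, hL, h⟩ := hf
  exact ⟨L, hL, fun σ hσ => by show φ (f σ) = 0; rw [h σ hσ, hφ]⟩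

/-- Truncation preserves continuity. -/
lemma IsContFun.onH {f : GQ → k} (hf : IsContFun f) (H : Subgroup GQ) :
    IsContFun (onH H f) := by
  obtain ⟨L, hL, h⟩ := hf
  exact ⟨L, hL, fun σ hσ => by simp [FlatBound.onH, h σ hσ]⟩

/-- Twisted cocycles on the decomposition group trivial on `H` are coboundaries. -/
theorem twisted_line (R : TameRoot A p) {σ₀ F : GQ} (hσ₀ : σ₀ ∈ A.inertiaSubgroupIn ℚ)
    (hprim : IsPrimitiveRoot (σ₀ R.π / R.π) R.e) (hF : A.IsFrobeniusAt F p) {ν f : GQ → k}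
    (hν : ∀ g ∈ A.decompositionSubgroup ℚ, ∀ h ∈ A.decompositionSubgroup ℚ,
      ν (g * h) = ν g * ν h)
    (hν₀ : ν σ₀ ≠ 1) (hνc : ν (F * σ₀ * F⁻¹) ≠ 1)
    (hf : ∀ g ∈ A.decompositionSubgroup ℚ, ∀ h ∈ A.decompositionSubgroup ℚ,
      f (g * h) = f g + ν g * f h)
    (hcont : ∃ L : IntermediateField ℚ Qbar, FiniteDimensional ℚ L ∧
      ∀ σ ∈ L.fixingSubgroup, σ ∈ A.decompositionSubgroup ℚ → f σ = 0 ∧ ν σ = 1)
    (hH : ∀ h ∈ R.H, f h = 0 ∧ ν h = 1) :
    ∃ t : k, ∀ g ∈ A.decompositionSubgroup ℚ, f g = t * (ν g - 1) := by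
  have hID : ∀ {σ}, σ ∈ A.inertiaSubgroupIn ℚ → σ ∈ A.decompositionSubgroup ℚ :=
    fun h => inertia_le_decomposition h
  set t := f σ₀ / (ν σ₀ - 1)
  refine ⟨t, fun g hg => sub_eq_zero.mp ?_⟩
  set f' := fun g => f g - t * (ν g - 1) with hf'
  have hcoc : ∀ g ∈ A.decompositionSubgroup ℚ, ∀ h ∈ A.decompositionSubgroup ℚ,
      f' (g * h) = f' g + ν g * f' h := fun g hg h hh => by
    simp only [hf', hf g hg h hh, hν g hg h hh]; ring
  have hs : f' σ₀ = 0 := by
    simp only [hf', t, div_mul_cancel₀ _ (sub_ne_zero.mpr hν₀), sub_self]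
  have hfH : ∀ h ∈ R.H, f' h = 0 := fun h hh => by
    simp [hf', (hH h hh).1, (hH h hh).2]
  have hpow : ∀ j : ℕ, f' (σ₀ ^ j) = 0 := fun j => by
    induction j with
    | zero => rw [pow_zero]; exact hfH 1 (one_mem _)
    | succ j ih =>
      rw [pow_succ, hcoc _ (pow_mem (hID hσ₀) j) _ (hID hσ₀), ih, hs, mul_zero, add_zero]
  have hI : ∀ σ ∈ A.inertiaSubgroupIn ℚ, f' σ = 0 := fun σ hσ => by
    obtain ⟨j, hj⟩ := exists_pow_mul_mem R hσ₀ hprim hσ
    conv_lhs => rw [show σ = σ₀ ^ j * ((σ₀ ^ j)⁻¹ * σ) by group]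
    rw [hcoc _ (pow_mem (hID hσ₀) j) _ (hID (mem_rootFix.mp hj).1), hpow, hfH _ hj, mul_zero,
      add_zero]
  have hFz : f' F = 0 := by
    have hc := conj_mem_inertiaSubgroupIn_of_mem hp.out R.lies hσ₀ hF.mem_decompositionSubgroup
    have e := hcoc _ hF.mem_decompositionSubgroup _ (hID hσ₀)
    rw [show F * σ₀ = F * σ₀ * F⁻¹ * F by group, hcoc _ (hID hc) _ hF.mem_decompositionSubgroup,
      hI _ hc, hs, mul_zero, add_zero, zero_add, mul_left_eq_self₀] at e
    exact e.resolve_left hνc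
  obtain ⟨L, hL, hLf⟩ := hcont
  exact vanish_decomposition R.lies hF f' (fun g => AddMonoidHom.mulLeft (ν g)) hcoc L
    (fun σ hσ hσD => by simp [hf', (hLf σ hσ hσD).1, (hLf σ hσ hσD).2]) hI hFz hg

end Cocycle

section Functional

variable [Finite k] [CharP k p]

/-- Every additive functional is a twist of a given one. -/
theorem exists_twist (Λ : k →+ ZMod p) (hΛ : Λ ≠ 0) (lam : k →+ ZMod p) :
    ∃ s : k, ∀ x, lam x = Λ (s * x) := by
  let : Algebra (ZMod p) k := ZMod.algebra k p
  have : Module.Finite (ZMod p) k := Module.Finite.of_finite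
  let Φ : k →ₗ[ZMod p] Module.Dual (ZMod p) k :=
    AddMonoidHom.toZModLinearMap p (AddMonoidHom.mk'
      (fun s => AddMonoidHom.toZModLinearMap p (Λ.comp (AddMonoidHom.mulLeft s)))
      fun s t => LinearMap.ext fun x => by simp [add_mul])
  have hinj : Function.Injective Φ := by
    refine (injective_iff_map_eq_zero Φ).mpr fun s hs => ?_
    by_contra hs0
    refine hΛ (AddMonoidHom.ext fun x => ?_)
    have h := DFunLike.congr_fun hs (s⁻¹ * x)
    simpa [Φ, ← mul_assoc, mul_inv_cancel₀ hs0] using h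
  obtain ⟨s, hs⟩ := (LinearMap.injective_iff_surjective_of_finrank_eq_finrank
    Subspace.dual_finrank_eq.symm).mp hinj (AddMonoidHom.toZModLinearMap p lam)
  exact ⟨s, fun x => (DFunLike.congr_fun hs x).symm⟩

end Functional

section Quotient

/-- Small points map to small points of a quotient. -/
lemma small_quotient {S : Subgroup GQ} {M M' : Type} [AddCommGroup M] [AddCommGroup M']
    {act : GQ → M → M} {act' : GQ → M' → M'} {Z : Sys A S act} {Z' : Sys A S act'} {π : M →+ M'}
    (hB : ∀ f' : M' → Qbar, f' ∈ Z'.B ↔ f' ∘ π ∈ Z.B) {z : M} (hz : Z.Small z) :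
    Z'.Small (π z) := fun f hf => by
  have h := Z.small_iff.mp hz _ ((hB f).mp (Z'.gen_mem hf))
  rwa [Function.comp_apply, Function.comp_apply, map_zero] at h

end Quotient

end FermatAgent.CFT.FlatBound

end
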